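import Fermat.Agent.Newform.Deprive

/-!
# Strong multiplicity one for newforms of weight 2 on `Γ₀(N)`
-/

set_option autoImplicit false

open MeasureTheory UpperHalfPlane ModularForm ModularFormClass CongruenceSubgroup
  Matrix.SpecialLinearGroup
open scoped MatrixGroups ModularForm ENNReal
open Fermat.Agent.Petersson

namespace Fermat.Agent.Newform

section general

variable {k : ℤ} {f g : ℍ → ℂ}

/-- `T_ℓ f = c_ℓ f` for all primes `ℓ ∉ S`. -/
def Eig (k : ℤ) (S : Set ℕ) (c : ℕ → ℂ) (f : ℍ → ℂ) : Prop :=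
  ∀ ℓ : ℕ, ℓ.Prime → ℓ ∉ S → heckeT k ℓ f = c ℓ • f

lemma Eig.mono {S S' : Set ℕ} {c : ℕ → ℂ} (h : Eig k S c f) (hS : S ⊆ S') : Eig k S' c f :=
  fun ℓ hℓ hℓS => h ℓ hℓ fun h' => hℓS (hS h')

lemma Eig.congr {S : Set ℕ} {c c' : ℕ → ℂ} (h : Eig k S c f)
    (hc : ∀ ℓ : ℕ, ℓ.Prime → ℓ ∉ S → c ℓ = c' ℓ) : Eig k S c' f :=
  fun ℓ hℓ hℓS => by rw [h ℓ hℓ hℓS, hc ℓ hℓ hℓS]

lemma Eig.smul {S : Set ℕ} {c : ℕ → ℂ} (h : Eig k S c f) (a : ℂ) : Eig k S c (a • f) :=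
  fun ℓ hℓ hℓS => by rw [heckeT_smul, h ℓ hℓ hℓS, smul_comm]

lemma Eig.add {S : Set ℕ} {c : ℕ → ℂ} (h : Eig k S c f) (h' : Eig k S c g) : Eig k S c (f + g) :=
  fun ℓ hℓ hℓS => by rw [heckeT_add, h ℓ hℓ hℓS, h' ℓ hℓ hℓS, smul_add]

lemma Eig.sub {S : Set ℕ} {c : ℕ → ℂ} (h : Eig k S c f) (h' : Eig k S c g) : Eig k S c (f - g) := by
  rw [sub_eq_add_smul]
  exact h.add (h'.smul _)

/-- The first coefficient and the eigenvalues determine the coefficients prime to `S`. -/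
lemma Eig.coeff_eq_zero {N : ℕ} (hf : IsCF N k f) {S : Set ℕ} {c : ℕ → ℂ} (h : Eig k S c f)
    (h1 : qCoeff f 1 = 0) : ∀ n, n ≠ 0 → (∀ l ∈ S, l.Prime → ¬ l ∣ n) → qCoeff f n = 0 := by
  intro n
  induction n using Nat.strong_induction_on with
  | _ n ih =>
    intro hn0 hn
    rcases eq_or_ne n 1 with rfl | hn1
    · exact h1
    obtain ⟨ℓ, hℓ, m, rfl⟩ := Nat.exists_prime_and_dvd hn1
    have hm0 : m ≠ 0 := right_ne_zero_of_mul hn0
    have hℓS : ℓ ∉ S := fun h' => hn ℓ h' hℓ (Nat.dvd_mul_right ℓ m)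
    have hlt : m < ℓ * m := lt_mul_of_one_lt_left (Nat.pos_of_ne_zero hm0) hℓ.one_lt
    have e := congrArg (fun F : ℍ → ℂ => qCoeff F m) (h ℓ hℓ hℓS)
    simp only [hf.qCoeff_heckeT hℓ.ne_zero, hf.qCoeff_smul] at e
    have e1 : qCoeff f m = 0 := ih m hlt hm0 fun l hl hlp hd => hn l hl hlp (hd.mul_left ℓ)
    have e2 : (if ℓ ∣ m then (ℓ : ℂ) ^ (k - 1) * qCoeff f (m / ℓ) else 0) = 0 := by
      split_ifs with hd
      · obtain ⟨m', rfl⟩ := hd
        have hm'0 : m' ≠ 0 := right_ne_zero_of_mul hm0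
        rw [Nat.mul_div_cancel_left _ hℓ.pos]
        rw [ih m' ?_ hm'0 ?_, mul_zero]
        · have : m' ≤ ℓ * m' := Nat.le_mul_of_pos_left _ hℓ.pos
          omega
        · exact fun l hl hlp hd => hn l hl hlp ((hd.mul_left ℓ).mul_left ℓ)
      · rfl
    rw [e1, e2, add_zero, mul_zero, mul_comm m ℓ] at e
    exact e

lemma heckeT_heckeU_comm {N q ℓ : ℕ} [NeZero N] (hf : IsCF N k f) (hq : q.Prime) (hqN : q ∣ N)
    (hℓ : ℓ.Prime) (hℓN : ¬ ℓ ∣ N) :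
    heckeT k ℓ (heckeU k q f) = heckeU k q (heckeT k ℓ f) := by
  have hql : ℓ ≠ q := fun h => hℓN (h ▸ hqN)
  refine ((hf.heckeU hqN).heckeT hℓ hℓN).ext ((hf.heckeT hℓ hℓN).heckeU hqN) fun n => ?_
  rw [(hf.heckeU hqN).qCoeff_heckeT hℓ.ne_zero, hf.qCoeff_heckeU hq.ne_zero,
    hf.qCoeff_heckeU hq.ne_zero, (hf.heckeT hℓ hℓN).qCoeff_heckeU hq.ne_zero,
    hf.qCoeff_heckeT hℓ.ne_zero]
  have h1 : ℓ ∣ n * q ↔ ℓ ∣ n := by
    rw [hℓ.dvd_mul, Nat.prime_dvd_prime_iff_eq hℓ hq]; tauto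
  have h2 : n * ℓ * q = n * q * ℓ := by ring
  rw [h2]
  congr 1
  by_cases hd : ℓ ∣ n
  · rw [if_pos hd, if_pos (h1.2 hd)]
    congr 2
    obtain ⟨m, rfl⟩ := hd
    rw [Nat.mul_div_cancel_left _ hℓ.pos, mul_assoc, Nat.mul_div_cancel_left _ hℓ.pos]
  · rw [if_neg hd, if_neg (fun h => hd (h1.1 h))]

lemma Eig.AL {M Q : ℕ} (hQ : Q ≠ 0) (hcop : Nat.Coprime Q M) (hf : G0Inv (Q * M) k f)
    {S : Set ℕ} {c : ℕ → ℂ} (hS : ∀ p : ℕ, p.Prime → p ∣ Q * M → p ∈ S) (h : Eig k S c f)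
    {D : SL(2, ℤ)} (hD : IsAL M Q D) : Eig k S c (AL k Q D f) := by
  intro ℓ hℓ hℓS
  have : Fact ℓ.Prime := ⟨hℓ⟩
  have h1 : ¬ ℓ ∣ Q * M := fun h => hℓS (hS ℓ hℓ h)
  rw [heckeT_AL hQ hcop (fun h => h1 (h.mul_left _)) (fun h => h1 (h.mul_right _)) hf hD,
    h ℓ hℓ hℓS, AL_smul]

lemma Eig.Rop {M q a : ℕ} [NeZero M] (hq : q.Prime) (hcop : Nat.Coprime q M) (ha : a ≠ 0)
    (hf : IsCF (q ^ a * M) k f) {S : Set ℕ} {c : ℕ → ℂ}
    (hS : ∀ p : ℕ, p.Prime → p ∣ q ^ a * M → p ∈ S) (h : Eig k S c f)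
    {D : SL(2, ℤ)} (hD : IsAL M (q ^ a) D) : Eig k S c (Rop k q a D f) := by
  have hNZ : NeZero (q ^ a * M) := ⟨mul_ne_zero (pow_ne_zero _ hq.ne_zero) (NeZero.ne M)⟩
  intro ℓ hℓ hℓS
  have h1 : ¬ ℓ ∣ q ^ a * M := fun h => hℓS (hS ℓ hℓ h)
  unfold Newform.Rop
  rw [heckeT_add, heckeT_heckeU_comm hf hq ((dvd_pow_self q ha).mul_right _) hℓ h1, h ℓ hℓ hℓS,
    heckeU_smul, smul_add]
  congr 1
  split_ifs with h'
  · subst h'
    rw [pow_one] at hf hS hD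
    exact h.AL hq.ne_zero hcop hf.g0Inv hS hD ℓ hℓ hℓS
  · rw [heckeT_zero, smul_zero]

lemma IsCF.Rop {M q a : ℕ} [NeZero M] (hq : q.Prime) (hcop : Nat.Coprime q M) (ha : a ≠ 0)
    (hf : IsCF (q ^ a * M) k f) {D : SL(2, ℤ)} (hD : IsAL M (q ^ a) D) :
    IsCF (q ^ (a - 1) * M) k (Rop k q a D f) := by
  have : NeZero q := ⟨hq.ne_zero⟩
  have : Fact q.Prime := ⟨hq⟩
  have hNZ : NeZero (q ^ a * M) := ⟨mul_ne_zero (pow_ne_zero _ hq.ne_zero) (NeZero.ne M)⟩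
  have hNZ' : NeZero (q ^ (a - 1) * M) := ⟨mul_ne_zero (pow_ne_zero _ hq.ne_zero) (NeZero.ne M)⟩
  unfold Newform.Rop
  split_ifs with h
  · subst h
    rw [pow_one] at hf hD
    simp only [Nat.sub_self, pow_zero, one_mul]
    have hNZ'' : NeZero (q * M) := ⟨mul_ne_zero hq.ne_zero (NeZero.ne M)⟩
    exact ((hf.heckeU (Nat.dvd_mul_right q M)).add (hf.AL hq.ne_zero hcop hD)).of_g0Inv
      (g0Inv_heckeU_add_AL ((Nat.Prime.coprime_iff_not_dvd hq).1 hcop) hf.g0Inv hD)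
  · rw [add_zero]
    have h2 : q ^ a * M / q = q ^ (a - 1) * M := by
      have : q ^ a = q * q ^ (a - 1) := by
        rw [← pow_succ', Nat.sub_add_cancel (Nat.pos_of_ne_zero ha)]
      rw [this, mul_assoc, Nat.mul_div_cancel_left _ hq.pos]
    have h3 : q * q ∣ q ^ a * M := by
      rw [← pow_two]
      exact (pow_dvd_pow q (by omega)).mul_right _
    refine (hf.heckeU ((dvd_pow_self q ha).mul_right _)).of_g0Inv ?_
    rw [← h2]
    exact g0Inv_heckeU h3 hf.g0Inv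

/-- An eigenform whose eigensystem does not occur in levels `N / q` is new. -/
theorem isNew_of_eig {N : ℕ} [NeZero N] (hf : IsCF N k f) {S : Set ℕ} {c : ℕ → ℂ}
    (hS : ∀ p : ℕ, p.Prime → p ∣ N → p ∈ S) (h : Eig k S c f)
    (hno : ∀ q : ℕ, q.Prime → q ∣ N → ∀ x : ℍ → ℂ, IsCF (N / q) k x → Eig k S c x → x = 0) :
    IsNew N k f := by
  refine ⟨hf, fun q M a hq hcop ha e => ?_⟩
  subst e
  have hM : NeZero M := ⟨right_ne_zero_of_mul (NeZero.ne (q ^ a * M))⟩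
  have hlev : q ^ a * M / q = q ^ (a - 1) * M := by
    have : q ^ a = q * q ^ (a - 1) := by
      rw [← pow_succ', Nat.sub_add_cancel (Nat.pos_of_ne_zero ha)]
    rw [this, mul_assoc, Nat.mul_div_cancel_left _ hq.pos]
  have hqN : q ∣ q ^ a * M := (dvd_pow_self q ha).mul_right _
  have hno' := hno q hq hqN
  rw [hlev] at hno'
  have hcopa := Nat.Coprime.pow_left a hcop
  have hqa : q ^ a ≠ 0 := pow_ne_zero _ hq.ne_zero
  exact ⟨hf, fun D hD => hno' _ (hf.Rop hq hcop ha hD) (h.Rop hq hcop ha hf hS hD),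
    fun D hD => hno' _ ((hf.AL hqa hcopa hD).Rop hq hcop ha hD)
      ((h.AL hqa hcopa hf.g0Inv hS hD).Rop hq hcop ha (hf.AL hqa hcopa hD) hS hD)⟩

/-- **Level divisibility.** If the (almost everywhere) eigensystem of a new form of level `N`
occurs in level `M`, then `N ∣ M`. -/
theorem IsNew.dvd {N M : ℕ} [NeZero N] [NeZero M] (hf : IsNew N k f) {S : Set ℕ}
    (hSfin : S.Finite) {c : ℕ → ℂ} (hfc : Eig k S c f) (hf1 : qCoeff f 1 ≠ 0)
    (hg : IsCF M k g) (hgc : Eig k S c g) (hg1 : qCoeff g 1 ≠ 0) : N ∣ M := by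
  classical
  rw [← Nat.factorization_prime_le_iff_dvd (NeZero.ne N) (NeZero.ne M)]
  intro q hq
  by_contra hlt
  push Not at hlt
  set a := N.factorization q with ha
  set b := M.factorization q with hb
  have hNe : N = q ^ a * (N / q ^ a) := (Nat.ordProj_mul_ordCompl_eq_self N q).symm
  have hMe : M = q ^ b * (M / q ^ b) := (Nat.ordProj_mul_ordCompl_eq_self M q).symm
  have hN'0 : NeZero (N / q ^ a) := ⟨fun h => NeZero.ne N (by rw [hNe, h, mul_zero])⟩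
  have hM'0 : NeZero (M / q ^ b) := ⟨fun h => NeZero.ne M (by rw [hMe, h, mul_zero])⟩
  have hc1 : Nat.Coprime q (N / q ^ a) := Nat.coprime_ordCompl hq (NeZero.ne N)
  have hc2 : Nat.Coprime q (M / q ^ b) := Nat.coprime_ordCompl hq (NeZero.ne M)
  have ha0 : a ≠ 0 := by omega
  -- normalise
  set F : ℍ → ℂ := f - (qCoeff f 1 / qCoeff g 1) • g with hF
  have hg' : IsCF (q ^ (a - 1) * (M / q ^ b)) k ((qCoeff f 1 / qCoeff g 1) • g) := by
    refine (hg.smul _).mono ?_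
    conv_lhs => rw [hMe]
    exact mul_dvd_mul_right (pow_dvd_pow q (by omega)) _
  have hFc : Eig k S c F := hfc.sub (hgc.smul _)
  have hF1 : qCoeff F 1 = 0 := by
    rw [hF, hf.cf.qCoeff_sub (hg.smul _), hg.qCoeff_smul]
    field_simp
    ring
  have hFcf : IsCF (N * M) k F :=
    (hf.cf.mono (Nat.dvd_mul_right N M)).sub ((hg.smul _).mono (Nat.dvd_mul_left M N))
  let L : List ℕ := (hSfin.toFinset.filter (fun l => l.Prime ∧ l ≠ q)).toList
  have hL : ∀ l ∈ L, l.Prime := fun l hl => by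
    have := Finset.mem_toList.1 hl
    exact (Finset.mem_filter.1 this).2.1
  have hqL : q ∉ L := fun h => (Finset.mem_filter.1 (Finset.mem_toList.1 h)).2.2 rfl
  have key := QNew.coeff_eq_zero hL hq hc1 hc2 ha0 hqL (hf.new q _ a hq hc1 ha0 hNe) hg' (by
    intro n hqn hn
    rw [← sub_eq_zero, ← hf.cf.qCoeff_sub (hg.smul _), ← hF]
    rcases eq_or_ne n 0 with rfl | hn0
    · exact absurd (dvd_zero q) hqn
    refine Eig.coeff_eq_zero hFcf hFc hF1 n hn0 fun l hl hlp hd => ?_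
    by_cases hlq : l = q
    · exact hqn (hlq ▸ hd)
    · exact hn l (Finset.mem_toList.2 (Finset.mem_filter.2 ⟨hSfin.mem_toFinset.2 hl, hlp, hlq⟩)) hd)
  exact hf1 (key 1 fun l hl hd => (hL l hl).one_lt.ne' (Nat.dvd_one.1 hd))

/-- A new eigenform with vanishing first coefficient is zero. -/
theorem IsNew.eq_zero_of_coeff_one {N : ℕ} [NeZero N] (hf : IsNew N k f) {S : Set ℕ}
    (hSfin : S.Finite) {c : ℕ → ℂ} (hfc : Eig k S c f) (hf1 : qCoeff f 1 = 0) : f = 0 := by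
  classical
  let L : List ℕ := (hSfin.toFinset.filter (fun l => l.Prime)).toList
  have hL : ∀ l ∈ L, l.Prime := fun l hl => by
    have := Finset.mem_toList.1 hl
    exact (Finset.mem_filter.1 this).2
  refine hf.eq_zero hL fun n hn => ?_
  rcases eq_or_ne n 0 with rfl | hn0
  · exact hf.cf.qCoeff_zero'
  · exact Eig.coeff_eq_zero hf.cf hfc hf1 n hn0 fun l hl hlp hd =>
      hn l (Finset.mem_toList.2 (Finset.mem_filter.2 ⟨hSfin.mem_toFinset.2 hl, hlp⟩)) hd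

lemma QNew.sub {M q a : ℕ} (hf : QNew M q a k f) (hg : QNew M q a k g) : QNew M q a k (f - g) := by
  refine ⟨hf.cf.sub hg.cf, fun D hD => ?_, fun D hD => ?_⟩
  · rw [sub_eq_add_smul, Rop_add, Rop_smul, hf.r1 D hD, hg.r1 D hD]; simp
  · rw [sub_eq_add_smul, AL_add, AL_smul, Rop_add, Rop_smul, hf.r2 D hD, hg.r2 D hD]; simp

lemma QNew.smul {M q a : ℕ} (hf : QNew M q a k f) (c : ℂ) : QNew M q a k (c • f) := by
  refine ⟨hf.cf.smul c, fun D hD => ?_, fun D hD => ?_⟩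
  · rw [Rop_smul, hf.r1 D hD]; simp
  · rw [AL_smul, Rop_smul, hf.r2 D hD]; simp

lemma IsNew.sub {N : ℕ} (hf : IsNew N k f) (hg : IsNew N k g) : IsNew N k (f - g) :=
  ⟨hf.cf.sub hg.cf, fun q M a hq hc ha e => (hf.new q M a hq hc ha e).sub (hg.new q M a hq hc ha e)⟩

lemma IsNew.smul {N : ℕ} (hf : IsNew N k f) (c : ℂ) : IsNew N k (c • f) :=
  ⟨hf.cf.smul c, fun q M a hq hc ha e => (hf.new q M a hq hc ha e).smul c⟩

end general

/-! ### Weight two: newforms in the sense of the prelude -/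

section weight2

variable {N M : ℕ} [NeZero N] [NeZero M]

/-- the set of primes dividing `N` -/
def badSet (N : ℕ) : Set ℕ := {p | p ∣ N}

omit [NeZero M] in
lemma finite_badSet : (badSet N).Finite :=
  (Nat.divisors N).finite_toSet.subset fun p hp => by
    simpa using ⟨hp, NeZero.ne N⟩

omit [NeZero M] in
lemma eig_of_eigenform {f : CuspForm (Gamma0 N) 2} (hf : f.IsNormalizedEigenform) :
    Eig 2 (badSet N) (qCoeff ⇑f) ⇑f :=
  fun _ hℓ hℓN => heckeT_eq hf hℓ hℓN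

/-- A nonzero form with an eigensystem (for almost all primes) gives a normalised eigenform. -/
theorem exists_eigenform_of_eig {x : ℍ → ℂ} (hx : IsCF N 2 x) (hx0 : x ≠ 0) {S : Set ℕ}
    {c : ℕ → ℂ} (h : Eig 2 S c x) :
    ∃ g : CuspForm (Gamma0 N) 2, g.IsNormalizedEigenform ∧
      ∀ ℓ : ℕ, ℓ.Prime → ¬ ℓ ∣ N → ℓ ∉ S → qCoeff ⇑g ℓ = c ℓ := by
  obtain ⟨X, rfl⟩ := hx
  refine exists_eigenform_of_partial c (fun ℓ => ℓ ∉ S) X (fun h => hx0 (by rw [h]; rfl)) ?_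
  intro ℓ hℓ hℓN hℓS
  exact DFunLike.coe_injective (h ℓ hℓ hℓS)

/-- Newforms in the sense of the prelude are new. -/
theorem isNew_of_isNewform {f : CuspForm (Gamma0 N) 2} (hf : f.IsNewform) : IsNew N 2 ⇑f := by
  refine isNew_of_eig (isCF_coe f) (S := badSet N) (fun p _ h => h) (eig_of_eigenform hf.1) ?_
  intro q hq hqN x hx hxe
  by_contra hx0
  have hNq : NeZero (N / q) :=
    ⟨(Nat.div_pos (Nat.le_of_dvd (NeZero.pos N) hqN) hq.pos).ne'⟩
  obtain ⟨g, hg, hgc⟩ := exists_eigenform_of_eig hx hx0 hxe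
  refine hf.2 (N / q) (Nat.div_dvd_of_dvd hqN) (Nat.div_lt_self (NeZero.pos N) hq.one_lt).ne
    ⟨g, hg, fun ℓ hℓ hℓN => hgc ℓ hℓ (fun h => hℓN (h.trans (Nat.div_dvd_of_dvd hqN))) hℓN⟩

/-- **Level divisibility.** If the eigenvalues of a newform `f` of level `N` agree almost
everywhere with those of an eigenform `g` of level `M`, then `N ∣ M`. -/
theorem dvd_of_isNewform {f : CuspForm (Gamma0 N) 2} (hf : f.IsNewform)
    {g : CuspForm (Gamma0 M) 2} (hg : g.IsNormalizedEigenform) {S : Set ℕ} (hS : S.Finite)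
    (h : ∀ ℓ : ℕ, ℓ.Prime → ℓ ∉ S → qCoeff ⇑f ℓ = qCoeff ⇑g ℓ) : N ∣ M := by
  have hSf : (S ∪ badSet N ∪ badSet M).Finite := (hS.union finite_badSet).union finite_badSet
  refine (isNew_of_isNewform hf).dvd (c := qCoeff ⇑f) hSf
    ((eig_of_eigenform hf.1).mono fun x hx => Or.inl (Or.inr hx)) (by rw [hf.1.qCoeff_one]; simp)
    (isCF_coe g) (((eig_of_eigenform hg).mono fun x hx => Or.inr hx).congr fun ℓ hℓ hℓS => ?_)
    (by rw [hg.qCoeff_one]; simp)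
  exact (h ℓ hℓ fun h' => hℓS (Or.inl (Or.inl h'))).symm

/-- Version of `dvd_of_isNewform` for a nonzero form which is an eigenvector of almost all
Hecke operators. -/
theorem dvd_of_isNewform' {f : CuspForm (Gamma0 N) 2} (hf : f.IsNewform) {x : ℍ → ℂ}
    (hx : IsCF M 2 x) (hx0 : x ≠ 0) {S : Set ℕ} (hS : S.Finite) (h : Eig 2 S (qCoeff ⇑f) x) :
    N ∣ M := by
  obtain ⟨g, hg, hgc⟩ := exists_eigenform_of_eig hx hx0 h
  refine dvd_of_isNewform hf hg (S := S ∪ badSet M) (hS.union finite_badSet) fun ℓ hℓ hℓS => ?_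
  exact (hgc ℓ hℓ (fun h' => hℓS (Or.inr h')) (fun h' => hℓS (Or.inl h'))).symm

omit [NeZero M] in
/-- A form of level `N` in the (almost everywhere) eigenspace of a newform of level `N` is new. -/
theorem isNew_of_eig_newform {f : CuspForm (Gamma0 N) 2} (hf : f.IsNewform) {x : ℍ → ℂ}
    (hx : IsCF N 2 x) {S : Set ℕ} (hS : S.Finite) (h : Eig 2 S (qCoeff ⇑f) x) :
    IsNew N 2 x := by
  refine isNew_of_eig hx (S := S ∪ badSet N) (c := qCoeff ⇑f) (fun p _ h => Or.inr h)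
    (h.mono fun x hx => Or.inl hx) ?_
  intro q hq hqN y hy hye
  by_contra hy0
  have hNq : NeZero (N / q) :=
    ⟨(Nat.div_pos (Nat.le_of_dvd (NeZero.pos N) hqN) hq.pos).ne'⟩
  have := dvd_of_isNewform' hf hy hy0 (hS.union finite_badSet) hye
  exact absurd (Nat.le_of_dvd (NeZero.pos _) this)
    (not_le.2 (Nat.div_lt_self (NeZero.pos N) hq.one_lt))

omit [NeZero M] in
/-- **Multiplicity one.** The (almost everywhere) eigenspace of a newform of level `N` in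
`S₂(Γ₀(N))` is one dimensional. -/
theorem eq_smul_of_eig {f : CuspForm (Gamma0 N) 2} (hf : f.IsNewform) {x : ℍ → ℂ}
    (hx : IsCF N 2 x) {S : Set ℕ} (hS : S.Finite) (h : Eig 2 S (qCoeff ⇑f) x) :
    x = qCoeff x 1 • ⇑f := by
  have h1 : IsNew N 2 (x - qCoeff x 1 • ⇑f) :=
    (isNew_of_eig_newform hf hx hS h).sub ((isNew_of_isNewform hf).smul _)
  have h2 : Eig 2 (S ∪ badSet N) (qCoeff ⇑f) (x - qCoeff x 1 • ⇑f) :=
    (h.mono fun x hx => Or.inl hx).sub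
      (((eig_of_eigenform hf.1).mono fun x hx => Or.inr hx).smul _)
  refine sub_eq_zero.1 (h1.eq_zero_of_coeff_one (hS.union finite_badSet) h2 ?_)
  rw [hx.qCoeff_sub ((isCF_coe f).smul _), (isCF_coe f).qCoeff_smul, hf.1.qCoeff_one]
  ring

/-- **Strong multiplicity one.** Two newforms whose eigenvalues agree almost everywhere have the
same level and are equal. -/
theorem strong_multiplicity_one {f : CuspForm (Gamma0 N) 2} (hf : f.IsNewform)
    {g : CuspForm (Gamma0 M) 2} (hg : g.IsNewform) {S : Set ℕ} (hS : S.Finite)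
    (h : ∀ ℓ : ℕ, ℓ.Prime → ℓ ∉ S → qCoeff ⇑f ℓ = qCoeff ⇑g ℓ) :
    N = M ∧ (⇑f : ℍ → ℂ) = ⇑g := by
  have h1 : N ∣ M := dvd_of_isNewform hf hg.1 hS h
  have h2 : M ∣ N := dvd_of_isNewform hg hf.1 hS fun ℓ hℓ hℓS => (h ℓ hℓ hℓS).symm
  obtain rfl := Nat.dvd_antisymm h1 h2
  refine ⟨rfl, ?_⟩
  have h3 : Eig 2 (S ∪ badSet N) (qCoeff ⇑f) ⇑g :=
    ((eig_of_eigenform hg.1).mono fun x hx => Or.inr hx).congr fun ℓ hℓ hℓS =>
      (h ℓ hℓ fun h' => hℓS (Or.inl h')).symm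
  have h4 := eq_smul_of_eig hf (isCF_coe g) (hS.union finite_badSet) h3
  rw [hg.1.qCoeff_one, one_smul] at h4
  exact h4.symm

/-- **Good primes.** If the eigenvalues of two normalised eigenforms of levels `N`, `M` agree
almost everywhere then they agree at all primes `ℓ ∤ N M`. -/
theorem qCoeff_eq_of_eventually {f : CuspForm (Gamma0 N) 2} (hf : f.IsNormalizedEigenform)
    {g : CuspForm (Gamma0 M) 2} (hg : g.IsNormalizedEigenform) {S : Set ℕ} (hS : S.Finite)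
    (h : ∀ ℓ : ℕ, ℓ.Prime → ℓ ∉ S → qCoeff ⇑f ℓ = qCoeff ⇑g ℓ) {q : ℕ} (hq : q.Prime)
    (hqN : ¬ q ∣ N) (hqM : ¬ q ∣ M) : qCoeff ⇑f q = qCoeff ⇑g q := by
  classical
  have hNM : NeZero (N * M) := ⟨mul_ne_zero (NeZero.ne N) (NeZero.ne M)⟩
  have hSf : (S ∪ badSet N ∪ badSet M).Finite := (hS.union finite_badSet).union finite_badSet
  let L : List ℕ := (hSf.toFinset.filter (fun l => l.Prime ∧ l ≠ q)).toList
  have hL : ∀ l ∈ L, l.Prime := fun l hl => by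
    have := Finset.mem_toList.1 hl
    exact (Finset.mem_filter.1 this).2.1
  have hqL : q ∉ L := fun h => (Finset.mem_filter.1 (Finset.mem_toList.1 h)).2.2 rfl
  have hF : IsCF (N * M) 2 (⇑f - ⇑g) :=
    ((isCF_coe f).mono (Nat.dvd_mul_right N M)).sub ((isCF_coe g).mono (Nat.dvd_mul_left M N))
  have hFc : Eig 2 (S ∪ badSet N ∪ badSet M) (qCoeff ⇑f) (⇑f - ⇑g) :=
    ((eig_of_eigenform hf).mono fun x hx => Or.inl (Or.inr hx)).sub
      (((eig_of_eigenform hg).mono fun x hx => Or.inr hx).congr fun ℓ hℓ hℓS =>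
        (h ℓ hℓ fun h' => hℓS (Or.inl (Or.inl h'))).symm)
  have hF1 : qCoeff (⇑f - ⇑g) 1 = 0 := by
    rw [(isCF_coe f).qCoeff_sub (isCF_coe g), hf.qCoeff_one, hg.qCoeff_one, sub_self]
  have hcop : Nat.Coprime q (N * M) := Nat.Coprime.mul_right
    ((Nat.Prime.coprime_iff_not_dvd hq).2 hqN) ((Nat.Prime.coprime_iff_not_dvd hq).2 hqM)
  have key := hF.coeff_eq hL hq hcop hqL (by
    intro n hqn hn
    rcases eq_or_ne n 0 with rfl | hn0
    · exact absurd (dvd_zero q) hqn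
    refine Eig.coeff_eq_zero hF hFc hF1 n hn0 fun l hl hlp hd => ?_
    by_cases hlq : l = q
    · exact hqn (hlq ▸ hd)
    · exact hn l (Finset.mem_toList.2 (Finset.mem_filter.2 ⟨hSf.mem_toFinset.2 hl, hlp, hlq⟩)) hd)
  have := key q (fun l hl hd => hqL ((Nat.prime_dvd_prime_iff_eq (hL l hl) hq).1 hd ▸ hl))
  rw [(isCF_coe f).qCoeff_sub (isCF_coe g)] at this
  exact sub_eq_zero.1 this

/-- A normalised eigenform is a newform (in the sense of the prelude) if and only if it is new. -/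
theorem isNewform_iff_isNew {f : CuspForm (Gamma0 N) 2} (hf : f.IsNormalizedEigenform) :
    f.IsNewform ↔ IsNew N 2 ⇑f := by
  refine ⟨isNew_of_isNewform, fun h => ⟨hf, fun m hm hne hocc => hne ?_⟩⟩
  obtain ⟨g, hg, hgf⟩ := hocc
  have hm0 : NeZero m := ⟨fun h0 => NeZero.ne N (by rw [h0] at hm; exact zero_dvd_iff.1 hm)⟩
  refine Nat.dvd_antisymm hm ?_
  refine h.dvd (c := qCoeff ⇑f) (finite_badSet (N := N)) (eig_of_eigenform hf)
    (by rw [hf.qCoeff_one]; simp) (isCF_coe g) ?_ (by rw [hg.qCoeff_one]; simp)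
  intro ℓ hℓ hℓN
  rw [heckeT_eq hg hℓ (fun h' => hℓN (h'.trans hm)), hgf ℓ hℓ hℓN]

/-- The newform behind a normalised eigenform, with its uniqueness. -/
theorem exists_unique_newform {g : CuspForm (Gamma0 N) 2} (hg : g.IsNormalizedEigenform) :
    ∃ (m : ℕ) (_ : NeZero m) (f : CuspForm (Gamma0 m) 2), m ∣ N ∧ f.IsNewform ∧
      (∀ ℓ : ℕ, ℓ.Prime → ¬ ℓ ∣ N → qCoeff ⇑f ℓ = qCoeff ⇑g ℓ) ∧
      ∀ (m' : ℕ) (_ : NeZero m') (f' : CuspForm (Gamma0 m') 2) (S : Set ℕ), S.Finite →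
        f'.IsNewform → (∀ ℓ : ℕ, ℓ.Prime → ℓ ∉ S → qCoeff ⇑f' ℓ = qCoeff ⇑g ℓ) →
        m' = m ∧ (⇑f' : ℍ → ℂ) = ⇑f := by
  obtain ⟨m, hm, f, hf, hfg⟩ := Oldform.exists_isNewform (NeZero.ne N) hg
  have hm0 : NeZero m := ⟨fun h0 => NeZero.ne N (by rw [h0] at hm; exact zero_dvd_iff.1 hm)⟩
  refine ⟨m, hm0, f, hm, hf, hfg, fun m' hm' f' S hS hf' h => ?_⟩
  refine strong_multiplicity_one hf' hf (S := S ∪ badSet N) (hS.union finite_badSet)
    fun ℓ hℓ hℓS => ?_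
  rw [h ℓ hℓ fun h' => hℓS (Or.inl h'), hfg ℓ hℓ fun h' => hℓS (Or.inr h')]

end weight2

end Fermat.Agent.Newform
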