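import Fermat.Agent.Newform.Eigenvector

/-!
The Atkin–Lehner operator at a prime `q ∥ N`, on functions invariant under `Γ₀(N)`.

Write `N = q M` with `q ∤ M`. For `D ∈ SL₂(ℤ)` with `M ∣ D₁₀`, `q ∣ D₁₁`, put
`W = D * diag(q,1)`.
-/

set_option autoImplicit false

open UpperHalfPlane ModularForm CongruenceSubgroup Matrix.SpecialLinearGroup
open scoped MatrixGroups ModularForm OnePoint
open P2MW.S_ModularForm_heckeT_slash_eq_self_of_mem_Gamma0.ModularForm.HeckeSlashInvariance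

namespace Fermat.Agent.Newform

/-- invariance under `Γ₀(N)` -/
def G0Inv (N : ℕ) (k : ℤ) (f : ℍ → ℂ) : Prop :=
  ∀ γ : SL(2, ℤ), (N : ℤ) ∣ γ 1 0 → f ∣[k] (mapGL ℝ γ) = f

lemma g0Inv_coe {N : ℕ} {k : ℤ} (f : CuspForm (Gamma0 N) k) : G0Inv N k f :=
  fun γ hγ => SlashInvariantFormClass.slash_action_eq f _
    ⟨γ, Gamma0_mem.2 ((ZMod.intCast_zmod_eq_zero_iff_dvd _ _).2 hγ), rfl⟩

/-- The set of matrices `D ∈ SL₂(ℤ)` with `M ∣ D₁₀`, `q ∣ D₁₁`. -/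
def IsAL (M q : ℕ) (D : SL(2, ℤ)) : Prop := (M : ℤ) ∣ D 1 0 ∧ (q : ℤ) ∣ D 1 1

lemma exists_isAL {M q : ℕ} (h : Nat.Coprime q M) : ∃ D : SL(2, ℤ), IsAL M q D := by
  obtain ⟨w, y, hwy⟩ : ∃ w y : ℤ, q * w - M * y = 1 := by
    obtain ⟨a, b, hab⟩ := Nat.isCoprime_iff_coprime.2 h
    exact ⟨a, -b, by linarith⟩
  refine ⟨⟨!![1, y; M, q * w], ?_⟩, ?_, ?_⟩
  · rw [Matrix.det_fin_two_of]; linarith
  · exact ⟨1, by simp⟩
  · exact ⟨w, by simp⟩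

lemma mul_apply_one_zero (A B : SL(2, ℤ)) : (A * B) 1 0 = A 1 0 * B 0 0 + A 1 1 * B 1 0 := by
  simp [Matrix.mul_apply, Fin.sum_univ_two]

lemma mul_apply_one_one (A B : SL(2, ℤ)) : (A * B) 1 1 = A 1 0 * B 0 1 + A 1 1 * B 1 1 := by
  simp [Matrix.mul_apply, Fin.sum_univ_two]

lemma inv_apply_zero_zero (A : SL(2, ℤ)) : A⁻¹ 0 0 = A 1 1 := by
  simp [Matrix.SpecialLinearGroup.coe_inv, Matrix.adjugate_fin_two]

lemma inv_apply_one_zero (A : SL(2, ℤ)) : A⁻¹ 1 0 = - A 1 0 := by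
  simp [Matrix.SpecialLinearGroup.coe_inv, Matrix.adjugate_fin_two]

lemma dvd_quot_of_isAL {M q : ℕ} (hc : Nat.Coprime q M) {D D' : SL(2, ℤ)} (hD : IsAL M q D)
    (hD' : IsAL M q D') : ((q * M : ℕ) : ℤ) ∣ (D' * D⁻¹) 1 0 := by
  rw [mul_apply_one_zero, inv_apply_zero_zero, inv_apply_one_zero]
  push_cast
  refine IsCoprime.mul_dvd (Nat.isCoprime_iff_coprime.2 hc) ?_ ?_
  · exact dvd_add (hD.2.mul_left _) (hD'.2.mul_right _)
  · exact dvd_add (hD'.1.mul_right _) ((hD.1.neg_right).mul_left _)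

lemma slash_eq_of_isAL {M q : ℕ} (hc : Nat.Coprime q M) {k : ℤ} {f : ℍ → ℂ}
    (hf : G0Inv (q * M) k f) {D D' : SL(2, ℤ)} (hD : IsAL M q D) (hD' : IsAL M q D') :
    f ∣[k] (mapGL ℝ D') = f ∣[k] (mapGL ℝ D) := by
  have h1 : mapGL ℝ D' = mapGL ℝ (D' * D⁻¹) * mapGL ℝ D := by
    rw [← map_mul]; simp
  rw [h1, SlashAction.slash_mul, hf _ (dvd_quot_of_isAL hc hD hD')]

/-- The Atkin–Lehner operator. -/
noncomputable def AL (k : ℤ) (q : ℕ) (D : SL(2, ℤ)) (f : ℍ → ℂ) : ℍ → ℂ :=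
  (f ∣[k] (mapGL ℝ D)) ∣[k] heckeDiagMatrix q

/-- The lower row of a real matrix is divisible by `q`. -/
def LowDiv (q : ℕ) (A : GL (Fin 2) ℝ) : Prop :=
  ∃ c d : ℤ, A 1 0 = (q : ℝ) * c ∧ A 1 1 = (q : ℝ) * d

lemma LowDiv.mul {q : ℕ} {A : GL (Fin 2) ℝ} (hA : LowDiv q A) (γ : SL(2, ℤ)) :
    LowDiv q (A * mapGL ℝ γ) := by
  obtain ⟨c, d, hc, hd⟩ := hA
  refine ⟨c * γ 0 0 + d * γ 1 0, c * γ 0 1 + d * γ 1 1, ?_, ?_⟩
  · simp only [Units.val_mul, Matrix.mul_apply, Fin.sum_univ_two, hc, hd, mapGL_apply]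
    push_cast; ring
  · simp only [Units.val_mul, Matrix.mul_apply, Fin.sum_univ_two, hc, hd, mapGL_apply]
    push_cast; ring

lemma LowDiv.heckeMul {q ℓ : ℕ} [NeZero ℓ] {A : GL (Fin 2) ℝ} (hA : LowDiv q A)
    (x : OnePoint (ZMod ℓ)) : LowDiv q (heckeRep ℓ x * A) := by
  have hℓ : ℓ ≠ 0 := NeZero.ne ℓ
  obtain ⟨c, d, hc, hd⟩ := hA
  induction x using OnePoint.rec with
  | infty =>
    refine ⟨c, d, ?_, ?_⟩
    · simp [heckeRep_infty, Matrix.mul_apply, Fin.sum_univ_two, hc, hℓ]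
    · simp [heckeRep_infty, Matrix.mul_apply, Fin.sum_univ_two, hd, hℓ]
  | coe j =>
    refine ⟨ℓ * c, ℓ * d, ?_, ?_⟩
    · simp [heckeRep_coe, Matrix.mul_apply, Fin.sum_univ_two, hc, hℓ]; ring
    · simp [heckeRep_coe, Matrix.mul_apply, Fin.sum_univ_two, hd, hℓ]; ring

lemma lowDiv_heckeMatrix {q : ℕ} (hq : q ≠ 0) (j : ℕ) : LowDiv q (heckeMatrix q j) :=
  ⟨0, 1, by simp [hq], by simp [hq]⟩

lemma lowDiv_of_dvd {q : ℕ} (hq : q ≠ 0) {D : SL(2, ℤ)} (hD : (q : ℤ) ∣ D 1 1) :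
    LowDiv q (mapGL ℝ D * heckeDiagMatrix q) := by
  obtain ⟨d, hd⟩ := hD
  refine ⟨D 1 0, d, ?_, ?_⟩
  · simp [Matrix.mul_apply, Fin.sum_univ_two, hq]; ring
  · simp [Matrix.mul_apply, Fin.sum_univ_two, hq, hd]

lemma dvd_of_lowDiv_diag {q : ℕ} (hq : q ≠ 0) {D : SL(2, ℤ)}
    (h : LowDiv q (mapGL ℝ D * heckeDiagMatrix q)) : (q : ℤ) ∣ D 1 1 := by
  obtain ⟨c, d, hc, hd⟩ := h
  simp [Matrix.mul_apply, Fin.sum_univ_two, hq] at hd
  exact ⟨d, by exact_mod_cast hd⟩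

lemma dvd_of_lowDiv_hecke {q : ℕ} (hq : q ≠ 0) {D : SL(2, ℤ)} {j : ℕ}
    (h : LowDiv q (mapGL ℝ D * heckeMatrix q j)) : (q : ℤ) ∣ D 1 0 := by
  obtain ⟨c, d, hc, hd⟩ := h
  simp [Matrix.mul_apply, Fin.sum_univ_two, hq] at hc
  exact ⟨c, by exact_mod_cast hc⟩

/-- The terms of the trace sum. -/
noncomputable def trTerm (k : ℤ) (q : ℕ) (D : SL(2, ℤ)) (f : ℍ → ℂ) (x : OnePoint (ZMod q)) :
    ℍ → ℂ :=
  x.elim (AL k q D f) (fun j => f ∣[k] heckeMatrix q j.val)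

lemma trTerm_infty (k : ℤ) (q : ℕ) (D : SL(2, ℤ)) (f : ℍ → ℂ) :
    trTerm k q D f ∞ = AL k q D f := rfl

lemma trTerm_coe (k : ℤ) (q : ℕ) (D : SL(2, ℤ)) (f : ℍ → ℂ) (j : ZMod q) :
    trTerm k q D f j = f ∣[k] heckeMatrix q j.val := rfl

section

variable {M q : ℕ} [Fact q.Prime] (hqM : ¬ q ∣ M) {k : ℤ} {f : ℍ → ℂ}

include hqM in
lemma trTerm_of_lowDiv (hf : G0Inv (q * M) k f) {D₀ : SL(2, ℤ)} (hD₀ : IsAL M q D₀)
    {D : SL(2, ℤ)} (hD : (M : ℤ) ∣ D 1 0) (x : OnePoint (ZMod q))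
    (h : LowDiv q (mapGL ℝ D * heckeRep q x)) :
    f ∣[k] (mapGL ℝ D * heckeRep q x) = trTerm k q D₀ f x := by
  have hq0 : q ≠ 0 := (Fact.out : q.Prime).ne_zero
  have hcop : Nat.Coprime q M := (Nat.Prime.coprime_iff_not_dvd Fact.out).2 hqM
  rw [SlashAction.slash_mul]
  induction x using OnePoint.rec with
  | infty =>
    rw [heckeRep_infty] at h ⊢
    have hq1 := dvd_of_lowDiv_diag hq0 h
    rw [trTerm_infty, AL, slash_eq_of_isAL hcop hf hD₀ ⟨hD, hq1⟩]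
  | coe j =>
    rw [heckeRep_coe] at h ⊢
    have hq1 := dvd_of_lowDiv_hecke hq0 h
    rw [trTerm_coe, hf D]
    push_cast
    exact IsCoprime.mul_dvd (Nat.isCoprime_iff_coprime.2 hcop) hq1 hD

include hqM in
lemma trTerm_slash (hf : G0Inv (q * M) k f) {D₀ : SL(2, ℤ)} (hD₀ : IsAL M q D₀)
    (γ : SL(2, ℤ)) (hγ : (M : ℤ) ∣ γ 1 0) (x : OnePoint (ZMod q)) :
    (trTerm k q D₀ f x) ∣[k] (mapGL ℝ γ) = trTerm k q D₀ f (redMatrix q γ • x) := by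
  have hq0 : q ≠ 0 := (Fact.out : q.Prime).ne_zero
  obtain ⟨g', hg', hmul⟩ := heckeRep_mul hqM γ hγ x
  obtain ⟨E, hE, hEx, hlow⟩ : ∃ E : SL(2, ℤ), (M : ℤ) ∣ E 1 0 ∧
      trTerm k q D₀ f x = f ∣[k] (mapGL ℝ E * heckeRep q x) ∧
      LowDiv q (mapGL ℝ E * heckeRep q x) := by
    induction x using OnePoint.rec with
    | infty =>
      exact ⟨D₀, hD₀.1, by rw [trTerm_infty, AL, heckeRep_infty, SlashAction.slash_mul],
        lowDiv_of_dvd hq0 hD₀.2⟩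
    | coe j =>
      refine ⟨1, by simp, ?_, ?_⟩
      · rw [trTerm_coe, map_one, one_mul, heckeRep_coe]
      · rw [map_one, one_mul, heckeRep_coe]; exact lowDiv_heckeMatrix hq0 _
  have h1 : mapGL ℝ E * heckeRep q x * mapGL ℝ γ =
      mapGL ℝ (E * g') * heckeRep q (redMatrix q γ • x) := by
    rw [mul_assoc, hmul, map_mul, mul_assoc]
  have h2 := hlow.mul γ
  rw [h1] at h2
  rw [hEx, ← SlashAction.slash_mul, h1]
  refine trTerm_of_lowDiv hqM hf hD₀ ?_ _ h2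
  rw [mul_apply_one_zero]
  exact dvd_add (hE.mul_right _) (hg'.mul_left _)

lemma sum_trTerm (D₀ : SL(2, ℤ)) :
    ∑ x : OnePoint (ZMod q), trTerm k q D₀ f x = heckeU k q f + AL k q D₀ f := by
  have h1 : ∑ x : OnePoint (ZMod q), trTerm k q D₀ f x =
      trTerm k q D₀ f ∞ + ∑ j : ZMod q, trTerm k q D₀ f (j : OnePoint (ZMod q)) :=
    Fintype.sum_option (fun x : OnePoint (ZMod q) ↦ trTerm k q D₀ f x)
  rw [h1, heckeU_eq_sum_zmod, add_comm]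
  rfl

include hqM in
/-- `U_q f + f ∣ W` is invariant under `Γ₀(M)`. -/
theorem g0Inv_heckeU_add_AL (hf : G0Inv (q * M) k f) {D₀ : SL(2, ℤ)} (hD₀ : IsAL M q D₀) :
    G0Inv M k (heckeU k q f + AL k q D₀ f) := by
  intro γ hγ
  rw [← sum_trTerm, SlashAction.sum_slash]
  simp only [trTerm_slash hqM hf hD₀ γ hγ]
  exact Equiv.sum_comp (MulAction.toPerm (redMatrix q γ)) (fun x ↦ trTerm k q D₀ f x)

end

section general

variable {M q : ℕ} (hq0 : q ≠ 0) (hcop : Nat.Coprime q M) {k : ℤ} {f : ℍ → ℂ}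

include hq0 hcop in
/-- `f ∣ W` is invariant under `Γ₀(N)`. -/
theorem g0Inv_AL (hf : G0Inv (q * M) k f) {D₀ : SL(2, ℤ)} (hD₀ : IsAL M q D₀) :
    G0Inv (q * M) k (AL k q D₀ f) := by
  intro γ hγ
  obtain ⟨e, he⟩ := hγ
  obtain ⟨g', hg', hmul⟩ := heckeDiagMatrix_mul_of_eq' hq0 γ (M * e)
    (by rw [he]; push_cast; ring)
  rw [AL, ← SlashAction.slash_mul, ← SlashAction.slash_mul, hmul, ← mul_assoc,
    ← map_mul]
  have hM : (M : ℤ) ∣ (D₀ * g') 1 0 := by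
    rw [mul_apply_one_zero, hg']
    exact dvd_add (hD₀.1.mul_right _) (Dvd.dvd.mul_left (Dvd.intro _ rfl) _)
  have hlow : LowDiv q (mapGL ℝ (D₀ * g') * heckeDiagMatrix q) := by
    rw [map_mul, mul_assoc, ← hmul, ← mul_assoc]
    exact (lowDiv_of_dvd hq0 hD₀.2).mul γ
  rw [SlashAction.slash_mul, slash_eq_of_isAL hcop hf hD₀ ⟨hM, dvd_of_lowDiv_diag hq0 hlow⟩]

include hq0 hcop in
/-- `W² = q^{k-2}`. -/
theorem AL_AL (hf : G0Inv (q * M) k f) {D₀ : SL(2, ℤ)} (hD₀ : IsAL M q D₀) :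
    AL k q D₀ (AL k q D₀ f) = ((q : ℂ) ^ (k - 2)) • f := by
  obtain ⟨d, hd⟩ := hD₀.2
  have hdet := det_eq D₀
  -- `diag(q,1) D = E * (1 0; 0 q)` with `E = (q a, b/..)`
  let E : SL(2, ℤ) := ⟨!![q * D₀ 0 0, D₀ 0 1; D₀ 1 0, d], by
    rw [Matrix.det_fin_two_of]; rw [hd] at hdet; linarith⟩
  have h1 : heckeDiagMatrix q * mapGL ℝ D₀ = mapGL ℝ E * heckeMatrix q 0 := by
    ext a b
    fin_cases a <;> fin_cases b <;>
      simp [E, Matrix.mul_apply, Fin.sum_univ_two, hq0, hd]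
    · ring
    · ring
  have h2 : (((f ∣[k] (mapGL ℝ D₀)) ∣[k] heckeDiagMatrix q) ∣[k] (mapGL ℝ D₀)) =
      (f ∣[k] (mapGL ℝ (D₀ * E))) ∣[k] heckeMatrix q 0 := by
    rw [← SlashAction.slash_mul, ← SlashAction.slash_mul, h1, ← mul_assoc, ← map_mul,
      SlashAction.slash_mul]
  have h3 : f ∣[k] (mapGL ℝ (D₀ * E)) = f := by
    apply hf
    rw [mul_apply_one_zero]
    have e1 : E 0 0 = q * D₀ 0 0 := rfl
    have e2 : E 1 0 = D₀ 1 0 := rfl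
    rw [e1, e2]
    push_cast
    refine IsCoprime.mul_dvd (Nat.isCoprime_iff_coprime.2 hcop) ?_ ?_
    · exact dvd_add ((Dvd.intro _ rfl).mul_left _) (hD₀.2.mul_right _)
    · exact dvd_add (hD₀.1.mul_right _) (hD₀.1.mul_left _)
  rw [AL, AL, h2, h3]
  exact Fermat.Agent.Petersson.slash_slash_scalar hq0 k f

end general

/-! ### commutation with `T_ℓ` -/

/-- multiplication by the inverse of `q` on `P¹(𝔽_ℓ)` -/
noncomputable def scaleEquiv (ℓ q : ℕ) (u : (ZMod ℓ)ˣ) : OnePoint (ZMod ℓ) ≃ OnePoint (ZMod ℓ) :=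
  Equiv.optionCongr (Units.mulLeft u)

lemma hecke_mul_diag {ℓ q : ℕ} [Fact ℓ.Prime] (hq0 : q ≠ 0) (u : (ZMod ℓ)ˣ)
    (hu : (q : ZMod ℓ) * u = 1) (x : OnePoint (ZMod ℓ)) :
    ∃ t : SL(2, ℤ), t 1 0 = 0 ∧ heckeRep ℓ x * heckeDiagMatrix q =
      mapGL ℝ t * (heckeDiagMatrix q * heckeRep ℓ (scaleEquiv ℓ q u x)) := by
  have hℓ0 : ℓ ≠ 0 := (Fact.out : ℓ.Prime).ne_zero
  have : NeZero ℓ := ⟨hℓ0⟩
  induction x using OnePoint.rec with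
  | infty =>
    refine ⟨1, by simp, ?_⟩
    have h1 : scaleEquiv ℓ q u ∞ = ∞ := rfl
    rw [h1, map_one, one_mul, heckeRep_infty]
    ext a b
    fin_cases a <;> fin_cases b <;>
      simp [Matrix.mul_apply, Fin.sum_univ_two, hq0, hℓ0]
    ring
  | coe j =>
    have h1 : scaleEquiv ℓ q u (j : OnePoint (ZMod ℓ)) = ((u * j : ZMod ℓ) : OnePoint (ZMod ℓ)) :=
      rfl
    obtain ⟨t, ht⟩ : (ℓ : ℤ) ∣ (j.val : ℤ) - q * ((u * j : ZMod ℓ).val : ℤ) := by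
      rw [← ZMod.intCast_zmod_eq_zero_iff_dvd]
      push_cast
      rw [ZMod.natCast_zmod_val, ZMod.natCast_zmod_val, ← mul_assoc, hu, one_mul, sub_self]
    refine ⟨⟨!![1, t; 0, 1], by simp⟩, rfl, ?_⟩
    have ht' : (j.val : ℝ) - q * ((u * j : ZMod ℓ).val : ℝ) = ℓ * t := by exact_mod_cast ht
    rw [h1, heckeRep_coe, heckeRep_coe]
    ext a b
    fin_cases a <;> fin_cases b <;>
      simp [Matrix.mul_apply, Fin.sum_univ_two, hq0, hℓ0, -ZMod.natCast_val]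
    linear_combination ht'

section

variable {M q ℓ : ℕ} [Fact ℓ.Prime] (hq0 : q ≠ 0) (hcop : Nat.Coprime q M) (hℓM : ¬ ℓ ∣ M)
  (hℓq : ¬ ℓ ∣ q) {k : ℤ} {f : ℍ → ℂ}

include hq0 hcop hℓM hℓq in
theorem heckeT_AL (hf : G0Inv (q * M) k f) {D₀ : SL(2, ℤ)} (hD₀ : IsAL M q D₀) :
    heckeT k ℓ (AL k q D₀ f) = AL k q D₀ (heckeT k ℓ f) := by
  have hℓ0 : ℓ ≠ 0 := (Fact.out : ℓ.Prime).ne_zero
  have : NeZero ℓ := ⟨hℓ0⟩
  have hcopℓ : Nat.Coprime q ℓ := ((Nat.Prime.coprime_iff_not_dvd Fact.out).2 hℓq).symm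
  obtain ⟨u, hu⟩ : ∃ u : (ZMod ℓ)ˣ, (q : ZMod ℓ) * u = 1 := by
    refine ⟨(ZMod.unitOfCoprime q hcopℓ)⁻¹, ?_⟩
    rw [← ZMod.coe_unitOfCoprime q hcopℓ, ← Units.val_mul, mul_inv_cancel, Units.val_one]
  have key : ∀ x : OnePoint (ZMod ℓ), ((f ∣[k] heckeRep ℓ x) ∣[k] (mapGL ℝ D₀)) ∣[k]
      heckeDiagMatrix q = (AL k q D₀ f) ∣[k]
        heckeRep ℓ (scaleEquiv ℓ q u (redMatrix ℓ D₀ • x)) := by
    intro x
    obtain ⟨g', hg', hmul⟩ := heckeRep_mul hℓM D₀ hD₀.1 x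
    obtain ⟨t, ht, hmul2⟩ := hecke_mul_diag hq0 u hu (redMatrix ℓ D₀ • x)
    set y := scaleEquiv ℓ q u (redMatrix ℓ D₀ • x) with hy
    have e1 : heckeRep ℓ x * mapGL ℝ D₀ * heckeDiagMatrix q =
        mapGL ℝ (g' * t) * heckeDiagMatrix q * heckeRep ℓ y := by
      rw [hmul, mul_assoc, hmul2, map_mul]
      simp only [mul_assoc]
    have hM' : (M : ℤ) ∣ (g' * t) 1 0 := by
      rw [mul_apply_one_zero, ht, mul_zero, add_zero]
      exact hg'.mul_right _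
    have hlow : LowDiv q (mapGL ℝ (g' * t) * heckeDiagMatrix q * heckeRep ℓ y) := by
      rw [← e1, mul_assoc]
      exact (lowDiv_of_dvd hq0 hD₀.2).heckeMul x
    have hq' : (q : ℤ) ∣ (g' * t) 1 1 := by
      generalize g' * t = G at hlow
      obtain ⟨c, d, hc, hd⟩ := hlow
      clear_value y
      induction y using OnePoint.rec with
      | infty =>
        simp [heckeRep_infty, Matrix.mul_apply, Fin.sum_univ_two, hq0, hℓ0] at hd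
        exact ⟨d, by exact_mod_cast hd⟩
      | coe j =>
        simp [heckeRep_coe, Matrix.mul_apply, Fin.sum_univ_two, hq0, hℓ0, -ZMod.natCast_val] at hd
        have h3 : (G 1 0) * q * (j.val : ℤ) + G 1 1 * ℓ = q * d := by exact_mod_cast hd
        have h4 : (q : ℤ) ∣ G 1 1 * ℓ := ⟨d - G 1 0 * j.val, by linear_combination h3⟩
        exact (Nat.isCoprime_iff_coprime.2 hcopℓ).dvd_of_dvd_mul_right h4
    rw [← SlashAction.slash_mul, ← SlashAction.slash_mul, ← mul_assoc, e1, SlashAction.slash_mul,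
      SlashAction.slash_mul, slash_eq_of_isAL hcop hf hD₀ ⟨hM', hq'⟩]
    rfl
  rw [heckeT_eq_sum_onePoint, heckeT_eq_sum_onePoint]
  conv_rhs => rw [AL, SlashAction.sum_slash, SlashAction.sum_slash]
  simp only [key]
  exact (Equiv.sum_comp ((MulAction.toPerm (redMatrix ℓ D₀)).trans (scaleEquiv ℓ q u))
    (fun x ↦ (AL k q D₀ f) ∣[k] heckeRep ℓ x)).symm

end

end Fermat.Agent.Newform
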