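import Fermat.Agent.Newform.AtkinLehner
import Fermat.Agent.Lib.EigenCharacter

/-!
The coefficients `a_q` of a newform of level `N` at the primes `q ∣ N`:
`a_q² = 1` if `q ∥ N`, `a_q = 0` if `q² ∣ N`.
-/

set_option autoImplicit false

open UpperHalfPlane ModularForm ModularFormClass CongruenceSubgroup Matrix.SpecialLinearGroup
open scoped MatrixGroups ModularForm OnePoint
open P2MW.S_ModularForm_heckeT_slash_eq_self_of_mem_Gamma0.ModularForm.HeckeSlashInvariance
open Fermat.Agent.HeckeDuality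

namespace Fermat.Agent.Newform

lemma g0Inv_iff {N : ℕ} {k : ℤ} {f : ℍ → ℂ} : G0Inv N k f ↔
    ∀ γ ∈ (Gamma0 N : Subgroup (GL (Fin 2) ℝ)), f ∣[k] γ = f := by
  constructor
  · rintro h _ ⟨g, hg, rfl⟩
    exact h g ((ZMod.intCast_zmod_eq_zero_iff_dvd _ _).1 (Gamma0_mem.1 hg))
  · intro h g hg
    exact h _ ⟨g, Gamma0_mem.2 ((ZMod.intCast_zmod_eq_zero_iff_dvd _ _).2 hg), rfl⟩

/-- A cusp form of level `N` which is invariant under `Γ₀(M)` is a cusp form of level `M`. -/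
def ofInvariant {N M : ℕ} [NeZero N] [NeZero M] {k : ℤ} (f : CuspForm (Gamma0 N) k)
    (hf : G0Inv M k f) : CuspForm (Gamma0 M) k where
  toFun := f
  slash_action_eq' := fun γ hγ => g0Inv_iff.1 hf γ hγ
  holo' := CuspFormClass.holo f
  zero_at_cusps' := fun {c} hc => by
    refine CuspFormClass.zero_at_cusps f ?_
    rw [Subgroup.IsArithmetic.isCusp_iff_isCusp_SL2Z] at hc ⊢
    exact hc

@[simp] lemma coe_ofInvariant {N M : ℕ} [NeZero N] [NeZero M] {k : ℤ} (f : CuspForm (Gamma0 N) k)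
    (hf : G0Inv M k f) : ⇑(ofInvariant f hf) = f := rfl

lemma exists_ratGL_mapGL (D : SL(2, ℤ)) :
    ∃ g : GL (Fin 2) ℚ, mapGL ℝ D = Matrix.GeneralLinearGroup.map (Rat.castHom ℝ) g := by
  refine ⟨mapGL ℚ D, ?_⟩
  ext i j
  simp [mapGL]

section AL

variable {M q : ℕ} [NeZero M] (hq0 : q ≠ 0) (hcop : Nat.Coprime q M) {D : SL(2, ℤ)}
  (hD : IsAL M q D) (k : ℤ)

/-- The Atkin–Lehner operator on cusp forms of level `q M`. -/
noncomputable def ALForm : CuspForm (Gamma0 (q * M)) k →ₗ[ℂ] CuspForm (Gamma0 (q * M)) k where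
  toFun f :=
    { toFun := AL k q D f
      slash_action_eq' := fun γ hγ => g0Inv_iff.1 (g0Inv_AL hq0 hcop (g0Inv_coe f) hD) γ hγ
      holo' := ((CuspFormClass.holo f).slash k _).slash k _
      zero_at_cusps' := fun {c} hc => by
        have : NeZero q := ⟨hq0⟩
        have : NeZero (q * M) := ⟨mul_ne_zero (NeZero.ne q) (NeZero.ne M)⟩
        obtain ⟨g, hg⟩ := Oldform.exists_ratGL_heckeDiagMatrix q
        obtain ⟨g', hg'⟩ := exists_ratGL_mapGL D
        rw [AL, hg, hg']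
        exact OnePoint.IsZeroAt.smul_iff.mp (OnePoint.IsZeroAt.smul_iff.mp
          (CuspFormClass.zero_at_cusps f
            (Oldform.isCusp_ratGL_smul (Oldform.isCusp_ratGL_smul hc g) g'))) }
  map_add' f g := DFunLike.coe_injective <| by
    show AL k q D (⇑(f + g)) = AL k q D f + AL k q D g
    rw [AL, FunLike.coe_add, SlashAction.add_slash, SlashAction.add_slash]
    rfl
  map_smul' c f := DFunLike.coe_injective <| by
    show AL k q D (⇑(c • f)) = c • AL k q D f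
    rw [AL, FunLike.coe_smul, ModularForm.smul_slash, ModularForm.smul_slash, σ_heckeDiagMatrix]
    have : σ (mapGL ℝ D) = ContinuousAlgEquiv.refl ℝ ℂ := by
      rw [σ, if_pos]
      have : ((mapGL ℝ D).det : ℝ) = 1 := by
        rw [Matrix.SpecialLinearGroup.det_mapGL]; rfl
      rw [this]; exact one_pos
    rw [this]
    rfl

lemma coe_ALForm (f : CuspForm (Gamma0 (q * M)) k) :
    ⇑(ALForm hq0 hcop hD k f) = AL k q D f := rfl

end AL

/-! ### The case `q² ∣ N` -/

lemma g0Inv_heckeU {N q : ℕ} [NeZero q] (hq : q * q ∣ N) {k : ℤ} {f : ℍ → ℂ}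
    (hf : G0Inv N k f) : G0Inv (N / q) k (heckeU k q f) := by
  intro γ hγ
  obtain ⟨M, hM⟩ := hq
  have hq0 : 0 < q := Nat.pos_of_ne_zero (NeZero.ne q)
  have hNq : N / q = q * M := by rw [hM, mul_assoc, Nat.mul_div_cancel_left _ hq0]
  rw [hNq] at hγ
  have hc : (q : ℤ) ∣ γ 1 0 := (Int.natCast_dvd_natCast.mpr (Dvd.intro _ rfl)).trans hγ
  rw [heckeU_eq_sum_zmod k f, SlashAction.sum_slash]
  calc ∑ x : ZMod q, (f ∣[k] heckeMatrix q x.val) ∣[k] mapGL ℝ γ
      = ∑ x : ZMod q, f ∣[k] heckeMatrix q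
          (affinePerm γ ((ZMod.intCast_zmod_eq_zero_iff_dvd _ _).mpr hc) x).val := by
        refine Finset.sum_congr rfl fun x _ ↦ ?_
        obtain ⟨g', hg', hmul⟩ := heckeMatrix_mul_of_dvd γ hc x
        rw [← SlashAction.slash_mul, hmul, SlashAction.slash_mul, hf g']
        rw [hg', hM]
        push_cast
        rw [mul_assoc]
        exact mul_dvd_mul_left _ (by exact_mod_cast hγ)
    _ = ∑ x : ZMod q, f ∣[k] heckeMatrix q x.val :=
        Equiv.sum_comp (affinePerm γ _) (fun x ↦ f ∣[k] heckeMatrix q x.val)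

section eigen

variable {N : ℕ} [NeZero N] {f : CuspForm (Gamma0 N) 2}

lemma heckeU_eq (hf : f.IsNormalizedEigenform) {q : ℕ} (hq : q.Prime) (hqN : q ∣ N) :
    heckeU 2 q ⇑f = qCoeff ⇑f q • ⇑f := by
  have h := EigenCharacter.gen_apply hf hq
  rw [gen, dif_pos hqN, CuspForm.heckeAlgebra.coe_U] at h
  exact congrArg (fun g : CuspForm (Gamma0 N) 2 => ⇑g) h

lemma heckeT_eq (hf : f.IsNormalizedEigenform) {q : ℕ} (hq : q.Prime) (hqN : ¬ q ∣ N) :
    heckeT 2 q ⇑f = qCoeff ⇑f q • ⇑f := by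
  have h := EigenCharacter.gen_apply hf hq
  rw [gen, dif_neg hqN, CuspForm.heckeAlgebra.coe_T] at h
  exact congrArg (fun g : CuspForm (Gamma0 N) 2 => ⇑g) h

/-- An eigenform whose coefficient `a_q` is nonzero and `q² ∣ N` comes from level `N / q`. -/
theorem goodEigensystemOccursAt_of_sq_dvd (hf : f.IsNormalizedEigenform) {q : ℕ} (hq : q.Prime)
    (hqN : q * q ∣ N) (hne : qCoeff ⇑f q ≠ 0) : CuspForm.GoodEigensystemOccursAt f (N / q) := by
  have : NeZero q := ⟨hq.ne_zero⟩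
  have hqN' : q ∣ N := (Dvd.intro _ rfl).trans hqN
  have hNq : NeZero (N / q) :=
    ⟨(Nat.div_pos (Nat.le_of_dvd (NeZero.pos N) hqN') hq.pos).ne'⟩
  have h1 : G0Inv (N / q) 2 ⇑f := by
    have h2 := g0Inv_heckeU hqN (g0Inv_coe f)
    rw [heckeU_eq hf hq hqN'] at h2
    intro γ hγ
    have h3 := h2 γ hγ
    rw [ModularForm.smul_slash] at h3
    have : σ (mapGL ℝ γ) = ContinuousAlgEquiv.refl ℝ ℂ := by
      rw [σ, if_pos]
      have : ((mapGL ℝ γ).det : ℝ) = 1 := by
        rw [Matrix.SpecialLinearGroup.det_mapGL]; rfl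
      rw [this]; exact one_pos
    rw [this] at h3
    exact smul_right_injective _ hne h3
  have hdvd : N / q ∣ N := Nat.div_dvd_of_dvd hqN'
  refine ⟨ofInvariant f h1, ?_, fun ℓ _ _ => rfl⟩
  exact
    { qCoeff_one := hf.qCoeff_one
      qCoeff_mul_of_coprime := hf.qCoeff_mul_of_coprime
      qCoeff_prime_pow_of_not_dvd := fun p r hp hpN => by
        refine hf.qCoeff_prime_pow_of_not_dvd p r hp fun h => hpN ?_
        by_cases hpq : p = q
        · subst hpq
          exact Nat.dvd_div_of_mul_dvd hqN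
        · have : p ∣ q * (N / q) := by rwa [Nat.mul_div_cancel' hqN']
          exact ((Nat.Prime.dvd_mul hp).1 this).resolve_left fun h' =>
            hpq ((Nat.prime_dvd_prime_iff_eq hp hq).1 h')
      qCoeff_prime_pow_of_dvd := fun p r hp hpN =>
        hf.qCoeff_prime_pow_of_dvd p r hp (hpN.trans hdvd) }

end eigen

/-! ### The case `q ∥ N` -/

/-- If `q ∤ M` and `f` is a normalised eigenform of level `q M` with `a_q(f)² ≠ 1` then the
eigensystem of `f` away from `q M` occurs at level `M`. -/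
theorem goodEigensystemOccursAt_of_sq_ne_one {M q : ℕ} [NeZero M] (hq : q.Prime) (hqM : ¬ q ∣ M)
    {f : CuspForm (Gamma0 (q * M)) 2} (hf : f.IsNormalizedEigenform)
    (hne : qCoeff ⇑f q ^ 2 ≠ 1) : CuspForm.GoodEigensystemOccursAt f M := by
  have : Fact q.Prime := ⟨hq⟩
  have : NeZero q := ⟨hq.ne_zero⟩
  have : NeZero (q * M) := ⟨mul_ne_zero (NeZero.ne q) (NeZero.ne M)⟩
  have hcop : Nat.Coprime q M := (Nat.Prime.coprime_iff_not_dvd Fact.out).2 hqM
  obtain ⟨D, hD⟩ := exists_isAL hcop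
  have hU := heckeU_eq hf hq (Dvd.intro _ rfl)
  set h : CuspForm (Gamma0 (q * M)) 2 := qCoeff ⇑f q • f + ALForm hq.ne_zero hcop hD 2 f with hh
  have hcoe : ⇑h = heckeU 2 q ⇑f + AL 2 q D ⇑f := by
    rw [hU, hh]; rfl
  have hinv : G0Inv M 2 ⇑h := by
    rw [hcoe]
    exact g0Inv_heckeU_add_AL hqM (g0Inv_coe f) hD
  by_cases h0 : h = 0
  · exfalso
    apply hne
    have e1 : AL 2 q D ⇑f = (-qCoeff ⇑f q) • ⇑f := by
      have : (⇑h : ℍ → ℂ) = 0 := by rw [h0]; rfl
      rw [hcoe, hU] at this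
      funext τ
      have h5 : qCoeff ⇑f q * f τ + AL 2 q D ⇑f τ = 0 := congrFun this τ
      show AL 2 q D ⇑f τ = (-qCoeff ⇑f q) * f τ
      linear_combination h5
    have e2 : ALForm hq.ne_zero hcop hD 2 f = (-qCoeff ⇑f q) • f := DFunLike.coe_injective e1
    have e3 : ALForm hq.ne_zero hcop hD 2 (ALForm hq.ne_zero hcop hD 2 f) = f := DFunLike.coe_injective <| by
      rw [coe_ALForm, coe_ALForm, AL_AL hq.ne_zero hcop (g0Inv_coe f) hD]
      simp
    rw [e2, map_smul, e2, smul_smul] at e3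
    have e4 := congrArg (fun g : CuspForm (Gamma0 (q * M)) 2 => qCoeff ⇑g 1) e3
    simp only [Oldform.qCoeff_smul', hf.qCoeff_one] at e4
    linear_combination e4
  · -- `h` is a form of level `M`
    set g := ofInvariant h hinv with hg
    have hg0 : g ≠ 0 := by
      intro hz
      apply h0
      apply DFunLike.coe_injective
      have := congrArg (fun g : CuspForm (Gamma0 M) 2 => (⇑g : ℍ → ℂ)) hz
      exact this
    obtain ⟨g', hg', hg''⟩ := exists_eigenform_of_partial (fun ℓ => qCoeff ⇑f ℓ) (fun ℓ => ℓ ≠ q)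
      g hg0 (by
        intro ℓ hℓ hℓM hℓq
        have : Fact ℓ.Prime := ⟨hℓ⟩
        apply DFunLike.coe_injective
        have hℓN : ¬ ℓ ∣ q * M := fun hd => by
          rcases (Nat.Prime.dvd_mul hℓ).1 hd with h' | h'
          · exact hℓq ((Nat.prime_dvd_prime_iff_eq hℓ hq).1 h')
          · exact hℓM h'
        show heckeT 2 ℓ ⇑h = qCoeff ⇑f ℓ • ⇑h
        have e1 : heckeT 2 ℓ ⇑f = qCoeff ⇑f ℓ • ⇑f := heckeT_eq hf hℓ hℓN
        have e2 : ⇑h = qCoeff ⇑f q • ⇑f + AL 2 q D ⇑f := rfl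
        have e3 : AL 2 q D (qCoeff ⇑f ℓ • ⇑f) = qCoeff ⇑f ℓ • AL 2 q D ⇑f := by
          have := map_smul (ALForm hq.ne_zero hcop hD 2) (qCoeff ⇑f ℓ) f
          exact congrArg (fun g : CuspForm (Gamma0 (q * M)) 2 => (⇑g : ℍ → ℂ)) this
        rw [e2, heckeT_add, heckeT_smul, heckeT_AL hq.ne_zero hcop hℓM
          (fun h' => hℓq ((Nat.prime_dvd_prime_iff_eq hℓ hq).1 h')) (g0Inv_coe f) hD, e1, e3,
          smul_add, smul_comm])
    refine ⟨g', hg', fun ℓ hℓ hℓN => hg'' ℓ hℓ (fun h' => hℓN (h'.mul_left _)) ?_⟩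
    rintro rfl
    exact hℓN (Dvd.intro _ rfl)

/-- **The coefficients of a newform at bad primes.** -/
theorem newformBadPrimeCoeff (N : ℕ) [NeZero N] : CuspForm.NewformBadPrimeCoeff N := by
  intro f hf q hq hqN
  constructor
  · intro hsq
    by_contra hne
    obtain ⟨M, rfl⟩ := hqN
    have hM : M ≠ 0 := fun h => NeZero.ne (q * M) (by rw [h, mul_zero])
    have : NeZero M := ⟨hM⟩
    have hqM : ¬ q ∣ M := fun h => hsq (by rw [pow_two]; exact mul_dvd_mul_left _ h)
    refine hf.2 M (Dvd.intro_left _ rfl) ?_ (goodEigensystemOccursAt_of_sq_ne_one hq hqM hf.1 hne)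
    intro h
    have : 1 * M = q * M := by rw [one_mul]; exact h
    exact hq.one_lt.ne (Nat.eq_of_mul_eq_mul_right (Nat.pos_of_ne_zero hM) this)
  · intro hsq
    by_contra hne
    refine hf.2 (N / q) (Nat.div_dvd_of_dvd hqN)
      (Nat.div_lt_self (NeZero.pos N) hq.one_lt).ne
      (goodEigensystemOccursAt_of_sq_dvd hf.1 hq (by rwa [← pow_two]) hne)

end Fermat.Agent.Newform
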