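import Fermat.Agent.Newform.BadPrime

/-!
Cusp forms of level `Γ₀(N)` as functions on the upper half plane, for varying `N`.
-/

set_option autoImplicit false

open UpperHalfPlane ModularForm ModularFormClass CongruenceSubgroup Matrix.SpecialLinearGroup
open scoped MatrixGroups ModularForm OnePoint
open Fermat.Agent.HeckeDuality

namespace Fermat.Agent.Newform

/-- `f` is (the function of) a cusp form of level `Γ₀(N)`. -/
def IsCF (N : ℕ) (k : ℤ) (f : ℍ → ℂ) : Prop := ∃ F : CuspForm (Gamma0 N) k, ⇑F = f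

lemma isCF_coe {N : ℕ} {k : ℤ} (f : CuspForm (Gamma0 N) k) : IsCF N k f := ⟨f, rfl⟩

namespace IsCF

variable {M N q : ℕ} {k : ℤ} {f g : ℍ → ℂ}

lemma g0Inv (h : IsCF N k f) : G0Inv N k f := by
  obtain ⟨F, rfl⟩ := h
  exact g0Inv_coe F

lemma zero : IsCF N k 0 := ⟨0, rfl⟩

lemma add (hf : IsCF N k f) (hg : IsCF N k g) : IsCF N k (f + g) := by
  obtain ⟨F, rfl⟩ := hf
  obtain ⟨G, rfl⟩ := hg
  exact ⟨F + G, rfl⟩

lemma sub (hf : IsCF N k f) (hg : IsCF N k g) : IsCF N k (f - g) := by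
  obtain ⟨F, rfl⟩ := hf
  obtain ⟨G, rfl⟩ := hg
  exact ⟨F - G, rfl⟩

lemma smul (hf : IsCF N k f) (c : ℂ) : IsCF N k (c • f) := by
  obtain ⟨F, rfl⟩ := hf
  exact ⟨c • F, rfl⟩

lemma mono (hf : IsCF M k f) (h : M ∣ N) : IsCF N k f := by
  obtain ⟨F, rfl⟩ := hf
  exact ⟨Oldform.incl k h F, rfl⟩

lemma of_g0Inv [NeZero N] [NeZero M] (hf : IsCF N k f) (h : G0Inv M k f) : IsCF M k f := by
  obtain ⟨F, rfl⟩ := hf
  exact ⟨ofInvariant F h, rfl⟩

lemma diag [NeZero N] (hf : IsCF M k f) (hq : q ≠ 0) (h : M * q ∣ N) :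
    IsCF N k (f ∣[k] heckeDiagMatrix q) := by
  obtain ⟨F, rfl⟩ := hf
  exact ⟨Oldform.diag k hq h F, rfl⟩

lemma heckeU [NeZero N] (hf : IsCF N k f) (h : q ∣ N) : IsCF N k (heckeU k q f) := by
  obtain ⟨F, rfl⟩ := hf
  exact ⟨CuspForm.heckeULin k h F, rfl⟩

lemma heckeT (hf : IsCF N k f) (hq : q.Prime) (h : ¬ q ∣ N) : IsCF N k (heckeT k q f) := by
  obtain ⟨F, rfl⟩ := hf
  exact ⟨CuspForm.heckeTLin k hq h F, rfl⟩

lemma AL [NeZero M] (hf : IsCF (q * M) k f) (hq0 : q ≠ 0) (hcop : Nat.Coprime q M)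
    {D : SL(2, ℤ)} (hD : IsAL M q D) : IsCF (q * M) k (AL k q D f) := by
  obtain ⟨F, rfl⟩ := hf
  exact ⟨ALForm hq0 hcop hD k F, rfl⟩

lemma analyticAt (hf : IsCF N k f) : AnalyticAt ℂ (cuspFunction 1 f) 0 := by
  obtain ⟨F, rfl⟩ := hf
  exact Oldform.analyticAt_cuspFunction F

lemma qCoeff_add (hf : IsCF M k f) (hg : IsCF N k g) (n : ℕ) :
    qCoeff (f + g) n = qCoeff f n + qCoeff g n := by
  unfold qCoeff
  rw [UpperHalfPlane.qExpansion_add hf.analyticAt hg.analyticAt, map_add]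

lemma qCoeff_sub (hf : IsCF M k f) (hg : IsCF N k g) (n : ℕ) :
    qCoeff (f - g) n = qCoeff f n - qCoeff g n := by
  unfold qCoeff
  rw [UpperHalfPlane.qExpansion_sub hf.analyticAt hg.analyticAt, map_sub]

lemma qCoeff_smul (hf : IsCF M k f) (c : ℂ) (n : ℕ) :
    qCoeff (c • f) n = c * qCoeff f n := by
  unfold qCoeff
  rw [UpperHalfPlane.qExpansion_smul hf.analyticAt]
  rfl

lemma qCoeff_zero' (hf : IsCF N k f) [NeZero N] : qCoeff f 0 = 0 := by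
  obtain ⟨F, rfl⟩ := hf
  exact qc_apply_zero F

lemma qCoeff_heckeU (hf : IsCF N k f) (hq : q ≠ 0) (n : ℕ) :
    qCoeff (ModularForm.heckeU k q f) n = qCoeff f (n * q) := by
  obtain ⟨F, rfl⟩ := hf
  rw [ModularFormClass.qCoeff_heckeU F (hper N) hq n]
  rfl

lemma qCoeff_heckeT (hf : IsCF N k f) (hq : q ≠ 0) (n : ℕ) :
    qCoeff (ModularForm.heckeT k q f) n =
      qCoeff f (n * q) + if q ∣ n then (q : ℂ) ^ (k - 1) * qCoeff f (n / q) else 0 := by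
  obtain ⟨F, rfl⟩ := hf
  rw [ModularFormClass.qCoeff_heckeT F (hper N) hq n]
  rfl

lemma qCoeff_diag (hf : IsCF N k f) [NeZero N] (hq : q ≠ 0) (n : ℕ) :
    qCoeff (f ∣[k] heckeDiagMatrix q) n =
      if q ∣ n then (q : ℂ) ^ (k - 1) * qCoeff f (n / q) else 0 := by
  obtain ⟨F, rfl⟩ := hf
  have : NeZero (N * q) := ⟨mul_ne_zero (NeZero.ne N) hq⟩
  exact Oldform.qCoeff_diag k hq (dvd_refl (N * q)) F n

/-- Forms (possibly of different levels) with the same `q`-expansion are equal. -/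
lemma ext (hf : IsCF M k f) (hg : IsCF N k g) [NeZero M] [NeZero N]
    (h : ∀ n, qCoeff f n = qCoeff g n) : f = g := by
  obtain ⟨F, hF⟩ := hf.mono (Nat.dvd_mul_right M N)
  obtain ⟨G, hG⟩ := hg.mono (Nat.dvd_mul_left N M)
  have : NeZero (M * N) := ⟨mul_ne_zero (NeZero.ne M) (NeZero.ne N)⟩
  rw [← hF, ← hG] at h ⊢
  rw [ext_of_qc h]

end IsCF

/-- The projection `∑ a_n q^n ↦ ∑_{l ∣ n} a_n q^n`. -/
noncomputable def eop (k : ℤ) (l : ℕ) (f : ℍ → ℂ) : ℍ → ℂ :=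
  ((l : ℂ) ^ (1 - k)) • ((heckeU k l f) ∣[k] heckeDiagMatrix l)

namespace IsCF

variable {M N l : ℕ} {k : ℤ} {f g : ℍ → ℂ}

lemma heckeU' [NeZero N] (hf : IsCF N k f) (hl : l ≠ 0) :
    IsCF (N * l) k (ModularForm.heckeU k l f) := by
  have : NeZero (N * l) := ⟨mul_ne_zero (NeZero.ne N) hl⟩
  exact (hf.mono (Nat.dvd_mul_right N l)).heckeU (Nat.dvd_mul_left l N)

lemma eop [NeZero N] (hf : IsCF N k f) (hl : l ≠ 0) : IsCF (N * l * l) k (eop k l f) := by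
  have : NeZero (N * l * l) := ⟨mul_ne_zero (mul_ne_zero (NeZero.ne N) hl) hl⟩
  exact ((hf.heckeU' hl).diag hl (dvd_refl _)).smul _

lemma qCoeff_eop [NeZero N] (hf : IsCF N k f) (hl : l ≠ 0) (n : ℕ) :
    qCoeff (Newform.eop k l f) n = if l ∣ n then qCoeff f n else 0 := by
  have : NeZero (N * l) := ⟨mul_ne_zero (NeZero.ne N) hl⟩
  have : NeZero (N * l * l) := ⟨mul_ne_zero (mul_ne_zero (NeZero.ne N) hl) hl⟩
  unfold Newform.eop
  rw [((hf.heckeU' hl).diag hl (dvd_refl _)).qCoeff_smul, (hf.heckeU' hl).qCoeff_diag hl]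
  split_ifs with h
  · rw [hf.qCoeff_heckeU hl, Nat.div_mul_cancel h, ← mul_assoc, ← zpow_add₀ (by exact_mod_cast hl)]
    simp
  · rw [mul_zero]

end IsCF

end Fermat.Agent.Newform
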