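import Fermat.Agent.Newform.PNew

/-!
Removing Euler factors at primes `l ≠ q` preserves `q`-newness.
-/

set_option autoImplicit false

open MeasureTheory UpperHalfPlane ModularForm ModularFormClass CongruenceSubgroup
  Matrix.SpecialLinearGroup
open scoped MatrixGroups ModularForm ENNReal
open Fermat.Agent.Petersson
open P2MW.S_ModularForm_heckeT_slash_eq_self_of_mem_Gamma0.ModularForm.HeckeSlashInvariance

namespace Fermat.Agent.Newform

section

variable {k : ℤ} {f g : ℍ → ℂ} {l : ℕ}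

lemma eop_eq_zmod (hl : l ≠ 0) [NeZero l] (f : ℍ → ℂ) :
    eop k l f = ((l : ℂ)⁻¹) • ∑ x : ZMod l, f ∣[k] trR ((x.val : ℝ) / l) := by
  have hl' : (l : ℂ) ≠ 0 := by exact_mod_cast hl
  unfold eop
  rw [heckeU_eq_sum_zmod, SlashAction.sum_slash, Finset.smul_sum, Finset.smul_sum]
  refine Finset.sum_congr rfl fun x _ => ?_
  rw [← SlashAction.slash_mul, heckeMatrix_mul_diag l x.val hl, SlashAction.slash_mul,
    SlashAction.slash_mul, slash_slash_scalar hl, ModularForm.smul_slash, σ_of_pos (by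
      rw [Matrix.GeneralLinearGroup.val_det_apply]; simp), smul_smul]
  congr 1
  show (l : ℂ) ^ (1 - k) * (l : ℂ) ^ (k - 2) = _
  rw [← zpow_add₀ hl', ← zpow_neg_one]
  congr 1
  ring

lemma AL_smul (k : ℤ) (q : ℕ) (D : SL(2, ℤ)) (c : ℂ) (f : ℍ → ℂ) :
    AL k q D (c • f) = c • AL k q D f := by
  unfold AL
  rw [smul_slash_mapGL, smul_slash_of_pos _ _ (cm_heckeDiagMatrix q).pos]

lemma AL_add (k : ℤ) (q : ℕ) (D : SL(2, ℤ)) (f g : ℍ → ℂ) :
    AL k q D (f + g) = AL k q D f + AL k q D g := by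
  unfold AL
  rw [SlashAction.add_slash, SlashAction.add_slash]

lemma AL_sum (k : ℤ) (q : ℕ) (D : SL(2, ℤ)) {ι : Type*} (s : Finset ι) (F : ι → ℍ → ℂ) :
    AL k q D (∑ i ∈ s, F i) = ∑ i ∈ s, AL k q D (F i) := by
  unfold AL
  rw [SlashAction.sum_slash, SlashAction.sum_slash]

lemma AL_zero (k : ℤ) (q : ℕ) (D : SL(2, ℤ)) : AL k q D 0 = 0 := by
  unfold AL
  rw [SlashAction.zero_slash, SlashAction.zero_slash]

/-- The Atkin–Lehner operator commutes with `e_l`. -/
theorem AL_eop {M Q : ℕ} (hQ0 : Q ≠ 0) (hcop : Nat.Coprime Q M) (hl : l.Prime)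
    (hf : G0Inv (Q * M) k f) {D : SL(2, ℤ)} (hD : IsAL (M * l * l) Q D) :
    AL k Q D (eop k l f) = eop k l (AL k Q D f) := by
  have hl0 : l ≠ 0 := hl.ne_zero
  have : Fact l.Prime := ⟨hl⟩
  have : NeZero l := ⟨hl0⟩
  have hlR : (l : ℝ) ≠ 0 := by exact_mod_cast hl0
  have hDM : IsAL M Q D := hD.mono ((Nat.dvd_mul_right M l).trans (Nat.dvd_mul_right _ l)) dvd_rfl
  obtain ⟨⟨c, hc⟩, ⟨d, hd⟩⟩ := hD
  have hdet := det_eq D
  have hc' : D 1 0 = M * l * l * c := by rw [hc]; push_cast; ring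
  -- the unit `u = a / d`
  have h1 : (Q : ZMod l) * (D 0 0 : ZMod l) * (d : ZMod l) = 1 := by
    have := congrArg (Int.cast : ℤ → ZMod l) hdet
    rw [hd, hc'] at this
    push_cast at this
    simp only [CharP.cast_eq_zero, mul_zero, zero_mul, sub_zero] at this
    linear_combination this
  have hd0 : (d : ZMod l) ≠ 0 := by
    intro h; rw [h, mul_zero] at h1; exact zero_ne_one h1
  have ha0 : (D 0 0 : ZMod l) ≠ 0 := by
    intro h; rw [h, mul_zero, zero_mul] at h1; exact zero_ne_one h1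
  let u : (ZMod l)ˣ := Units.mk0 ((D 0 0 : ZMod l) * (d : ZMod l)⁻¹)
    (mul_ne_zero ha0 (inv_ne_zero hd0))
  have key : ∀ x : ZMod l, AL k Q D (f ∣[k] trR ((((u * x : ZMod l)).val : ℝ) / l)) =
      (AL k Q D f) ∣[k] trR ((x.val : ℝ) / l) := by
    intro x
    set i : ℤ := (x.val : ℤ) with hi
    set i' : ℤ := ((u * x : ZMod l).val : ℤ) with hi'
    obtain ⟨e, he⟩ : (l : ℤ) ∣ Q * (i' * d - i * D 0 0) := by
      refine Dvd.dvd.mul_left ?_ _
      rw [← ZMod.intCast_zmod_eq_zero_iff_dvd, hi, hi']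
      push_cast
      rw [ZMod.natCast_zmod_val, ZMod.natCast_zmod_val]
      simp only [u, Units.val_mk0]
      field_simp
      ring
    let E : SL(2, ℤ) := ⟨!![D 0 0 + i' * M * l * c, D 0 1 + e - i * i' * Q * M * c;
      M * l * l * c, Q * (d - M * l * c * i)], by
      rw [Matrix.det_fin_two_of]
      rw [hd, hc'] at hdet
      linear_combination hdet + (M * l * c) * he⟩
    have hE : IsAL M Q E := ⟨⟨l * l * c, by simp [E]; ring⟩, ⟨d - M * l * c * i, rfl⟩⟩
    have hmul : trR ((i' : ℝ) / l) * (mapGL ℝ D * heckeDiagMatrix Q) =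
        (mapGL ℝ E * heckeDiagMatrix Q) * trR ((i : ℝ) / l) := by
      have e1 : (Q : ℝ) * (i' * d - i * D 0 0) = l * e := by exact_mod_cast he
      have e2 : (e : ℝ) = Q * (i' * d - i * D 0 0) / l := by field_simp; linarith
      have e3 : ((mapGL ℝ E : GL (Fin 2) ℝ) : Matrix (Fin 2) (Fin 2) ℝ) =
        !![(D 0 0 : ℝ) + i' * M * l * c, (D 0 1 : ℝ) + e - i * i' * Q * M * c;
          (M : ℝ) * l * l * c, (Q : ℝ) * (d - M * l * c * i)] := by
        rw [val_mapGL]; simp [E]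
      have e4 : ((mapGL ℝ D : GL (Fin 2) ℝ) : Matrix (Fin 2) (Fin 2) ℝ) =
          !![(D 0 0 : ℝ), (D 0 1 : ℝ); (M : ℝ) * l * l * c, (Q : ℝ) * d] := by
        rw [val_mapGL, hc', hd]; push_cast; rfl
      apply Units.ext
      simp only [Units.val_mul, e3, e4, val_trR, val_heckeDiagMatrix hQ0, Matrix.mul_fin_two, e2]
      ext a b
      fin_cases a <;> fin_cases b <;> simp
      · field_simp
      · field_simp
        ring
      · field_simp
        ring
    have hi'R : (((u * x : ZMod l).val : ℕ) : ℝ) = (i' : ℝ) := by rw [hi']; push_cast; rfl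
    have hiR : ((x.val : ℕ) : ℝ) = (i : ℝ) := by rw [hi]; push_cast; rfl
    rw [hi'R, hiR]
    have h3 : AL k Q D f = AL k Q E f := by
      unfold AL
      rw [slash_eq_of_isAL hcop hf hE hDM]
    rw [h3]
    unfold AL
    rw [← SlashAction.slash_mul, ← SlashAction.slash_mul, hmul, SlashAction.slash_mul,
      SlashAction.slash_mul]
  rw [eop_eq_zmod hl0, eop_eq_zmod hl0, AL_smul, AL_sum]
  congr 1
  rw [← Equiv.sum_comp (Units.mulLeft u)
    (fun x : ZMod l => AL k Q D (f ∣[k] trR ((x.val : ℝ) / l)))]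
  exact Finset.sum_congr rfl fun x _ => key x

/-! ### removing the coefficients at multiples of `l` -/

lemma eop_add (k : ℤ) (l : ℕ) (f g : ℍ → ℂ) : eop k l (f + g) = eop k l f + eop k l g := by
  unfold eop
  rw [heckeU_add, SlashAction.add_slash, smul_add]

lemma eop_zero (k : ℤ) (l : ℕ) : eop k l (0 : ℍ → ℂ) = 0 := by
  have := eop_add k l 0 0
  simpa using this

/-- `∑ a_n q^n ↦ ∑_{l ∤ n} a_n q^n` -/
noncomputable def dop (k : ℤ) (l : ℕ) (f : ℍ → ℂ) : ℍ → ℂ := f - eop k l f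

lemma IsCF.dop {N : ℕ} [NeZero N] (hf : IsCF N k f) (hl : l ≠ 0) :
    IsCF (N * l * l) k (dop k l f) :=
  (hf.mono ((Nat.dvd_mul_right N l).trans (Nat.dvd_mul_right _ l))).sub (hf.eop hl)

lemma IsCF.qCoeff_dop {N : ℕ} [NeZero N] (hf : IsCF N k f) (hl : l ≠ 0) (n : ℕ) :
    qCoeff (Newform.dop k l f) n = if l ∣ n then 0 else qCoeff f n := by
  unfold Newform.dop
  rw [hf.qCoeff_sub (hf.eop hl), hf.qCoeff_eop hl]
  split_ifs <;> ring

lemma sub_eq_add_smul (f g : ℍ → ℂ) : f - g = f + (-1 : ℂ) • g := by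
  rw [neg_one_smul, sub_eq_add_neg]

lemma heckeU_eop {N q : ℕ} [NeZero N] (hf : IsCF N k f) (hq : q.Prime) (hl : l.Prime)
    (hql : l ≠ q) : heckeU k q (eop k l f) = eop k l (heckeU k q f) := by
  have h1 : NeZero (N * l * l) :=
    ⟨mul_ne_zero (mul_ne_zero (NeZero.ne N) hl.ne_zero) hl.ne_zero⟩
  have h2 : NeZero (N * q) := ⟨mul_ne_zero (NeZero.ne N) hq.ne_zero⟩
  have h3 : NeZero (N * l * l * q) := ⟨mul_ne_zero (NeZero.ne _) hq.ne_zero⟩
  have h4 : NeZero (N * q * l * l) :=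
    ⟨mul_ne_zero (mul_ne_zero (NeZero.ne _) hl.ne_zero) hl.ne_zero⟩
  refine ((hf.eop hl.ne_zero).heckeU' hq.ne_zero).ext ((hf.heckeU' hq.ne_zero).eop hl.ne_zero)
    fun n => ?_
  rw [(hf.eop hl.ne_zero).qCoeff_heckeU hq.ne_zero, hf.qCoeff_eop hl.ne_zero,
    (hf.heckeU' hq.ne_zero).qCoeff_eop hl.ne_zero, hf.qCoeff_heckeU hq.ne_zero]
  have : l ∣ n * q ↔ l ∣ n := by
    rw [hl.dvd_mul, Nat.prime_dvd_prime_iff_eq hl hq]
    tauto
  simp only [this]

lemma Rop_smul (k : ℤ) (q a : ℕ) (D : SL(2, ℤ)) (c : ℂ) (f : ℍ → ℂ) :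
    Rop k q a D (c • f) = c • Rop k q a D f := by
  unfold Rop
  rw [heckeU_smul, smul_add]
  split_ifs
  · rw [AL_smul]
  · rw [smul_zero]

lemma Rop_add (k : ℤ) (q a : ℕ) (D : SL(2, ℤ)) (f g : ℍ → ℂ) :
    Rop k q a D (f + g) = Rop k q a D f + Rop k q a D g := by
  unfold Rop
  rw [heckeU_add]
  split_ifs
  · rw [AL_add]; abel
  · abel

lemma Rop_zero (k : ℤ) (q a : ℕ) (D : SL(2, ℤ)) : Rop k q a D (0 : ℍ → ℂ) = 0 := by
  have := Rop_smul k q a D 0 0
  simpa using this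

/-- The trace operator commutes with `e_l`. -/
lemma Rop_eop {M q a : ℕ} [NeZero M] (hq : q.Prime) (hqM : Nat.Coprime q M) (hl : l.Prime)
    (hql : l ≠ q) (hf : IsCF (q ^ a * M) k f) {D : SL(2, ℤ)} (hD : IsAL (M * l * l) (q ^ a) D) :
    Rop k q a D (eop k l f) = eop k l (Rop k q a D f) := by
  have : NeZero q := ⟨hq.ne_zero⟩
  have : NeZero (q ^ a * M) := ⟨mul_ne_zero (pow_ne_zero _ hq.ne_zero) (NeZero.ne M)⟩
  unfold Rop
  rw [heckeU_eop hf hq hl hql, eop_add]
  split_ifs with h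
  · subst h
    rw [pow_one] at hD hf
    rw [AL_eop hq.ne_zero hqM hl hf.g0Inv hD]
  · rw [eop_zero]

theorem QNew.dop {M q a : ℕ} [NeZero M] (hq : q.Prime) (hqM : Nat.Coprime q M) (hl : l.Prime)
    (hql : l ≠ q) (h : QNew M q a k f) : QNew (M * l * l) q a k (dop k l f) := by
  have : NeZero q := ⟨hq.ne_zero⟩
  have hNZ : NeZero (q ^ a * M) := ⟨mul_ne_zero (pow_ne_zero _ hq.ne_zero) (NeZero.ne M)⟩
  have hmono : ∀ D, IsAL (M * l * l) (q ^ a) D → IsAL M (q ^ a) D := fun D hD =>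
    hD.mono ((Nat.dvd_mul_right M l).trans (Nat.dvd_mul_right _ l)) dvd_rfl
  have e1 : q ^ a * (M * l * l) = q ^ a * M * l * l := by ring
  have hcopa := Nat.Coprime.pow_left a hqM
  refine ⟨e1 ▸ h.cf.dop hl.ne_zero, fun D hD => ?_, fun D hD => ?_⟩
  · unfold Newform.dop
    rw [sub_eq_add_smul, Rop_add, Rop_smul, Rop_eop hq hqM hl hql h.cf hD,
      h.r1 D (hmono D hD), eop_zero]
    simp
  · have hD' := hmono D hD
    have hA : IsCF (q ^ a * M) k (AL k (q ^ a) D f) :=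
      h.cf.AL (pow_ne_zero _ hq.ne_zero) hcopa hD'
    unfold Newform.dop
    rw [sub_eq_add_smul, AL_add, AL_smul, AL_eop (pow_ne_zero _ hq.ne_zero) hcopa hl h.cf.g0Inv hD,
      Rop_add, Rop_smul, Rop_eop hq hqM hl hql hA hD, h.r2 D hD', eop_zero]
    simp

/-- Enlarging the prime-to-`q` part of the level preserves `q`-newness. -/
theorem QNew.mono {M M' q a : ℕ} (h : QNew M q a k f) (hM : M ∣ M') : QNew M' q a k f :=
  ⟨h.cf.mono (mul_dvd_mul_left _ hM), fun D hD => h.r1 D (hD.mono hM dvd_rfl),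
    fun D hD => h.r2 D (hD.mono hM dvd_rfl)⟩

/-- Remove the coefficients at the multiples of the elements of a list. -/
noncomputable def dops (k : ℤ) (L : List ℕ) (f : ℍ → ℂ) : ℍ → ℂ := L.foldr (dop k) f

/-- The level of `dops`. -/
def lev (L : List ℕ) (M : ℕ) : ℕ := L.foldr (fun l N => N * l * l) M

lemma lev_ne_zero {L : List ℕ} (hL : ∀ l ∈ L, l.Prime) {M : ℕ} (hM : M ≠ 0) : lev L M ≠ 0 := by
  induction L with
  | nil => exact hM
  | cons l L ih =>
    have hl := (hL l (by simp)).ne_zero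
    exact mul_ne_zero (mul_ne_zero (ih fun l' h' => hL l' (List.mem_cons_of_mem _ h')) hl) hl

lemma IsCF.dops {L : List ℕ} (hL : ∀ l ∈ L, l.Prime) {M : ℕ} [NeZero M] (hf : IsCF M k f) :
    IsCF (lev L M) k (dops k L f) ∧
      ∀ n, qCoeff (Newform.dops k L f) n = if ∃ l ∈ L, l ∣ n then 0 else qCoeff f n := by
  induction L with
  | nil => exact ⟨hf, fun n => by simp [Newform.dops]⟩
  | cons l L ih =>
    have hL' : ∀ l ∈ L, l.Prime := fun l' h' => hL l' (List.mem_cons_of_mem _ h')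
    obtain ⟨h1, h2⟩ := ih hL'
    have hl := (hL l (by simp)).ne_zero
    have : NeZero (lev L M) := ⟨lev_ne_zero hL' (NeZero.ne M)⟩
    refine ⟨h1.dop hl, fun n => ?_⟩
    show qCoeff (Newform.dop k l (Newform.dops k L f)) n = _
    rw [h1.qCoeff_dop hl, h2]
    by_cases h3 : l ∣ n
    · simp [h3]
    · by_cases h4 : ∃ l ∈ L, l ∣ n
      · obtain ⟨l', hl', hd⟩ := h4
        rw [if_neg h3, if_pos ⟨l', hl', hd⟩, if_pos ⟨l', List.mem_cons_of_mem _ hl', hd⟩]
      · have h5 : ¬ ∃ l_1 ∈ l :: L, l_1 ∣ n := by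
          rintro ⟨l', hl', hd⟩
          rcases List.mem_cons.1 hl' with rfl | h
          · exact h3 hd
          · exact h4 ⟨l', h, hd⟩
        rw [if_neg h3, if_neg h4, if_neg h5]

lemma coprime_lev {L : List ℕ} (hL : ∀ l ∈ L, l.Prime) {q : ℕ} (hq : q.Prime) (hqL : q ∉ L)
    {M : ℕ} (hqM : Nat.Coprime q M) : Nat.Coprime q (lev L M) := by
  induction L with
  | nil => exact hqM
  | cons l L ih =>
    have hL' : ∀ l ∈ L, l.Prime := fun l' h' => hL l' (List.mem_cons_of_mem _ h')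
    have hl := hL l (by simp)
    have hql : Nat.Coprime q l := (Nat.coprime_primes hq hl).2 fun h => hqL (by simp [h])
    have := ih hL' (fun h => hqL (List.mem_cons_of_mem _ h))
    exact Nat.Coprime.mul_right (Nat.Coprime.mul_right this hql) hql

lemma lev_mul (L : List ℕ) (c M : ℕ) : lev L (c * M) = c * lev L M := by
  induction L with
  | nil => rfl
  | cons l L ih =>
    show lev L (c * M) * l * l = c * (lev L M * l * l)
    rw [ih]; ring

theorem QNew.dops {L : List ℕ} (hL : ∀ l ∈ L, l.Prime) {M q a : ℕ} [NeZero M] (hq : q.Prime)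
    (hqM : Nat.Coprime q M) (hqL : q ∉ L) (h : QNew M q a k f) :
    QNew (lev L M) q a k (dops k L f) := by
  induction L with
  | nil => exact h
  | cons l L ih =>
    have hL' : ∀ l ∈ L, l.Prime := fun l' h' => hL l' (List.mem_cons_of_mem _ h')
    have hqL' : q ∉ L := fun h => hqL (List.mem_cons_of_mem _ h)
    have : NeZero (lev L M) := ⟨lev_ne_zero hL' (NeZero.ne M)⟩
    have h3 := ih hL' hqL'
    exact QNew.dop (M := lev L M) hq (coprime_lev hL' hq hqL' hqM) (hL l (by simp))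
      (fun h => hqL (by simp [h])) h3

end

section main

variable {k : ℤ} {f g : ℍ → ℂ}

/-- **Key theorem.** Let `f` be `q`-new of level `q^a M`, and let `g` be a form whose level has
smaller `q`-part. If the coefficients of `f` and `g` agree at all `n` prime to `q` and to the
primes in `L`, then these coefficients are all zero. -/
theorem QNew.coeff_eq_zero {L : List ℕ} (hL : ∀ l ∈ L, l.Prime) {M M' q a : ℕ}
    [NeZero M] [NeZero M'] (hq : q.Prime) (hqM : Nat.Coprime q M) (hqM' : Nat.Coprime q M')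
    (ha : a ≠ 0) (hqL : q ∉ L) (hf : QNew M q a k f) (hg : IsCF (q ^ (a - 1) * M') k g)
    (h : ∀ n, ¬ q ∣ n → (∀ l ∈ L, ¬ l ∣ n) → qCoeff f n = qCoeff g n) :
    ∀ n, (∀ l ∈ L, ¬ l ∣ n) → qCoeff f n = 0 := by
  have : NeZero q := ⟨hq.ne_zero⟩
  have hMM : NeZero (M * M') := ⟨mul_ne_zero (NeZero.ne M) (NeZero.ne M')⟩
  have hqMM : Nat.Coprime q (M * M') := Nat.Coprime.mul_right hqM hqM'
  have i1 : NeZero (q ^ (a - 1) * (M * M')) := ⟨mul_ne_zero (pow_ne_zero _ hq.ne_zero) (NeZero.ne _)⟩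
  have i2 : NeZero (q ^ a * (M * M')) := ⟨mul_ne_zero (pow_ne_zero _ hq.ne_zero) (NeZero.ne _)⟩
  have hf1 : QNew (M * M') q a k f := hf.mono (Nat.dvd_mul_right M M')
  have hg1 : IsCF (q ^ (a - 1) * (M * M')) k g :=
    hg.mono (mul_dvd_mul_left _ (Nat.dvd_mul_left M' M))
  have hf2 := hf1.dops hL hq hqMM hqL
  obtain ⟨hg2, hg3⟩ := hg1.dops hL
  obtain ⟨-, hf3⟩ := hf1.cf.dops hL
  set N₁ := lev L (M * M') with hN₁
  rw [lev_mul] at hg2
  have hN₁0 : NeZero N₁ := ⟨lev_ne_zero hL (NeZero.ne _)⟩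
  have i3 : NeZero (q ^ a * N₁) := ⟨mul_ne_zero (pow_ne_zero _ hq.ne_zero) (NeZero.ne _)⟩
  have hdvd : q ^ (a - 1) * N₁ ∣ q ^ a * N₁ :=
    mul_dvd_mul_right (pow_dvd_pow q (Nat.sub_le a 1)) _
  have hsub : IsCF (q ^ a * N₁) k (Newform.dops k L f - Newform.dops k L g) := hf2.cf.sub (hg2.mono hdvd)
  have hqdvd : q ∣ q ^ a * N₁ := (dvd_pow_self q ha).mul_right _
  obtain ⟨y, hy, e⟩ := hsub.lower hq hqdvd (fun n hn => by
    rw [hf2.cf.qCoeff_sub hg2, hf3, hg3]
    split_ifs with h'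
    · ring
    · rw [h n hn (fun l hl hd => h' ⟨l, hl, hd⟩), sub_self])
  have hlev : q ^ a * N₁ / q = q ^ (a - 1) * N₁ := by
    have : q ^ a = q * q ^ (a - 1) := by
      rw [← pow_succ', Nat.sub_add_cancel (Nat.pos_of_ne_zero ha)]
    rw [this, mul_assoc, Nat.mul_div_cancel_left _ hq.pos]
  rw [hlev] at hy
  have hz : Newform.dops k L f = 0 :=
    hf2.eq_zero_of_old hq.ne_zero (coprime_lev hL hq hqL hqMM) ha hg2 hy (by rw [← e]; abel)
  intro n hn
  have h1 := hf3 n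
  rw [hz, if_neg (fun ⟨l, hl, hd⟩ => hn l hl hd)] at h1
  rw [← h1]
  exact HeckeDuality.qc_zero (N := 1) (k := k) n

/-- If `q` is prime to the levels of `f` and `g`, and their coefficients agree at all `n` prime
to `q` and to the primes in `L`, then they agree at all `n` prime to `L`. -/
theorem IsCF.coeff_eq {L : List ℕ} (hL : ∀ l ∈ L, l.Prime) {N : ℕ}
    [NeZero N] {q : ℕ} (hq : q.Prime) (hqN : Nat.Coprime q N)
    (hqL : q ∉ L) (hf : IsCF N k f)
    (h : ∀ n, ¬ q ∣ n → (∀ l ∈ L, ¬ l ∣ n) → qCoeff f n = 0) :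
    ∀ n, (∀ l ∈ L, ¬ l ∣ n) → qCoeff f n = 0 := by
  obtain ⟨h1, h2⟩ := hf.dops hL
  have i1 : NeZero (lev L N) := ⟨lev_ne_zero hL (NeZero.ne N)⟩
  have h3 : ¬ q ∣ lev L N := (Nat.Prime.coprime_iff_not_dvd hq).1 (coprime_lev hL hq hqL hqN)
  have hz := h1.eq_zero_of_supported hq h3 (fun n hn => by
    rw [h2]
    split_ifs with h'
    · rfl
    · exact h n hn (fun l hl hd => h' ⟨l, hl, hd⟩))
  intro n hn
  have h4 := h2 n
  rw [hz, if_neg (fun ⟨l, hl, hd⟩ => hn l hl hd)] at h4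
  rw [← h4]
  exact HeckeDuality.qc_zero (N := 1) (k := k) n

/-- `f` is a form of level `N` that is new at every prime dividing `N`. -/
structure IsNew (N : ℕ) (k : ℤ) (f : ℍ → ℂ) : Prop where
  cf : IsCF N k f
  new : ∀ q M a : ℕ, q.Prime → Nat.Coprime q M → a ≠ 0 → N = q ^ a * M → QNew M q a k f

/-- **Strong multiplicity one, additive form.** A new form of level `N` whose coefficients `a_n`
vanish for all `n` prime to a finite set of primes is zero. -/
theorem IsNew.eq_zero {N : ℕ} [NeZero N] (hf : IsNew N k f) {L : List ℕ}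
    (hL : ∀ l ∈ L, l.Prime) (h : ∀ n, (∀ l ∈ L, ¬ l ∣ n) → qCoeff f n = 0) : f = 0 := by
  induction L with
  | nil =>
    refine hf.cf.ext (IsCF.zero (N := N)) fun n => ?_
    rw [h n (by simp)]
    exact (HeckeDuality.qc_zero (N := 1) (k := k) n).symm
  | cons q L ih =>
    have hL' : ∀ l ∈ L, l.Prime := fun l' h' => hL l' (List.mem_cons_of_mem _ h')
    have hq := hL q (by simp)
    refine ih hL' ?_
    by_cases hqL : q ∈ L
    · intro n hn
      refine h n fun l hl => ?_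
      rcases List.mem_cons.1 hl with rfl | h'
      · exact hn _ hqL
      · exact hn _ h'
    have h' : ∀ n, ¬ q ∣ n → (∀ l ∈ L, ¬ l ∣ n) → qCoeff f n = 0 := fun n hn hn' =>
      h n fun l hl => by
        rcases List.mem_cons.1 hl with rfl | h'
        · exact hn
        · exact hn' l h'
    by_cases hqN : q ∣ N
    · obtain ⟨a, M, hM, e⟩ := Nat.exists_eq_pow_mul_and_not_dvd (NeZero.ne N) q hq.ne_one
      have ha : a ≠ 0 := by
        rintro rfl
        rw [pow_zero, one_mul] at e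
        exact hM (e ▸ hqN)
      have hM0 : M ≠ 0 := fun h0 => hM (h0 ▸ dvd_zero q)
      have : NeZero M := ⟨hM0⟩
      have hcop := (Nat.Prime.coprime_iff_not_dvd hq).2 hM
      refine QNew.coeff_eq_zero (g := 0) (M' := 1) hL' hq hcop (Nat.coprime_one_right q) ha hqL
        (hf.new q M a hq hcop ha e) IsCF.zero ?_
      intro n hn hn'
      rw [h' n hn hn']
      exact (HeckeDuality.qc_zero (N := 1) (k := k) n).symm
    · exact hf.cf.coeff_eq hL' hq ((Nat.Prime.coprime_iff_not_dvd hq).2 hqN) hqL h'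

end main

end Fermat.Agent.Newform
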