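import Fermat.Agent.Petersson.Eigen
import Fermat.Agent.HeckeDualityB
import Fermat.Agent.Oldform

/-!
A nonzero form of level `M` which is an eigenvector of almost all Hecke operators gives a
normalised eigenform of level `M`.
-/

set_option autoImplicit false

open UpperHalfPlane ModularForm ModularFormClass CongruenceSubgroup
open scoped MatrixGroups ModularForm
open Fermat.Agent.HeckeDuality

namespace Fermat.Agent.Newform

/-- A commuting family of operators on a finite-dimensional complex space has a common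
eigenvector in each nonzero stable subspace. -/
theorem exists_common_eigenvector {V : Type*} [AddCommGroup V] [Module ℂ V]
    [FiniteDimensional ℂ V] (A : Set (Module.End ℂ V))
    (hA : ∀ s ∈ A, ∀ t ∈ A, s * t = t * s) (W : Submodule ℂ V) (hW : W ≠ ⊥)
    (hWA : ∀ t ∈ A, ∀ w ∈ W, t w ∈ W) :
    ∃ v ∈ W, v ≠ 0 ∧ ∀ t ∈ A, ∃ c : ℂ, t v = c • v := by
  classical
  induction hn : Module.finrank ℂ W using Nat.strong_induction_on generalizing W with
  | _ n ih =>
    by_cases hall : ∀ t ∈ A, ∃ c : ℂ, ∀ w ∈ W, t w = c • w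
    · obtain ⟨v, hv, hv0⟩ := Submodule.exists_mem_ne_zero_of_ne_bot hW
      refine ⟨v, hv, hv0, fun t ht => ?_⟩
      obtain ⟨c, hc⟩ := hall t ht
      exact ⟨c, hc v hv⟩
    · push Not at hall
      obtain ⟨t, ht, hc⟩ := hall
      have hnt : Nontrivial W := Submodule.nontrivial_iff_ne_bot.2 hW
      obtain ⟨μ, hμ⟩ := Module.End.exists_eigenvalue (t.restrict (hWA t ht))
      obtain ⟨w, hw⟩ := hμ.exists_hasEigenvector
      set W' : Submodule ℂ V := W ⊓ t.eigenspace μ with hW'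
      have hwW' : (w : V) ∈ W' := by
        refine ⟨w.2, ?_⟩
        rw [SetLike.mem_coe, Module.End.mem_eigenspace_iff]
        have := hw.apply_eq_smul
        exact congrArg Subtype.val this
      have hW'0 : W' ≠ ⊥ := by
        intro h
        rw [h] at hwW'
        exact hw.2 (Subtype.ext (by simpa using hwW'))
      have hlt : W' < W := by
        refine lt_of_le_of_ne inf_le_left fun h => ?_
        obtain ⟨w', hw', hne⟩ := hc μ
        rw [← h] at hw'
        exact hne (Module.End.mem_eigenspace_iff.1 hw'.2)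
      have hfr : Module.finrank ℂ W' < n := by
        rw [← hn]; exact Submodule.finrank_lt_finrank_of_lt hlt
      obtain ⟨v, hv, hv0, hvA⟩ := ih _ hfr W' hW'0 (fun s hs w hw => by
        refine ⟨hWA s hs w hw.1, ?_⟩
        rw [SetLike.mem_coe, Module.End.mem_eigenspace_iff]
        have h1 : t (s w) = s (t w) := by
          rw [← Module.End.mul_apply, ← Module.End.mul_apply, hA t ht s hs]
        rw [h1, Module.End.mem_eigenspace_iff.1 hw.2, map_smul]) rfl
      exact ⟨v, hv.1, hv0, hvA⟩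

/-- An eigenvector of the full Hecke algebra is a multiple of a normalised eigenform. -/
theorem exists_normalized_of_eigenvector {M : ℕ} [NeZero M] (v : CuspForm (Gamma0 M) 2)
    (hv0 : v ≠ 0) (hv : ∀ t : CuspForm.heckeAlgebra M 2 ∅, ∃ c : ℂ,
      (t : Module.End ℂ (CuspForm (Gamma0 M) 2)) v = c • v) :
    ∃ c : ℂ, c ≠ 0 ∧ (c • v).IsNormalizedEigenform := by
  have h1 : qCoeff ⇑v 1 ≠ 0 := by
    intro h1
    refine hv0 (eq_zero_of_forall_heckeAlgebra (by norm_num) v fun t => ?_)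
    obtain ⟨c, hc⟩ := hv t
    rw [hc, qc_smul, h1, mul_zero]
  refine ⟨(qCoeff ⇑v 1)⁻¹, inv_ne_zero h1, ?_⟩
  refine (isNormalizedEigenform_of_gen _ ?_ fun ℓ hℓ => ?_).1
  · rw [qc_smul, inv_mul_cancel₀ h1]
  · obtain ⟨c, hc⟩ := hv (gen M 2 hℓ)
    exact ⟨c, by rw [map_smul, hc, smul_comm]⟩

/-- A nonzero form of level `M` which is an eigenvector of `T_ℓ` for the primes `ℓ ∤ M` satisfying
`P`, gives a normalised eigenform of level `M` with the same eigenvalues at these primes. -/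
theorem exists_eigenform_of_partial {M : ℕ} [NeZero M] (a : ℕ → ℂ) (P : ℕ → Prop)
    (h : CuspForm (Gamma0 M) 2) (h0 : h ≠ 0)
    (hh : ∀ (ℓ : ℕ) (hℓ : ℓ.Prime) (hℓM : ¬ ℓ ∣ M), P ℓ →
      CuspForm.heckeTLin 2 hℓ hℓM h = a ℓ • h) :
    ∃ g : CuspForm (Gamma0 M) 2, g.IsNormalizedEigenform ∧
      ∀ ℓ : ℕ, ℓ.Prime → ¬ ℓ ∣ M → P ℓ → qCoeff ⇑g ℓ = a ℓ := by
  have hfd := Fermat.Agent.Petersson.finiteDimensional_cuspForm' M 2
  let W : Submodule ℂ (CuspForm (Gamma0 M) 2) :=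
    ⨅ (ℓ : ℕ) (hℓ : ℓ.Prime) (hℓM : ¬ ℓ ∣ M) (_ : P ℓ),
      Module.End.eigenspace (CuspForm.heckeTLin 2 hℓ hℓM) (a ℓ)
  have hmem : ∀ w, w ∈ W ↔ ∀ (ℓ : ℕ) (hℓ : ℓ.Prime) (hℓM : ¬ ℓ ∣ M), P ℓ →
      CuspForm.heckeTLin 2 hℓ hℓM w = a ℓ • w := by
    intro w
    simp only [W, Submodule.mem_iInf, Module.End.mem_eigenspace_iff]
  have hW : W ≠ ⊥ := by
    intro hb
    have : h ∈ W := (hmem h).2 hh
    rw [hb] at this
    exact h0 (by simpa using this)
  obtain ⟨v, hv, hv0, hvA⟩ := exists_common_eigenvector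
    (A := {t | t ∈ CuspForm.heckeAlgebra M 2 (∅ : Set ℕ)}) (by
      intro s hs t ht
      have := mul_comm (⟨s, hs⟩ : CuspForm.heckeAlgebra M 2 (∅ : Set ℕ)) ⟨t, ht⟩
      exact congrArg Subtype.val this) W hW (by
      intro t ht w hw
      rw [hmem] at hw ⊢
      intro ℓ hℓ hℓM hP
      have hT := CuspForm.heckeTLin_mem_heckeAlgebra (k := 2) (S := (∅ : Set ℕ)) hℓ hℓM
        (Set.notMem_empty _)
      have hc : CuspForm.heckeTLin 2 hℓ hℓM * t = t * CuspForm.heckeTLin 2 hℓ hℓM := by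
        have := mul_comm (⟨_, hT⟩ : CuspForm.heckeAlgebra M 2 (∅ : Set ℕ)) ⟨t, ht⟩
        exact congrArg Subtype.val this
      have h1 : CuspForm.heckeTLin 2 hℓ hℓM (t w) = t (CuspForm.heckeTLin 2 hℓ hℓM w) := by
        have := congrArg (fun φ : Module.End ℂ (CuspForm (Gamma0 M) 2) => φ w) hc
        exact this
      rw [h1, hw ℓ hℓ hℓM hP, map_smul])
  obtain ⟨c, hc0, hc⟩ := exists_normalized_of_eigenvector v hv0 fun t => hvA t t.2
  refine ⟨c • v, hc, fun ℓ hℓ hℓM hP => ?_⟩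
  have h1 := (hmem v).1 hv ℓ hℓ hℓM hP
  have h2 : CuspForm.heckeTLin 2 hℓ hℓM (c • v) = a ℓ • (c • v) := by
    rw [map_smul, h1, smul_comm]
  have h3 : qCoeff ⇑(CuspForm.heckeTLin 2 hℓ hℓM (c • v)) 1 = qCoeff ⇑(a ℓ • (c • v)) 1 :=
    congrArg (fun g : CuspForm (Gamma0 M) 2 => qCoeff ⇑g 1) h2
  rw [qc_heckeTLin, qc_smul (a ℓ), hc.qCoeff_one, one_mul, mul_one, if_neg, add_zero] at h3
  · exact h3
  · exact fun hd => hℓ.one_lt.ne' (Nat.dvd_one.mp hd)

end Fermat.Agent.Newform
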