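import Fermat.Agent.Newform.CF

/-!
Forms with `q`-expansion supported on multiples of a prime `q`.
-/

set_option autoImplicit false

open UpperHalfPlane ModularForm ModularFormClass CongruenceSubgroup Matrix.SpecialLinearGroup
open scoped MatrixGroups ModularForm OnePoint
open Fermat.Agent.HeckeDuality Fermat.Agent.Petersson

namespace Fermat.Agent.Newform

lemma slash_injective (k : ℤ) (α : GL (Fin 2) ℝ) : Function.Injective (fun f : ℍ → ℂ => f ∣[k] α) := by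
  intro f g h
  have h1 : (f ∣[k] α) ∣[k] α⁻¹ = (g ∣[k] α) ∣[k] α⁻¹ := congrArg (fun f : ℍ → ℂ => f ∣[k] α⁻¹) h
  rwa [← SlashAction.slash_mul, ← SlashAction.slash_mul, mul_inv_cancel, SlashAction.slash_one,
    SlashAction.slash_one] at h1

/-- the translation by `i` -/
def tr (i : ℤ) : SL(2, ℤ) := ⟨!![1, i; 0, 1], by simp⟩

@[simp] lemma tr_apply_00 (i : ℤ) : tr i 0 0 = 1 := rfl
@[simp] lemma tr_apply_01 (i : ℤ) : tr i 0 1 = i := rfl
@[simp] lemma tr_apply_10 (i : ℤ) : tr i 1 0 = 0 := rfl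
@[simp] lemma tr_apply_11 (i : ℤ) : tr i 1 1 = 1 := rfl

lemma tr_mul_tr (i j : ℤ) : tr i * tr j = tr (i + j) := by
  ext a b
  fin_cases a <;> fin_cases b <;> simp [tr, Matrix.mul_apply, Fin.sum_univ_two, add_comm]

lemma tr_zero : tr 0 = 1 := by
  ext a b
  fin_cases a <;> fin_cases b <;> simp [tr]

lemma G0Inv.tr {N : ℕ} {k : ℤ} {f : ℍ → ℂ} (hf : G0Inv N k f) (i : ℤ) :
    f ∣[k] (mapGL ℝ (tr i)) = f := hf _ (by simp)

/-- A form of level `N` whose `q`-expansion is supported on multiples of `q`, `q ∣ N`, is of the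
form `g(qτ)` with `g` of level `N / q`. -/
theorem IsCF.lower {N q : ℕ} [NeZero N] (hq : q.Prime) (hqN : q ∣ N) {k : ℤ} {f : ℍ → ℂ}
    (hf : IsCF N k f) (hc : ∀ n, ¬ q ∣ n → qCoeff f n = 0) :
    ∃ g, IsCF (N / q) k g ∧ f = g ∣[k] heckeDiagMatrix q := by
  have hq0 := hq.ne_zero
  have hNq : NeZero (N / q) :=
    ⟨(Nat.div_pos (Nat.le_of_dvd (NeZero.pos N) hqN) hq.pos).ne'⟩
  set g : ℍ → ℂ := ((q : ℂ) ^ (1 - k)) • ModularForm.heckeU k q f with hg
  have hgN : IsCF N k g := (hf.heckeU hqN).smul _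
  have hfg : f = g ∣[k] heckeDiagMatrix q := by
    have : NeZero (N * q) := ⟨mul_ne_zero (NeZero.ne N) hq0⟩
    refine hf.ext (hgN.diag hq0 (dvd_refl (N * q))) fun n => ?_
    rw [hgN.qCoeff_diag hq0, hg, (hf.heckeU hqN).qCoeff_smul, hf.qCoeff_heckeU hq0]
    split_ifs with h
    · rw [Nat.div_mul_cancel h, ← mul_assoc, ← zpow_add₀ (by exact_mod_cast hq0)]
      simp
    · exact hc n h
  refine ⟨g, hgN.of_g0Inv ?_, hfg⟩
  intro γ hγ
  have hdet := P2MW.S_ModularForm_heckeT_slash_eq_self_of_mem_Gamma0.ModularForm.HeckeSlashInvariance.det_eq γ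
  -- choose `i` with `q ∤ a + i c`
  obtain ⟨i, hi⟩ : ∃ i : ℤ, ¬ (q : ℤ) ∣ γ 0 0 + i * γ 1 0 := by
    by_cases ha : (q : ℤ) ∣ γ 0 0
    · refine ⟨1, fun h => ?_⟩
      rw [one_mul] at h
      have hc' : (q : ℤ) ∣ γ 1 0 := (dvd_add_right ha).1 h
      have : (q : ℤ) ∣ 1 := by
        rw [← hdet]
        exact dvd_sub (ha.mul_right _) (hc'.mul_left _)
      exact (Nat.prime_iff_prime_int.1 hq).not_dvd_one this
    · exact ⟨0, by simpa using ha⟩
  obtain ⟨j, hj⟩ : ∃ j : ℤ, (q : ℤ) ∣ (γ 0 0 + i * γ 1 0) * j + (γ 0 1 + i * γ 1 1) := by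
    have hcop : IsCoprime (γ 0 0 + i * γ 1 0) (q : ℤ) :=
      ((Nat.prime_iff_prime_int.1 hq).coprime_iff_not_dvd.2 hi).symm
    obtain ⟨u, v, huv⟩ := hcop
    refine ⟨-u * (γ 0 1 + i * γ 1 1), v * (γ 0 1 + i * γ 1 1), ?_⟩
    linear_combination (-(γ 0 1 + i * γ 1 1)) * huv
  set δ : SL(2, ℤ) := tr i * γ * tr j with hδ
  have hδ01 : δ 0 1 = (γ 0 0 + i * γ 1 0) * j + (γ 0 1 + i * γ 1 1) := by
    simp [hδ, Matrix.mul_apply, Fin.sum_univ_two]
  have hδ10 : δ 1 0 = γ 1 0 := by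
    simp [hδ, Matrix.mul_apply, Fin.sum_univ_two]
  obtain ⟨e, he⟩ := hj
  obtain ⟨δ', hδ', hmul⟩ := exists_diag_mul hq0 δ e (by rw [hδ01, he])
  have h1 : f ∣[k] (mapGL ℝ δ') = f := by
    apply hf.g0Inv
    rw [hδ', hδ10]
    have : (N : ℤ) = q * ((N / q : ℕ) : ℤ) := by
      rw [← Nat.cast_mul, Nat.mul_div_cancel' hqN]
    rw [this]
    exact mul_dvd_mul_left _ hγ
  have h2 : g ∣[k] (mapGL ℝ δ) = g := by
    apply slash_injective k (heckeDiagMatrix q)
    show (g ∣[k] (mapGL ℝ δ)) ∣[k] heckeDiagMatrix q = g ∣[k] heckeDiagMatrix q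
    rw [← SlashAction.slash_mul, ← hmul, SlashAction.slash_mul, ← hfg, h1]
  have h3 : γ = tr (-i) * δ * tr (-j) := by
    have h4 : tr (-i) * tr i = 1 := by rw [tr_mul_tr]; simp [tr_zero]
    have h5 : tr j * tr (-j) = 1 := by rw [tr_mul_tr]; simp [tr_zero]
    rw [hδ]
    calc γ = (tr (-i) * tr i) * γ * (tr j * tr (-j)) := by rw [h4, h5, one_mul, mul_one]
      _ = _ := by simp only [mul_assoc]
  rw [h3, map_mul, map_mul, SlashAction.slash_mul, SlashAction.slash_mul, hgN.g0Inv.tr, h2,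
    hgN.g0Inv.tr]

/-! ### The case `q ∤ N` -/

/-- translation by a real number -/
noncomputable def trR (x : ℝ) : GL (Fin 2) ℝ :=
  Matrix.GeneralLinearGroup.mkOfDetNeZero !![1, x; 0, 1] (by simp)

@[simp] lemma val_trR (x : ℝ) : ((trR x : GL (Fin 2) ℝ) : Matrix (Fin 2) (Fin 2) ℝ) =
    !![1, x; 0, 1] := rfl

lemma trR_add (x y : ℝ) : trR (x + y) = trR x * trR y := by
  ext a b
  fin_cases a <;> fin_cases b <;> simp [Matrix.mul_apply, Fin.sum_univ_two, add_comm]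

lemma mapGL_tr (i : ℤ) : mapGL ℝ (tr i) = trR i := by
  ext a b
  fin_cases a <;> fin_cases b <;> simp

lemma heckeMatrix_mul_diag (l j : ℕ) (hl : l ≠ 0) :
    heckeMatrix l j * heckeDiagMatrix l =
      heckeMatrix l 0 * heckeDiagMatrix l * trR ((j : ℝ) / l) := by
  have hl' : (l : ℝ) ≠ 0 := by exact_mod_cast hl
  ext a b
  fin_cases a <;> fin_cases b <;> simp [hl, Matrix.mul_apply, Fin.sum_univ_two]
  field_simp

/-- `e_l` as an average over translations. -/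
lemma eop_eq (k : ℤ) {l : ℕ} (hl : l ≠ 0) (f : ℍ → ℂ) :
    eop k l f = ((l : ℂ)⁻¹) • ∑ j ∈ Finset.range l, f ∣[k] trR ((j : ℝ) / l) := by
  have hl' : (l : ℂ) ≠ 0 := by exact_mod_cast hl
  unfold eop
  rw [heckeU_def, SlashAction.sum_slash, Finset.smul_sum, Finset.smul_sum]
  refine Finset.sum_congr rfl fun j _ => ?_
  rw [← SlashAction.slash_mul, heckeMatrix_mul_diag l j hl, SlashAction.slash_mul,
    SlashAction.slash_mul, slash_slash_scalar hl, ModularForm.smul_slash, σ_of_pos (by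
      rw [Matrix.GeneralLinearGroup.val_det_apply]; simp), smul_smul]
  congr 1
  show (l : ℂ) ^ (1 - k) * (l : ℂ) ^ (k - 2) = _
  rw [← zpow_add₀ hl', ← zpow_neg_one]
  congr 1
  ring

lemma val_mapGL (γ : SL(2, ℤ)) : ((mapGL ℝ γ : GL (Fin 2) ℝ) : Matrix (Fin 2) (Fin 2) ℝ) =
    !![(γ 0 0 : ℝ), (γ 0 1 : ℝ); (γ 1 0 : ℝ), (γ 1 1 : ℝ)] := by
  ext a b
  fin_cases a <;> fin_cases b <;> simp

/-- If `f` is invariant under translation by `1 / l`, then its `q`-expansion is supported on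
multiples of `l`. -/
lemma IsCF.qCoeff_eq_zero_of_trR {N l : ℕ} [NeZero N] (hl : l ≠ 0) {k : ℤ} {f : ℍ → ℂ}
    (hf : IsCF N k f) (h : f ∣[k] trR ((1 : ℝ) / l) = f) {n : ℕ} (hn : ¬ l ∣ n) :
    qCoeff f n = 0 := by
  have h1 : ∀ j : ℕ, f ∣[k] trR ((j : ℝ) / l) = f := by
    intro j
    induction j with
    | zero =>
      have : trR (((0 : ℕ) : ℝ) / l) = 1 := by
        ext a b; fin_cases a <;> fin_cases b <;> simp
      rw [this, SlashAction.slash_one]
    | succ j ih =>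
      have : (((j + 1 : ℕ) : ℝ) / l) = (j : ℝ) / l + 1 / l := by push_cast; ring
      rw [this, trR_add, SlashAction.slash_mul, ih, h]
  have h2 : Newform.eop k l f = f := by
    rw [eop_eq k hl]
    simp only [h1, Finset.sum_const, Finset.card_range]
    have hl' : (l : ℂ) ≠ 0 := by exact_mod_cast hl
    ext τ
    simp [hl']
  rw [← h2, hf.qCoeff_eop hl, if_neg hn]

/-- Conversely. -/
lemma IsCF.trR_of_qCoeff {N l : ℕ} [NeZero N] (hl : l ≠ 0) {k : ℤ} {f : ℍ → ℂ}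
    (hf : IsCF N k f) (hc : ∀ n, ¬ l ∣ n → qCoeff f n = 0) :
    f ∣[k] trR ((1 : ℝ) / l) = f := by
  have hl' : (l : ℝ) ≠ 0 := by exact_mod_cast hl
  have : NeZero (N * l) := ⟨mul_ne_zero (NeZero.ne N) hl⟩
  have : NeZero (N * l * l) := ⟨mul_ne_zero (mul_ne_zero (NeZero.ne N) hl) hl⟩
  have h2 : Newform.eop k l f = f := (hf.eop hl).ext hf fun n => by
    rw [hf.qCoeff_eop hl]
    split_ifs with h
    · rfl
    · exact (hc n h).symm
  have h3 : heckeDiagMatrix l * trR ((1 : ℝ) / l) = mapGL ℝ (tr 1) * heckeDiagMatrix l := by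
    ext a b
    fin_cases a <;> fin_cases b <;> simp [hl, Matrix.mul_apply, Fin.sum_univ_two]
  conv_lhs => rw [← h2]
  unfold Newform.eop
  rw [ModularForm.smul_slash, σ_of_pos (by
      rw [Matrix.GeneralLinearGroup.val_det_apply]; simp), ← SlashAction.slash_mul, h3,
    SlashAction.slash_mul, (hf.heckeU' hl).g0Inv.tr]
  exact h2

/-- A form of level `N` prime to `q` whose `q`-expansion is supported on multiples of `q`
vanishes. -/
theorem IsCF.eq_zero_of_supported {N q : ℕ} [NeZero N] (hq : q.Prime) (hqN : ¬ q ∣ N) {k : ℤ}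
    {f : ℍ → ℂ} (hf : IsCF N k f) (hc : ∀ n, ¬ q ∣ n → qCoeff f n = 0) : f = 0 := by
  have hq0 := hq.ne_zero
  have hqR : (q : ℝ) ≠ 0 := by exact_mod_cast hq0
  have hcop : IsCoprime (q : ℤ) (N : ℤ) :=
    Nat.isCoprime_iff_coprime.2 ((Nat.Prime.coprime_iff_not_dvd hq).2 hqN)
  have h1 := hf.trR_of_qCoeff hq0 hc
  have hj : ∀ j : ℕ, f ∣[k] trR ((j : ℝ) / q) = f := by
    intro j
    induction j with
    | zero =>
      have : trR (((0 : ℕ) : ℝ) / q) = 1 := by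
        ext a b; fin_cases a <;> fin_cases b <;> simp
      rw [this, SlashAction.slash_one]
    | succ j ih =>
      have : (((j + 1 : ℕ) : ℝ) / q) = (j : ℝ) / q + 1 / q := by push_cast; ring
      rw [this, trR_add, SlashAction.slash_mul, ih, h1]
  -- `n N ≡ 1 mod q`, `q³ s ≡ 1 mod N`
  obtain ⟨n, x, hn⟩ : ∃ (n : ℕ) (x : ℤ), (n : ℤ) * N = 1 + q * x := by
    obtain ⟨u, v, huv⟩ := hcop
    have hqpos : (0 : ℤ) < q := by exact_mod_cast hq.pos
    refine ⟨(v % q).toNat, -u - N * (v / q), ?_⟩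
    rw [Int.toNat_of_nonneg (Int.emod_nonneg _ hqpos.ne')]
    have := Int.emod_add_mul_ediv v q
    linear_combination huv + N * this
  obtain ⟨s, r, hsr⟩ : ∃ s r : ℤ, (q : ℤ) ^ 3 * s - 1 = N * r := by
    obtain ⟨u, v, huv⟩ := hcop.pow_left (m := 3)
    exact ⟨u, -v, by linear_combination huv⟩
  -- `q ∣ r + n² N`
  obtain ⟨w, hw⟩ : (q : ℤ) ∣ r + n ^ 2 * N := by
    have h2 : (q : ℤ) ∣ N * (r + n ^ 2 * N) := by
      refine ⟨q ^ 2 * s + 2 * x + q * x ^ 2, ?_⟩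
      have : (N : ℤ) * (r + n ^ 2 * N) = N * r + (n * N) ^ 2 := by ring
      rw [this, hn, ← hsr]; ring
    exact hcop.dvd_of_dvd_mul_left h2
  let γ : SL(2, ℤ) := ⟨!![q ^ 2 * s - n * N, w - n - n * q * s; q * N, q - n * N], by
    rw [Matrix.det_fin_two_of]
    linear_combination hsr + N * hw⟩
  have hγ : f ∣[k] (mapGL ℝ γ) = f := hf.g0Inv γ ⟨q, by simp [γ, mul_comm]⟩
  let γ' : SL(2, ℤ) := ⟨!![1, 0; -N, 1], by simp⟩
  have hγ' : f ∣[k] (mapGL ℝ γ') = f := hf.g0Inv γ' ⟨-1, by simp [γ']⟩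
  let h : GL (Fin 2) ℝ := Matrix.GeneralLinearGroup.mkOfDetNeZero !![1 / q, r / q; 0, q] (by
    rw [Matrix.det_fin_two_of]; field_simp; simp [hq0])
  have hh : h = trR ((n : ℝ) / q) * mapGL ℝ γ * trR ((n : ℝ) / q) * mapGL ℝ γ' := by
    have e1 : (q : ℝ) ^ 3 * s - 1 = N * r := by exact_mod_cast hsr
    have e2 : (r : ℝ) + n ^ 2 * N = q * w := by exact_mod_cast hw
    have e3 : (w : ℝ) = (r + n ^ 2 * N) / q := by field_simp; linarith
    apply Units.ext
    have e5 : ((h : GL (Fin 2) ℝ) : Matrix (Fin 2) (Fin 2) ℝ) =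
        !![(1 : ℝ) / q, (r : ℝ) / q; 0, (q : ℝ)] := rfl
    have e6 : ((mapGL ℝ γ : GL (Fin 2) ℝ) : Matrix (Fin 2) (Fin 2) ℝ) =
        !![(q : ℝ) ^ 2 * s - n * N, w - n - n * q * s; q * N, q - n * N] := by
      rw [val_mapGL]; simp [γ]
    have e7 : ((mapGL ℝ γ' : GL (Fin 2) ℝ) : Matrix (Fin 2) (Fin 2) ℝ) = !![1, 0; -(N : ℝ), 1] := by
      rw [val_mapGL]; simp [γ']
    simp only [Units.val_mul, e5, e6, e7, val_trR, Matrix.mul_fin_two, e3]
    ext a b
    fin_cases a <;> fin_cases b <;> simp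
    · field_simp
      linear_combination -e1
    · field_simp
      ring
    · field_simp
      ring
    · field_simp
      ring
  have hfh : f ∣[k] h = f := by
    rw [hh, SlashAction.slash_mul, SlashAction.slash_mul, SlashAction.slash_mul, hj, hγ, hj, hγ']
  -- all translations by `1 / q^{2m}`
  have hm : ∀ m : ℕ, f ∣[k] trR ((1 : ℝ) / (q ^ (2 * m) : ℕ)) = f := by
    intro m
    induction m with
    | zero =>
      have : trR ((1 : ℝ) / (q ^ (2 * 0) : ℕ)) = mapGL ℝ (tr 1) := by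
        rw [mapGL_tr]; simp
      rw [this, hf.g0Inv.tr]
    | succ m ih =>
      have e4 : h * trR ((1 : ℝ) / (q ^ (2 * m) : ℕ)) = trR ((1 : ℝ) / (q ^ (2 * (m + 1)) : ℕ)) * h := by
        ext a b
        fin_cases a <;> fin_cases b <;>
          simp [h, Matrix.mul_apply, Fin.sum_univ_two, Matrix.GeneralLinearGroup.mkOfDetNeZero]
        field_simp
        ring
      apply slash_injective k h
      show (f ∣[k] trR ((1 : ℝ) / (q ^ (2 * (m + 1)) : ℕ))) ∣[k] h = f ∣[k] h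
      rw [← SlashAction.slash_mul, ← e4, SlashAction.slash_mul, hfh, ih]
  refine hf.ext (IsCF.zero (N := N)) fun n => ?_
  have hz : qCoeff (0 : ℍ → ℂ) n = 0 := qc_zero (N := N) (k := k) n
  rw [hz]
  rcases Nat.eq_zero_or_pos n with rfl | hn0
  · exact hf.qCoeff_zero'
  · refine hf.qCoeff_eq_zero_of_trR (l := q ^ (2 * n)) (pow_ne_zero _ hq0) (hm n) fun hd => ?_
    have h5 := Nat.le_of_dvd hn0 hd
    have h6 : n < q ^ n := Nat.lt_pow_self hq.one_lt
    have h7 : q ^ n ≤ q ^ (2 * n) := Nat.pow_le_pow_right hq.pos (by omega)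
    omega

end Fermat.Agent.Newform
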