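import Fermat.Agent.Newform.StrongMult

/-!
# Old and new forms

* `AL_eq_smul`: `W_Q f = ± f` for newforms;
* `AL_eq_neg`: `W_q f = - a_q(f) f` if `q ∥ N`;
* `isCompl_new_old`: `S_k(Γ₀(N)) = S_k(Γ₀(N))^new ⊕ S_k(Γ₀(N))^old` (orthogonal for the
  Petersson product).
-/

set_option autoImplicit false

open MeasureTheory UpperHalfPlane ModularForm ModularFormClass CongruenceSubgroup
  Matrix.SpecialLinearGroup
open scoped MatrixGroups ModularForm ENNReal
open Fermat.Agent.Petersson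
open P2MW.S_ModularForm_heckeT_slash_eq_self_of_mem_Gamma0.ModularForm.HeckeSlashInvariance

namespace Fermat.Agent.Newform

/-! ### Atkin–Lehner eigenvalues -/

/-- Newforms are eigenvectors of the Atkin–Lehner operators, with eigenvalue `±1`. -/
theorem AL_eq_smul {Q M : ℕ} [NeZero M] (hQ : Q ≠ 0) (hcop : Nat.Coprime Q M)
    {f : CuspForm (Gamma0 (Q * M)) 2} (hf : f.IsNewform) {D : SL(2, ℤ)} (hD : IsAL M Q D) :
    ∃ ε : ℂ, (ε = 1 ∨ ε = -1) ∧ AL 2 Q D ⇑f = ε • ⇑f := by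
  have : NeZero (Q * M) := ⟨mul_ne_zero hQ (NeZero.ne M)⟩
  have h1 : IsCF (Q * M) 2 (AL 2 Q D ⇑f) := (isCF_coe f).AL hQ hcop hD
  have h2 : Eig 2 (badSet (Q * M)) (qCoeff ⇑f) (AL 2 Q D ⇑f) :=
    (eig_of_eigenform hf.1).AL hQ hcop (g0Inv_coe f) (fun p _ h => h) hD
  have h3 := eq_smul_of_eig hf h1 finite_badSet h2
  refine ⟨qCoeff (AL 2 Q D ⇑f) 1, ?_, h3⟩
  set ε := qCoeff (AL 2 Q D ⇑f) 1 with hε
  have h4 : AL 2 Q D (AL 2 Q D ⇑f) = ⇑f := by
    rw [AL_AL hQ hcop (g0Inv_coe f) hD]; simp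
  rw [h3, AL_smul, h3, smul_smul] at h4
  have h5 : qCoeff ((ε * ε) • ⇑f) 1 = qCoeff ⇑f 1 := by rw [h4]
  rw [(isCF_coe f).qCoeff_smul, hf.1.qCoeff_one, mul_one] at h5
  exact mul_self_eq_one_iff.1 h5

/-- `W_q f = - a_q f` for a newform of level `q M`, `q ∤ M`. -/
theorem AL_eq_neg {q M : ℕ} [NeZero M] (hq : q.Prime) (hqM : ¬ q ∣ M)
    {f : CuspForm (Gamma0 (q * M)) 2} (hf : f.IsNewform) {D : SL(2, ℤ)} (hD : IsAL M q D) :
    AL 2 q D ⇑f = (-qCoeff ⇑f q) • ⇑f := by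
  have : NeZero (q * M) := ⟨mul_ne_zero hq.ne_zero (NeZero.ne M)⟩
  have h1 := (isNew_of_isNewform hf).new q M 1 hq ((Nat.Prime.coprime_iff_not_dvd hq).2 hqM)
    one_ne_zero (by rw [pow_one])
  have h2 := h1.r1 D (by rwa [pow_one])
  unfold Rop at h2
  rw [if_pos rfl, heckeU_eq hf.1 hq (Nat.dvd_mul_right q M)] at h2
  funext τ
  have h5 : qCoeff ⇑f q * f τ + AL 2 q D ⇑f τ = 0 := congrFun h2 τ
  show AL 2 q D ⇑f τ = (-qCoeff ⇑f q) * f τ
  linear_combination h5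

/-! ### Orthogonality -/

section

variable {M q a : ℕ} {k : ℤ} {f g : ℍ → ℂ}

theorem QNew.orthogonal_diag [NeZero M] (hq : q ≠ 0) (hqM : Nat.Coprime q M) (ha : a ≠ 0)
    (h : QNew M q a k f) {y : ℍ → ℂ} (hy : IsCF (q ^ (a - 1) * M) k y) :
    upp k f (y ∣[k] heckeDiagMatrix q) = 0 := by
  have h1 : NeZero (q ^ (a - 1) * M) := ⟨mul_ne_zero (pow_ne_zero _ hq) (NeZero.ne M)⟩
  have h2 : NeZero (q ^ a * M) := ⟨mul_ne_zero (pow_ne_zero _ hq) (NeZero.ne M)⟩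
  obtain ⟨D, hD⟩ := exists_isAL (M := M) (q := q ^ a) (Nat.Coprime.pow_left a hqM)
  have := upp_Rop hq ha hD h.cf.cg hy.cg hy.g0Inv
  rw [h.r1 D hD, upp_zero_left hy.cg] at this
  exact (mul_eq_zero.1 this.symm).resolve_left (Rop_coeff_ne_zero hq)

theorem QNew.orthogonal_incl [NeZero M] (hq : q ≠ 0) (hqM : Nat.Coprime q M) (ha : a ≠ 0)
    (h : QNew M q a k f) {x : ℍ → ℂ} (hx : IsCF (q ^ (a - 1) * M) k x) : upp k f x = 0 := by
  have h1 : NeZero (q ^ (a - 1) * M) := ⟨mul_ne_zero (pow_ne_zero _ hq) (NeZero.ne M)⟩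
  have h2 : NeZero (q ^ a * M) := ⟨mul_ne_zero (pow_ne_zero _ hq) (NeZero.ne M)⟩
  obtain ⟨D, hD⟩ := exists_isAL (M := M) (q := q ^ a) (Nat.Coprime.pow_left a hqM)
  have hD' : IsAL M (q ^ (a - 1)) D := hD.mono dvd_rfl (pow_dvd_pow q (Nat.sub_le a 1))
  have hxA : IsCF (q ^ (a - 1) * M) k (AL k (q ^ (a - 1)) D x) :=
    hx.AL (pow_ne_zero _ hq) (Nat.Coprime.pow_left _ hqM) hD'
  have e1 := upp_AL_AL (q := q ^ a) (pow_ne_zero a hq) D h.cf.cg hx.cg
  rw [AL_pow hq ha D x] at e1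
  have e2 := upp_Rop hq ha hD (h.cf.cg.AL (q := q ^ a) D) hxA.cg hxA.g0Inv
  rw [h.r2 D hD, upp_zero_left hxA.cg] at e2
  have e3 := (mul_eq_zero.1 e2.symm).resolve_left (Rop_coeff_ne_zero hq)
  rw [e3] at e1
  exact (mul_eq_zero.1 e1.symm).resolve_left (zpow_cast_ne_zero (pow_ne_zero a hq) _)

/-- `W_Q` maps `y(qτ)` to a form of lower level. -/
lemma AL_diag (hq : q ≠ 0) (ha : a ≠ 0) {D : SL(2, ℤ)} (hD : IsAL M (q ^ a) D) (y : ℍ → ℂ) :
    ∃ E : SL(2, ℤ), IsAL M (q ^ (a - 1)) E ∧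
      AL k (q ^ a) D (y ∣[k] heckeDiagMatrix q) =
        ((q : ℂ) ^ (k - 2)) • AL k (q ^ (a - 1)) E y := by
  obtain ⟨d, hd⟩ := hD.2
  have hqa : q ^ a = q * q ^ (a - 1) := by
    rw [← pow_succ', Nat.sub_add_cancel (Nat.pos_of_ne_zero ha)]
  have hdet := det_eq D
  let E : SL(2, ℤ) := ⟨!![q * D 0 0, D 0 1; D 1 0, (q ^ (a - 1) : ℕ) * d], by
    rw [Matrix.det_fin_two_of]
    rw [hd, hqa] at hdet
    push_cast at hdet ⊢
    linarith⟩
  refine ⟨E, ⟨hD.1, d, rfl⟩, ?_⟩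
  have e : heckeDiagMatrix q * (mapGL ℝ D * heckeDiagMatrix q) =
      (heckeMatrix q 0 * heckeDiagMatrix q) * mapGL ℝ E := by
    have hdR : ((D 1 1 : ℤ) : ℝ) = q * (q : ℝ) ^ (a - 1) * d := by
      rw [hd, hqa]; push_cast; ring
    have e3 : ((mapGL ℝ E : GL (Fin 2) ℝ) : Matrix (Fin 2) (Fin 2) ℝ) =
        !![(q : ℝ) * D 0 0, (D 0 1 : ℝ); (D 1 0 : ℝ), (q : ℝ) ^ (a - 1) * d] := by
      rw [val_mapGL]; simp [E]
    apply Units.ext
    simp only [Units.val_mul, e3, val_mapGL D, val_heckeDiagMatrix hq, val_heckeMatrix hq,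
      Matrix.mul_fin_two, hdR]
    ext i j
    fin_cases i <;> fin_cases j <;> simp
    · left; ring
    · ring
    · ring
  have h2 : heckeDiagMatrix (q ^ a) = heckeDiagMatrix q * heckeDiagMatrix (q ^ (a - 1)) := by
    rw [hqa, heckeDiagMatrix_mul _ _ hq (pow_ne_zero _ hq)]
  have e' : heckeDiagMatrix q * (mapGL ℝ D * heckeDiagMatrix (q ^ a)) =
      (heckeMatrix q 0 * heckeDiagMatrix q) * (mapGL ℝ E * heckeDiagMatrix (q ^ (a - 1))) := by
    rw [h2, ← mul_assoc (mapGL ℝ D), ← mul_assoc, e, mul_assoc]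
  unfold AL
  rw [← SlashAction.slash_mul, ← SlashAction.slash_mul, e', SlashAction.slash_mul,
    SlashAction.slash_mul, SlashAction.slash_mul, slash_slash_scalar hq,
    smul_slash_mapGL, smul_slash_of_pos _ _ (cm_heckeDiagMatrix _).pos]

/-- A form orthogonal to the `q`-old forms is `q`-new. -/
theorem qNew_of_orthogonal [NeZero M] (hq : q.Prime) (hqM : Nat.Coprime q M) (ha : a ≠ 0)
    (hf : IsCF (q ^ a * M) k f)
    (h1 : ∀ x, IsCF (q ^ (a - 1) * M) k x → upp k f x = 0)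
    (h2 : ∀ y, IsCF (q ^ (a - 1) * M) k y → upp k f (y ∣[k] heckeDiagMatrix q) = 0) :
    QNew M q a k f := by
  have i1 : NeZero (q ^ (a - 1) * M) := ⟨mul_ne_zero (pow_ne_zero _ hq.ne_zero) (NeZero.ne M)⟩
  have i2 : NeZero (q ^ a * M) := ⟨mul_ne_zero (pow_ne_zero _ hq.ne_zero) (NeZero.ne M)⟩
  have hcopa := Nat.Coprime.pow_left a hqM
  have hqa : q ^ a ≠ 0 := pow_ne_zero _ hq.ne_zero
  refine ⟨hf, fun D hD => ?_, fun D hD => ?_⟩
  · have hR := hf.Rop hq hqM ha hD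
    apply eq_zero_of_upp_self hR.cg
    rw [upp_Rop hq.ne_zero ha hD hf.cg hR.cg hR.g0Inv, h2 _ hR, mul_zero]
  · have hA := hf.AL hqa hcopa hD
    have hR := hA.Rop hq hqM ha hD
    apply eq_zero_of_upp_self hR.cg
    rw [upp_Rop hq.ne_zero ha hD hA.cg hR.cg hR.g0Inv]
    set y := Rop k q a D (AL k (q ^ a) D f) with hy
    have e1 := upp_AL_AL (q := q ^ a) hqa D hA.cg (hR.cg.slash (cm_heckeDiagMatrix q))
    rw [AL_AL hqa hcopa hf.g0Inv hD] at e1
    obtain ⟨E, hE, e2⟩ := AL_diag (k := k) hq.ne_zero ha hD y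
    have hAE : IsCF (q ^ (a - 1) * M) k (AL k (q ^ (a - 1)) E y) :=
      hR.AL (pow_ne_zero _ hq.ne_zero) (Nat.Coprime.pow_left _ hqM) hE
    rw [e2, upp_smul_left hf.cg (hAE.smul _).cg, upp_smul_right hf.cg hAE.cg, h1 _ hAE, mul_zero,
      mul_zero] at e1
    rw [(mul_eq_zero.1 e1.symm).resolve_left (zpow_cast_ne_zero hqa _), mul_zero]

end

/-! ### The decomposition -/

section decomposition

variable (N : ℕ) [NeZero N] (k : ℤ)

/-- The space of new forms. -/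
def newSub : Submodule ℂ (CuspForm (Gamma0 N) k) where
  carrier := {f | IsNew N k ⇑f}
  add_mem' {f g} hf hg := by
    show IsNew N k (⇑(f + g))
    have h := IsNew.sub (show IsNew N k ⇑f from hf) ((show IsNew N k ⇑g from hg).smul (-1))
    have e : (⇑(f + g) : ℍ → ℂ) = ⇑f - (-1 : ℂ) • ⇑g := by
      rw [neg_one_smul, sub_neg_eq_add]; rfl
    rw [e]; exact h
  zero_mem' := by
    show IsNew N k (⇑(0 : CuspForm (Gamma0 N) k))
    refine ⟨isCF_coe _, fun q M a hq hc ha e => ⟨?_, fun D hD => ?_, fun D hD => ?_⟩⟩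
    · exact e ▸ isCF_coe _
    · exact Rop_zero k q a D
    · show Rop k q a D (AL k (q ^ a) D 0) = 0
      rw [AL_zero, Rop_zero]
  smul_mem' c f hf := (show IsNew N k ⇑f from hf).smul c

omit [NeZero N] in
lemma mem_newSub {f : CuspForm (Gamma0 N) k} : f ∈ newSub N k ↔ IsNew N k ⇑f := Iff.rfl

/-- The space of old forms: the span of the forms `x(τ)`, `x(qτ)` with `x` of level `N / q`,
`q ∣ N` prime. -/
def oldSub : Submodule ℂ (CuspForm (Gamma0 N) k) :=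
  Submodule.span ℂ {f | ∃ q : ℕ, q.Prime ∧ q ∣ N ∧ ∃ x : ℍ → ℂ, IsCF (N / q) k x ∧
    (⇑f = x ∨ ⇑f = x ∣[k] heckeDiagMatrix q)}

variable {N k}

lemma factor_aux {q : ℕ} (hq : q.Prime) (hqN : q ∣ N) : ∃ (M a : ℕ) (_ : NeZero M),
    Nat.Coprime q M ∧ a ≠ 0 ∧ N = q ^ a * M ∧ N / q = q ^ (a - 1) * M := by
  obtain ⟨a, M, hM, e⟩ := Nat.exists_eq_pow_mul_and_not_dvd (NeZero.ne N) q hq.ne_one
  have ha : a ≠ 0 := by
    rintro rfl
    rw [pow_zero, one_mul] at e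
    exact hM (e ▸ hqN)
  have hM0 : M ≠ 0 := fun h0 => hM (h0 ▸ dvd_zero q)
  refine ⟨M, a, ⟨hM0⟩, (Nat.Prime.coprime_iff_not_dvd hq).2 hM, ha, e, ?_⟩
  have : q ^ a = q * q ^ (a - 1) := by
    rw [← pow_succ', Nat.sub_add_cancel (Nat.pos_of_ne_zero ha)]
  rw [e, this, mul_assoc, Nat.mul_div_cancel_left _ hq.pos]

/-- New forms are orthogonal to old forms. -/
theorem upp_new_old {f g : CuspForm (Gamma0 N) k} (hf : f ∈ newSub N k) (hg : g ∈ oldSub N k) :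
    upp k ⇑f ⇑g = 0 := by
  have hfc := (isCF_coe f).cg
  induction hg using Submodule.span_induction with
  | mem g hg =>
    obtain ⟨q, hq, hqN, x, hx, h⟩ := hg
    obtain ⟨M, a, hM, hc, ha, e, e'⟩ := factor_aux hq hqN
    have hQ := IsNew.new hf q M a hq hc ha e
    rw [e'] at hx
    rcases h with h | h
    · rw [h]; exact hQ.orthogonal_incl hq.ne_zero hc ha hx
    · rw [h]; exact hQ.orthogonal_diag hq.ne_zero hc ha hx
  | zero => exact upp_zero_right hfc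
  | add g g' _ _ h h' =>
    show upp k ⇑f (⇑g + ⇑g') = 0
    rw [upp_add_right hfc (isCF_coe g).cg (isCF_coe g').cg, h, h', add_zero]
  | smul c g _ h =>
    show upp k ⇑f (c • ⇑g) = 0
    rw [upp_smul_right hfc (isCF_coe g).cg, h, mul_zero]

/-- Forms orthogonal to the old forms are new. -/
theorem mem_newSub_of_orthogonal {f : CuspForm (Gamma0 N) k}
    (h : ∀ g ∈ oldSub N k, upp k ⇑f ⇑g = 0) : f ∈ newSub N k := by
  refine ⟨isCF_coe f, fun q M a hq hc ha e => ?_⟩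
  have hqN : q ∣ N := by rw [e]; exact (dvd_pow_self q ha).mul_right _
  have hM : NeZero M := ⟨fun h => NeZero.ne N (by rw [e, h, mul_zero])⟩
  have e' : N / q = q ^ (a - 1) * M := by
    have : q ^ a = q * q ^ (a - 1) := by
      rw [← pow_succ', Nat.sub_add_cancel (Nat.pos_of_ne_zero ha)]
    rw [e, this, mul_assoc, Nat.mul_div_cancel_left _ hq.pos]
  have hdvd : q ^ (a - 1) * M ∣ N := e' ▸ Nat.div_dvd_of_dvd hqN
  have hdvd' : q ^ (a - 1) * M * q ∣ N := by rw [← e', Nat.div_mul_cancel hqN]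
  refine qNew_of_orthogonal hq hc ha (e ▸ isCF_coe f) (fun x hx => ?_) (fun y hy => ?_)
  · obtain ⟨X, hX⟩ := hx.mono hdvd
    rw [← hX]
    exact h X (Submodule.subset_span ⟨q, hq, hqN, x, e' ▸ hx, Or.inl hX⟩)
  · obtain ⟨Y, hY⟩ := hy.diag (N := N) hq.ne_zero hdvd'
    rw [← hY]
    exact h Y (Submodule.subset_span ⟨q, hq, hqN, y, e' ▸ hy, Or.inr hY⟩)

/-- **Old and new forms.** `S_k(Γ₀(N)) = S_k^new ⊕ S_k^old`. -/
theorem isCompl_new_old : IsCompl (newSub N k) (oldSub N k) := by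
  have hfd := finiteDimensional_cuspForm' N k
  let core : InnerProductSpace.Core ℂ (CuspForm (Gamma0 N) k) :=
    { inner := fun f g => upp k ⇑f ⇑g
      conj_inner_symm := fun f g => (upp_symm (isCF_coe g).cg (isCF_coe f).cg).symm
      re_inner_nonneg := fun f => by
        obtain ⟨r, hr, e⟩ := upp_self_nonneg (isCF_coe f).cg
        show 0 ≤ RCLike.re (upp k ⇑f ⇑f)
        rw [e]
        simpa using hr
      add_left := fun f g h => upp_add_left (isCF_coe f).cg (isCF_coe g).cg (isCF_coe h).cg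
      smul_left := fun f g c => upp_smul_left (isCF_coe f).cg (isCF_coe g).cg c
      definite := fun f hf => DFunLike.coe_injective (eq_zero_of_upp_self (isCF_coe f).cg hf) }
  let : NormedAddCommGroup (CuspForm (Gamma0 N) k) := core.toNormedAddCommGroup
  let : InnerProductSpace ℂ (CuspForm (Gamma0 N) k) := InnerProductSpace.ofCore core.toCore
  have h1 : (oldSub N k)ᗮ = newSub N k := by
    ext f
    rw [Submodule.mem_orthogonal']
    constructor
    · intro h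
      exact mem_newSub_of_orthogonal h
    · intro h g hg
      exact upp_new_old h hg
  rw [← h1]
  exact (Submodule.isCompl_orthogonal (K := oldSub N k)).symm

end decomposition

end Fermat.Agent.Newform
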