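import Fermat.Agent.Newform.OldNew

/-!
# The Hecke eigenspaces of `S₂(Γ₀(M))`

The eigenspace of the (almost everywhere) eigensystem of a newform `g` of level `N_g` is spanned
by the forms `g(dτ)`, `N_g d ∣ M`.
-/

set_option autoImplicit false

open UpperHalfPlane ModularForm ModularFormClass CongruenceSubgroup Matrix.SpecialLinearGroup
open scoped MatrixGroups ModularForm
open Fermat.Agent.Petersson Fermat.Agent.HeckeDuality

namespace Fermat.Agent.Newform

/-- Linear algebra: an eigenvector in the span of a set of eigenvectors is in the span of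
those with the same eigenvalues. -/
theorem mem_span_eigen {V ι : Type*} [AddCommGroup V] [Module ℂ V] (T : ι → Module.End ℂ V)
    (c : ι → ℂ) (P : Set V) (hP : ∀ z ∈ P, ∀ i, ∃ a : ℂ, T i z = a • z) {f : V}
    (hf : f ∈ Submodule.span ℂ P) (hc : ∀ i, T i f = c i • f) :
    f ∈ Submodule.span ℂ {z | z ∈ P ∧ ∀ i, T i z = c i • z} := by
  classical
  obtain ⟨F, hFP, hfF⟩ := Submodule.mem_span_finite_of_mem_span hf
  clear hf
  induction hn : (F.filter fun z => ¬ ∀ i, T i z = c i • z).card using Nat.strong_induction_on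
    generalizing F with
  | _ n ih =>
    by_cases hall : ∀ z ∈ F, ∀ i, T i z = c i • z
    · refine Submodule.span_mono ?_ hfF
      intro z hz
      exact ⟨hFP hz, hall z hz⟩
    · push Not at hall
      obtain ⟨z₀, hz₀, i, hi⟩ := hall
      obtain ⟨a, ha⟩ := hP z₀ (hFP hz₀) i
      have hac : c i - a ≠ 0 := fun h => hi (by rw [ha, ← sub_eq_zero.1 h])
      set A : Module.End ℂ V := (c i - a)⁻¹ • (T i - a • LinearMap.id) with hA
      have hAf : A f = f := by
        simp only [hA, LinearMap.smul_apply, LinearMap.sub_apply, LinearMap.id_apply, hc i,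
          ← sub_smul, smul_smul, inv_mul_cancel₀ hac, one_smul]
      have hle : Submodule.span ℂ (F : Set V) ≤
          (Submodule.span ℂ ((F.erase z₀ : Finset V) : Set V)).comap A := by
        rw [Submodule.span_le]
        intro z hz
        rw [SetLike.mem_coe, Submodule.mem_comap]
        by_cases hzz : z = z₀
        · subst hzz
          have : A z = 0 := by
            simp only [hA, LinearMap.smul_apply, LinearMap.sub_apply, LinearMap.id_apply, ha,
              sub_self, smul_zero]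
          rw [this]; exact Submodule.zero_mem _
        · obtain ⟨b, hb⟩ := hP z (hFP hz) i
          have : A z = ((c i - a)⁻¹ * (b - a)) • z := by
            simp only [hA, LinearMap.smul_apply, LinearMap.sub_apply, LinearMap.id_apply, hb,
              ← sub_smul, smul_smul]
          rw [this]
          exact Submodule.smul_mem _ _ (Submodule.subset_span (Finset.mem_coe.2
            (Finset.mem_erase.2 ⟨hzz, hz⟩)))
      have hf' : f ∈ Submodule.span ℂ ((F.erase z₀ : Finset V) : Set V) := by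
        have := hle hfF
        rwa [Submodule.mem_comap, hAf] at this
      refine ih _ ?_ (F.erase z₀) ?_ hf' rfl
      · rw [← hn]
        refine Finset.card_lt_card (Finset.ssubset_iff_of_subset ?_ |>.2 ⟨z₀, ?_, ?_⟩)
        · exact Finset.filter_subset_filter _ (Finset.erase_subset _ _)
        · exact Finset.mem_filter.2 ⟨hz₀, fun h => hi (h i)⟩
        · simp
      · exact fun z hz => hFP (Finset.mem_of_mem_erase hz)

section

variable {k : ℤ} {f g : ℍ → ℂ}

/-- `T_ℓ` as a linear map on functions. -/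
noncomputable def heckeTL (k : ℤ) (ℓ : ℕ) : Module.End ℂ (ℍ → ℂ) where
  toFun := heckeT k ℓ
  map_add' := heckeT_add k ℓ
  map_smul' := heckeT_smul k ℓ

lemma heckeTL_apply (k : ℤ) (ℓ : ℕ) (f : ℍ → ℂ) : heckeTL k ℓ f = heckeT k ℓ f := rfl

lemma heckeT_Rop {M q a ℓ : ℕ} [NeZero M] (hq : q.Prime) (hcop : Nat.Coprime q M) (ha : a ≠ 0)
    (hf : IsCF (q ^ a * M) k f) (hℓ : ℓ.Prime) (h1 : ¬ ℓ ∣ q ^ a * M)
    {D : SL(2, ℤ)} (hD : IsAL M (q ^ a) D) :
    heckeT k ℓ (Rop k q a D f) = Rop k q a D (heckeT k ℓ f) := by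
  have hNZ : NeZero (q ^ a * M) := ⟨mul_ne_zero (pow_ne_zero _ hq.ne_zero) (NeZero.ne M)⟩
  have : Fact ℓ.Prime := ⟨hℓ⟩
  unfold Newform.Rop
  rw [heckeT_add, heckeT_heckeU_comm hf hq ((dvd_pow_self q ha).mul_right _) hℓ h1]
  congr 1
  split_ifs with h'
  · subst h'
    rw [pow_one] at hf hD h1
    rw [heckeT_AL hq.ne_zero hcop (fun h => h1 (h.mul_left _)) (fun h => h1 (h.mul_right _))
      hf.g0Inv hD]
  · exact (heckeTL k ℓ).map_zero

lemma QNew.heckeT {M q a ℓ : ℕ} [NeZero M] (hq : q.Prime) (hcop : Nat.Coprime q M) (ha : a ≠ 0)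
    (hf : QNew M q a k f) (hℓ : ℓ.Prime) (h1 : ¬ ℓ ∣ q ^ a * M) :
    QNew M q a k (heckeT k ℓ f) := by
  have : Fact ℓ.Prime := ⟨hℓ⟩
  have hqa : q ^ a ≠ 0 := pow_ne_zero _ hq.ne_zero
  have hcopa := Nat.Coprime.pow_left a hcop
  refine ⟨hf.cf.heckeT hℓ h1, fun D hD => ?_, fun D hD => ?_⟩
  · rw [← heckeT_Rop hq hcop ha hf.cf hℓ h1 hD, hf.r1 D hD]
    exact (heckeTL k ℓ).map_zero
  · rw [← heckeT_AL hqa hcopa (fun h => h1 (h.mul_left _)) (fun h => h1 (h.mul_right _))
      hf.cf.g0Inv hD, ← heckeT_Rop hq hcop ha (hf.cf.AL hqa hcopa hD) hℓ h1 hD, hf.r2 D hD]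
    exact (heckeTL k ℓ).map_zero

lemma IsNew.heckeT {N ℓ : ℕ} [NeZero N] (hf : IsNew N k f) (hℓ : ℓ.Prime) (h1 : ¬ ℓ ∣ N) :
    IsNew N k (heckeT k ℓ f) := by
  refine ⟨hf.cf.heckeT hℓ h1, fun q M a hq hc ha e => ?_⟩
  have hM : NeZero M := ⟨fun h => NeZero.ne N (by rw [e, h, mul_zero])⟩
  exact (hf.new q M a hq hc ha e).heckeT hq hc ha hℓ (e ▸ h1)

lemma IsCF.heckeT_diag {N d ℓ : ℕ} [NeZero N] (hf : IsCF N k f) (hd : d ≠ 0) (hℓ : ℓ.Prime)
    (hℓN : ¬ ℓ ∣ N) (hℓd : ¬ ℓ ∣ d) :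
    ModularForm.heckeT k ℓ (f ∣[k] heckeDiagMatrix d) =
      (ModularForm.heckeT k ℓ f) ∣[k] heckeDiagMatrix d := by
  have hNd : NeZero (N * d) := ⟨mul_ne_zero (NeZero.ne N) hd⟩
  have h1 : ¬ ℓ ∣ N * d := fun h => (hℓ.dvd_mul.1 h).elim hℓN hℓd
  have hfd := hf.diag (N := N * d) hd dvd_rfl
  have hcop : Nat.Coprime ℓ d := (Nat.Prime.coprime_iff_not_dvd hℓ).2 hℓd
  refine (hfd.heckeT hℓ h1).ext ((hf.heckeT hℓ hℓN).diag (N := N * d) hd dvd_rfl) fun n => ?_
  rw [hfd.qCoeff_heckeT hℓ.ne_zero, (hf.heckeT hℓ hℓN).qCoeff_diag hd, hf.qCoeff_diag hd,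
    hf.qCoeff_diag hd, hf.qCoeff_heckeT hℓ.ne_zero]
  have e1 : d ∣ n * ℓ ↔ d ∣ n := hcop.symm.dvd_mul_right
  by_cases hdn : d ∣ n
  · rw [if_pos (e1.2 hdn), if_pos hdn]
    obtain ⟨m, rfl⟩ := hdn
    have e2 : ℓ ∣ d * m ↔ ℓ ∣ m := hcop.dvd_mul_left
    rw [Nat.mul_div_cancel_left _ (Nat.pos_of_ne_zero hd), mul_assoc,
      Nat.mul_div_cancel_left _ (Nat.pos_of_ne_zero hd)]
    by_cases hm : ℓ ∣ m
    · rw [if_pos (e2.2 hm), if_pos hm]
      obtain ⟨r, rfl⟩ := hm
      have e3 : d * (ℓ * r) / ℓ = d * r := by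
        rw [mul_left_comm, Nat.mul_div_cancel_left _ hℓ.pos]
      rw [e3, Nat.mul_div_cancel_left _ hℓ.pos, if_pos (Nat.dvd_mul_right d r),
        Nat.mul_div_cancel_left _ (Nat.pos_of_ne_zero hd)]
      ring
    · rw [if_neg (fun h => hm (e2.1 h)), if_neg hm]
      ring
  · rw [if_neg (fun h => hdn (e1.1 h)), if_neg hdn, zero_add]
    by_cases hm : ℓ ∣ n
    · rw [if_pos hm, if_neg, mul_zero]
      obtain ⟨r, rfl⟩ := hm
      rw [Nat.mul_div_cancel_left _ hℓ.pos]
      exact fun h => hdn (h.mul_left ℓ)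
    · rw [if_neg hm]

end

/-- The space of cusp forms of level `N` with `T_ℓ f = c_ℓ f` for all primes `ℓ ∉ S`. -/
def eigSub (k : ℤ) (N : ℕ) (S : Set ℕ) (c : ℕ → ℂ) : Submodule ℂ (ℍ → ℂ) where
  carrier := {f | IsCF N k f ∧ Eig k S c f}
  add_mem' hf hg := ⟨hf.1.add hg.1, hf.2.add hg.2⟩
  zero_mem' := ⟨IsCF.zero, fun ℓ _ _ => by
    rw [smul_zero]; exact (heckeTL k ℓ).map_zero⟩
  smul_mem' a _ hf := ⟨hf.1.smul a, hf.2.smul a⟩

lemma mem_eigSub {k : ℤ} {N : ℕ} {S : Set ℕ} {c : ℕ → ℂ} {f : ℍ → ℂ} :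
    f ∈ eigSub k N S c ↔ IsCF N k f ∧ Eig k S c f := Iff.rfl

/-- Cusp forms of level `N` are spanned by eigenforms of the `T_ℓ`, `ℓ ∉ S`. -/
theorem IsCF.mem_span_eig {N : ℕ} [NeZero N] {k : ℤ} {S : Set ℕ}
    (hS : ∀ q : ℕ, q.Prime → q ∣ N → q ∈ S) {f : ℍ → ℂ} (hf : IsCF N k f) :
    f ∈ Submodule.span ℂ {z : ℍ → ℂ | IsCF N k z ∧ ∃ c, Eig k S c z} := by
  obtain ⟨F, rfl⟩ := hf
  have h : F ∈ Submodule.span ℂ {f : CuspForm (CongruenceSubgroup.Gamma0 N) k | f ≠ 0 ∧
      ∃ χ : CuspForm.heckeAlgebra N k S →+* ℂ, ∀ t : CuspForm.heckeAlgebra N k S,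
        (t : Module.End ℂ (CuspForm (CongruenceSubgroup.Gamma0 N) k)) f = χ t • f} := by
    rw [span_eigenvectors hS]; trivial
  induction h using Submodule.span_induction with
  | mem x hx =>
    obtain ⟨-, χ, hχ⟩ := hx
    classical
    refine Submodule.subset_span ⟨isCF_coe x, fun ℓ => if h : ℓ.Prime ∧ ℓ ∉ S then
      χ (CuspForm.heckeAlgebra.T h.1 (fun h' => h.2 (hS ℓ h.1 h')) h.2) else 0, ?_⟩
    intro ℓ hℓ hℓS
    simp only [dif_pos (And.intro hℓ hℓS)]
    have := hχ (CuspForm.heckeAlgebra.T hℓ (fun h' => hℓS (hS ℓ hℓ h')) hℓS)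
    rw [CuspForm.heckeAlgebra.coe_T] at this
    exact congrArg (fun F : CuspForm (Gamma0 N) k => (⇑F : ℍ → ℂ)) this
  | zero => exact Submodule.zero_mem _
  | add x y _ _ hx hy => exact Submodule.add_mem _ hx hy
  | smul a x _ hx => exact Submodule.smul_mem _ a hx

section main

variable {N : ℕ} [NeZero N]

/-- The forms `g(dτ)` are in the eigenspace. -/
theorem diag_mem_eigSub {g : CuspForm (Gamma0 N) 2} (hg : g.IsNormalizedEigenform) {M d : ℕ}
    [NeZero M] (hd : N * d ∣ M) :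
    (⇑g ∣[(2 : ℤ)] heckeDiagMatrix d : ℍ → ℂ) ∈ eigSub 2 M (badSet M) (qCoeff ⇑g) := by
  have hd0 : d ≠ 0 := by
    rintro rfl
    rw [mul_zero, zero_dvd_iff] at hd
    exact NeZero.ne M hd
  refine ⟨(isCF_coe g).diag hd0 hd, fun ℓ hℓ hℓM => ?_⟩
  have h1 : ¬ ℓ ∣ N := fun h => hℓM ((h.mul_right d).trans hd)
  have h2 : ¬ ℓ ∣ d := fun h => hℓM ((h.mul_left N).trans hd)
  rw [(isCF_coe g).heckeT_diag hd0 hℓ h1 h2, heckeT_eq hg hℓ h1,
    smul_slash_of_pos _ _ (cm_heckeDiagMatrix d).pos]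

/-- **The eigenspace of a newform.** -/
theorem eigSub_le_span {g : CuspForm (Gamma0 N) 2} (hg : g.IsNewform) (M : ℕ) [NeZero M]
    {S : Set ℕ} (hS : S.Finite) {f : ℍ → ℂ} (hf : f ∈ eigSub 2 M S (qCoeff ⇑g)) :
    f ∈ Submodule.span ℂ
      {x : ℍ → ℂ | ∃ d : ℕ, N * d ∣ M ∧ x = ⇑g ∣[(2 : ℤ)] heckeDiagMatrix d} := by
  -- enlarge `S`
  have hM0 := NeZero.ne M
  induction hn : M using Nat.strong_induction_on generalizing M f S with
  | _ n ih =>
    subst hn
    set S' : Set ℕ := S ∪ badSet M with hS'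
    have hS'f : S'.Finite := hS.union finite_badSet
    have hbad : ∀ q : ℕ, q.Prime → q ∣ M → q ∈ S' := fun q _ h => Or.inr h
    obtain ⟨hfM, hfe⟩ := hf
    have hfe' : Eig 2 S' (qCoeff ⇑g) f := hfe.mono fun x hx => Or.inl hx
    by_cases hMN : M = N
    · subst hMN
      rw [eq_smul_of_eig hg hfM hS hfe]
      refine Submodule.smul_mem _ _ (Submodule.subset_span ⟨1, by simp, ?_⟩)
      have : heckeDiagMatrix 1 = 1 := by
        ext i j; fin_cases i <;> fin_cases j <;> simp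
      rw [this, SlashAction.slash_one]
    · -- decompose into new and old part
      obtain ⟨F, rfl⟩ := hfM
      have hF : F ∈ newSub M 2 ⊔ oldSub M 2 := by
        rw [(isCompl_new_old (N := M) (k := 2)).sup_eq_top]; trivial
      obtain ⟨x, hx, y, hy, hxy⟩ := Submodule.mem_sup.1 hF
      -- stability of the old space
      have hold : ∀ ℓ : ℕ, ∀ hℓ : ℓ.Prime, ∀ hℓM : ¬ ℓ ∣ M, ∀ z ∈ oldSub M 2,
          CuspForm.heckeTLin 2 hℓ hℓM z ∈ oldSub M 2 := by
        intro ℓ hℓ hℓM z hz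
        have hle : oldSub M 2 ≤ (oldSub M 2).comap (CuspForm.heckeTLin 2 hℓ hℓM) := by
          conv_lhs => unfold oldSub
          rw [Submodule.span_le]
          rintro w ⟨q, hq, hqM, v, hv, hw⟩
          show CuspForm.heckeTLin 2 hℓ hℓM w ∈ oldSub M 2
          have hMq : NeZero (M / q) :=
            ⟨(Nat.div_pos (Nat.le_of_dvd (NeZero.pos M) hqM) hq.pos).ne'⟩
          have hℓ1 : ¬ ℓ ∣ M / q := fun h => hℓM (h.trans (Nat.div_dvd_of_dvd hqM))
          have hℓq : ¬ ℓ ∣ q := fun h => hℓM (h.trans hqM)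
          refine Submodule.subset_span ⟨q, hq, hqM, ModularForm.heckeT 2 ℓ v,
            hv.heckeT hℓ hℓ1, ?_⟩
          rcases hw with hw | hw
          · left
            rw [CuspForm.coe_heckeTLin_apply, hw]
          · right
            rw [CuspForm.coe_heckeTLin_apply, hw, hv.heckeT_diag hq.ne_zero hℓ hℓ1 hℓq]
        exact hle hz
      -- the two parts are eigenvectors
      have hpart : ∀ ℓ : ℕ, ℓ.Prime → ℓ ∉ S' → heckeT 2 ℓ ⇑x = qCoeff ⇑g ℓ • ⇑x ∧
          heckeT 2 ℓ ⇑y = qCoeff ⇑g ℓ • ⇑y := by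
        intro ℓ hℓ hℓS
        have hℓM : ¬ ℓ ∣ M := fun h => hℓS (Or.inr h)
        have e1 : CuspForm.heckeTLin 2 hℓ hℓM F = qCoeff ⇑g ℓ • F :=
          DFunLike.coe_injective (hfe' ℓ hℓ hℓS)
        rw [← hxy, map_add, smul_add] at e1
        set u := CuspForm.heckeTLin 2 hℓ hℓM x - qCoeff ⇑g ℓ • x with hu
        set v := CuspForm.heckeTLin 2 hℓ hℓM y - qCoeff ⇑g ℓ • y with hv
        have hu1 : u ∈ newSub M 2 := by
          refine Submodule.sub_mem _ ?_ (Submodule.smul_mem _ _ hx)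
          rw [mem_newSub, CuspForm.coe_heckeTLin_apply]
          exact IsNew.heckeT hx hℓ hℓM
        have hv1 : v ∈ oldSub M 2 :=
          Submodule.sub_mem _ (hold ℓ hℓ hℓM y hy) (Submodule.smul_mem _ _ hy)
        have huv : u = -v := by
          rw [hu, hv, neg_sub, sub_eq_sub_iff_add_eq_add, e1, add_comm]
        have hu0 : u = 0 := by
          have h3 : u ∈ newSub M 2 ⊓ oldSub M 2 := ⟨hu1, by
            rw [SetLike.mem_coe, huv]; exact Submodule.neg_mem _ hv1⟩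
          rw [(isCompl_new_old (N := M) (k := 2)).inf_eq_bot] at h3
          exact h3
        have hv0 : v = 0 := by rw [← neg_eq_zero, ← huv, hu0]
        constructor
        · have := congrArg (fun F : CuspForm (Gamma0 M) 2 => (⇑F : ℍ → ℂ)) (sub_eq_zero.1 hu0)
          exact this
        · have := congrArg (fun F : CuspForm (Gamma0 M) 2 => (⇑F : ℍ → ℂ)) (sub_eq_zero.1 hv0)
          exact this
      have hxe : Eig 2 S' (qCoeff ⇑g) ⇑x := fun ℓ hℓ h => (hpart ℓ hℓ h).1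
      have hye : Eig 2 S' (qCoeff ⇑g) ⇑y := fun ℓ hℓ h => (hpart ℓ hℓ h).2
      -- the new part vanishes
      have hx0 : (⇑x : ℍ → ℂ) = 0 := by
        by_contra hne
        have h1 : qCoeff ⇑x 1 ≠ 0 := fun h1 => hne (IsNew.eq_zero_of_coeff_one hx hS'f hxe h1)
        have h2 : N ∣ M := dvd_of_isNewform' hg (isCF_coe x) hne hS'f hxe
        have h3 : M ∣ N := IsNew.dvd hx (S := S' ∪ badSet N) (hS'f.union finite_badSet)
          (hxe.mono fun x hx => Or.inl hx) h1 (isCF_coe g)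
          ((eig_of_eigenform hg.1).mono fun x hx => Or.inr hx) (by rw [hg.1.qCoeff_one]; simp)
        exact hMN (Nat.dvd_antisymm h3 h2)
      have hFy : (⇑F : ℍ → ℂ) = ⇑y := by
        rw [← hxy]
        show ⇑x + ⇑y = ⇑y
        rw [hx0, zero_add]
      rw [hFy]
      -- the old part: reduce to eigenforms of lower level
      let P : Set (ℍ → ℂ) := {z | ∃ q : ℕ, q.Prime ∧ q ∣ M ∧ ∃ v : ℍ → ℂ, IsCF (M / q) 2 v ∧
        (∃ c, Eig 2 S' c v) ∧ (z = v ∨ z = v ∣[(2 : ℤ)] heckeDiagMatrix q)}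
      have hyP : (⇑y : ℍ → ℂ) ∈ Submodule.span ℂ P := by
        clear_value S'
        clear hpart hold hFy hye hxy
        unfold oldSub at hy
        induction hy using Submodule.span_induction with
        | mem w hw =>
          obtain ⟨q, hq, hqM, v, hv, hw⟩ := hw
          have hMq : NeZero (M / q) :=
            ⟨(Nat.div_pos (Nat.le_of_dvd (NeZero.pos M) hqM) hq.pos).ne'⟩
          have hsp := hv.mem_span_eig (S := S')
            (fun p hp hpM => hbad p hp (hpM.trans (Nat.div_dvd_of_dvd hqM)))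
          rcases hw with hw | hw
          · rw [hw]
            refine Submodule.span_mono ?_ hsp
            intro z hz
            exact ⟨q, hq, hqM, z, hz.1, hz.2, Or.inl rfl⟩
          · rw [hw]
            let L : (ℍ → ℂ) →ₗ[ℂ] (ℍ → ℂ) :=
              { toFun := fun z => z ∣[(2 : ℤ)] heckeDiagMatrix q
                map_add' := fun a b => SlashAction.add_slash _ _ _ _
                map_smul' := fun a b => smul_slash_of_pos _ _ (cm_heckeDiagMatrix q).pos }
            have h4 : L v ∈ (Submodule.span ℂ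
                {z : ℍ → ℂ | IsCF (M / q) 2 z ∧ ∃ c, Eig 2 S' c z}).map L :=
              Submodule.mem_map_of_mem hsp
            rw [Submodule.map_span] at h4
            refine Submodule.span_mono ?_ h4
            rintro _ ⟨z, hz, rfl⟩
            exact ⟨q, hq, hqM, z, hz.1, hz.2, Or.inr rfl⟩
        | zero => exact Submodule.zero_mem _
        | add a b _ _ ha hb => exact Submodule.add_mem _ ha hb
        | smul a b _ hb => exact Submodule.smul_mem _ a hb
      have hdiag : ∀ q : ℕ, q.Prime → q ∣ M → ∀ v : ℍ → ℂ, IsCF (M / q) 2 v → ∀ ℓ : ℕ, ℓ.Prime →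
          ℓ ∉ S' → heckeT 2 ℓ (v ∣[(2 : ℤ)] heckeDiagMatrix q) =
            (heckeT 2 ℓ v) ∣[(2 : ℤ)] heckeDiagMatrix q := by
        intro q hq hqM v hv ℓ hℓ hℓS
        have hMq : NeZero (M / q) :=
          ⟨(Nat.div_pos (Nat.le_of_dvd (NeZero.pos M) hqM) hq.pos).ne'⟩
        have hℓM : ¬ ℓ ∣ M := fun h => hℓS (Or.inr h)
        exact hv.heckeT_diag hq.ne_zero hℓ (fun h => hℓM (h.trans (Nat.div_dvd_of_dvd hqM)))
          (fun h => hℓM (h.trans hqM))
      have key := mem_span_eigen (ι := {ℓ : ℕ // ℓ.Prime ∧ ℓ ∉ S'}) (fun ℓ => heckeTL 2 ℓ.1)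
        (fun ℓ => qCoeff ⇑g ℓ.1) P (by
          rintro z ⟨q, hq, hqM, v, hv, ⟨c, hc⟩, hz⟩ ⟨ℓ, hℓ, hℓS⟩
          refine ⟨c ℓ, ?_⟩
          rw [heckeTL_apply]
          rcases hz with rfl | rfl
          · exact hc ℓ hℓ hℓS
          · rw [hdiag q hq hqM v hv ℓ hℓ hℓS, hc ℓ hℓ hℓS,
              smul_slash_of_pos _ _ (cm_heckeDiagMatrix q).pos]) hyP
        (fun ℓ => hye ℓ.1 ℓ.2.1 ℓ.2.2)
      refine (Submodule.span_le.2 ?_ : Submodule.span ℂ _ ≤ _) key
      rintro z ⟨⟨q, hq, hqM, v, hv, -, hz⟩, hze⟩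
      have hMq : NeZero (M / q) :=
        ⟨(Nat.div_pos (Nat.le_of_dvd (NeZero.pos M) hqM) hq.pos).ne'⟩
      have hlt : M / q < M := Nat.div_lt_self (NeZero.pos M) hq.one_lt
      have hve : Eig 2 S' (qCoeff ⇑g) v := by
        intro ℓ hℓ hℓS
        have h5 := hze ⟨ℓ, hℓ, hℓS⟩
        rw [heckeTL_apply] at h5
        rcases hz with rfl | rfl
        · exact h5
        · simp only at h5
          rw [hdiag q hq hqM v hv ℓ hℓ hℓS,
            ← smul_slash_of_pos _ _ (cm_heckeDiagMatrix q).pos] at h5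
          exact slash_injective 2 (heckeDiagMatrix q) h5
      have hvs := ih (M / q) hlt (M / q) hS'f ⟨hv, hve⟩ (NeZero.ne _) rfl
      rcases hz with rfl | rfl
      · refine Submodule.span_mono ?_ hvs
        rintro x ⟨d, hd, rfl⟩
        exact ⟨d, hd.trans (Nat.div_dvd_of_dvd hqM), rfl⟩
      · let L : (ℍ → ℂ) →ₗ[ℂ] (ℍ → ℂ) :=
          { toFun := fun z => z ∣[(2 : ℤ)] heckeDiagMatrix q
            map_add' := fun a b => SlashAction.add_slash _ _ _ _
            map_smul' := fun a b => smul_slash_of_pos _ _ (cm_heckeDiagMatrix q).pos }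
        have h4 : L v ∈ (Submodule.span ℂ {x : ℍ → ℂ | ∃ d : ℕ, N * d ∣ M / q ∧
            x = ⇑g ∣[(2 : ℤ)] heckeDiagMatrix d}).map L :=
          Submodule.mem_map_of_mem hvs
        rw [Submodule.map_span] at h4
        refine Submodule.span_mono ?_ h4
        rintro _ ⟨x, ⟨d, hd, rfl⟩, rfl⟩
        have hd0 : d ≠ 0 := by
          rintro rfl
          rw [mul_zero, zero_dvd_iff] at hd
          exact NeZero.ne (M / q) hd
        refine ⟨d * q, ?_, ?_⟩
        · rw [← mul_assoc]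
          calc N * d * q ∣ M / q * q := mul_dvd_mul_right hd q
            _ = M := Nat.div_mul_cancel hqM
        · show (⇑g ∣[(2 : ℤ)] heckeDiagMatrix d) ∣[(2 : ℤ)] heckeDiagMatrix q = _
          rw [← SlashAction.slash_mul, ← heckeDiagMatrix_mul _ _ hd0 hq.ne_zero]

/-- The eigenspace vanishes if the conductor does not divide the level. -/
theorem eigSub_eq_bot {g : CuspForm (Gamma0 N) 2} (hg : g.IsNewform) {M : ℕ} [NeZero M]
    {S : Set ℕ} (hS : S.Finite) (hNM : ¬ N ∣ M) : eigSub 2 M S (qCoeff ⇑g) = ⊥ := by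
  rw [eq_bot_iff]
  intro f hf
  by_contra hne
  exact hNM (dvd_of_isNewform' hg hf.1 hne hS hf.2)

/-- **The `q`-step.** If the conductor divides `M / q`, then the eigenspace of level `M` is
spanned by the two copies of the eigenspace of level `M / q`. -/
theorem exists_of_mem_eigSub {g : CuspForm (Gamma0 N) 2} (hg : g.IsNewform) {M q : ℕ} [NeZero M]
    {S : Set ℕ} (hS : S.Finite) (hq : q.Prime) (hqM : q ∣ M) (hNM : N ∣ M / q) {f : ℍ → ℂ}
    (hf : f ∈ eigSub 2 M S (qCoeff ⇑g)) :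
    ∃ x ∈ eigSub 2 (M / q) (badSet (M / q)) (qCoeff ⇑g),
      ∃ y ∈ eigSub 2 (M / q) (badSet (M / q)) (qCoeff ⇑g),
      f = x + y ∣[(2 : ℤ)] heckeDiagMatrix q := by
  have hMq : NeZero (M / q) :=
    ⟨(Nat.div_pos (Nat.le_of_dvd (NeZero.pos M) hqM) hq.pos).ne'⟩
  have h := eigSub_le_span hg M hS hf
  clear hf
  induction h using Submodule.span_induction with
  | mem x hx =>
    obtain ⟨d, hd, rfl⟩ := hx
    have hd0 : d ≠ 0 := by
      rintro rfl
      rw [mul_zero, zero_dvd_iff] at hd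
      exact NeZero.ne M hd
    by_cases hd' : N * d ∣ M / q
    · refine ⟨_, diag_mem_eigSub hg.1 hd', 0, Submodule.zero_mem _, ?_⟩
      rw [SlashAction.zero_slash, add_zero]
    · have hqd : q ∣ d := by
        by_contra hqd
        apply hd'
        obtain ⟨e, he⟩ := hNM
        have hM : M = q * (N * e) := by rw [← he, Nat.mul_div_cancel' hqM]
        rw [hM, mul_left_comm] at hd
        have h1 : d ∣ q * e := Nat.dvd_of_mul_dvd_mul_left (NeZero.pos N) hd
        have h2 : d ∣ e :=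
          (Nat.Coprime.symm ((Nat.Prime.coprime_iff_not_dvd hq).2 hqd)).dvd_of_dvd_mul_left h1
        rw [he]
        exact mul_dvd_mul_left N h2
      obtain ⟨d', rfl⟩ := hqd
      have hd'0 : d' ≠ 0 := right_ne_zero_of_mul hd0
      have hd2 : N * d' ∣ M / q := by
        rw [mul_left_comm] at hd
        exact (Nat.dvd_div_iff_mul_dvd hqM).2 hd
      refine ⟨0, Submodule.zero_mem _, _, diag_mem_eigSub hg.1 hd2, ?_⟩
      rw [zero_add, ← SlashAction.slash_mul, ← heckeDiagMatrix_mul _ _ hd'0 hq.ne_zero, mul_comm q]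
  | zero => exact ⟨0, Submodule.zero_mem _, 0, Submodule.zero_mem _, by
      rw [SlashAction.zero_slash, add_zero]⟩
  | add a b _ _ ha hb =>
    obtain ⟨x, hx, y, hy, rfl⟩ := ha
    obtain ⟨x', hx', y', hy', rfl⟩ := hb
    refine ⟨x + x', Submodule.add_mem _ hx hx', y + y', Submodule.add_mem _ hy hy', ?_⟩
    rw [SlashAction.add_slash]; abel
  | smul a b _ hb =>
    obtain ⟨x, hx, y, hy, rfl⟩ := hb
    refine ⟨a • x, Submodule.smul_mem _ a hx, a • y, Submodule.smul_mem _ a hy, ?_⟩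
    rw [smul_slash_of_pos _ _ (cm_heckeDiagMatrix q).pos, smul_add]

end main

end Fermat.Agent.Newform
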