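import Fermat.Agent.Newform.UPet

/-!
`q`-new forms: adjoints of the degeneracy maps, orthogonality of old and new forms.
-/

set_option autoImplicit false

open MeasureTheory UpperHalfPlane ModularForm ModularFormClass CongruenceSubgroup
  Matrix.SpecialLinearGroup
open scoped MatrixGroups ModularForm ENNReal
open Fermat.Agent.Petersson
open P2MW.S_ModularForm_heckeT_slash_eq_self_of_mem_Gamma0.ModularForm.HeckeSlashInvariance

namespace Fermat.Agent.Newform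

section adjoint

variable {k : ℤ} {f g : ℍ → ℂ} {q : ℕ}

lemma zpow_cast_ne_zero (hq : q ≠ 0) (m : ℤ) : (q : ℂ) ^ m ≠ 0 :=
  zpow_ne_zero _ (by exact_mod_cast hq)

lemma upp_heckeMatrix (hq : q ≠ 0) (hf : CG k f) (hg : CG k g)
    (hgT : ∀ i, g ∣[k] (mapGL ℝ (tr i)) = g) (j : ℕ) :
    upp k (f ∣[k] heckeMatrix q j) g = upp k f (g ∣[k] heckeDiagMatrix q) := by
  have h1 := upp_slash hf (hg.slash (cm_heckeDiagMatrix q)) (cm_heckeMatrix q j)
  have h2 : (g ∣[k] heckeDiagMatrix q) ∣[k] heckeMatrix q j = ((q : ℂ) ^ (k - 2)) • g := by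
    have e : heckeDiagMatrix q * heckeMatrix q j =
        mapGL ℝ (tr j) * (heckeMatrix q 0 * heckeDiagMatrix q) := by
      ext a b
      fin_cases a <;> fin_cases b <;> simp [hq, Matrix.mul_apply, Fin.sum_univ_two, mul_comm]
    rw [← SlashAction.slash_mul, e, SlashAction.slash_mul, hgT, SlashAction.slash_mul,
      slash_slash_scalar hq]
  rw [h2, upp_smul_right (hf.slash (cm_heckeMatrix q j)) hg, det_heckeMatrix hq] at h1
  have h3 : (((q : ℝ) : ℂ)) = (q : ℂ) := by push_cast; rfl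
  rw [h3] at h1
  exact mul_left_cancel₀ (zpow_cast_ne_zero hq _) h1

lemma upp_heckeU (hq : q ≠ 0) (hf : CG k f) (hg : CG k g)
    (hgT : ∀ i, g ∣[k] (mapGL ℝ (tr i)) = g) :
    upp k (heckeU k q f) g = q * upp k f (g ∣[k] heckeDiagMatrix q) := by
  rw [heckeU_def, upp_sum_left _ (fun j _ => hf.slash (cm_heckeMatrix q j)) hg]
  simp only [upp_heckeMatrix hq hf hg hgT, Finset.sum_const, Finset.card_range, nsmul_eq_mul]

lemma AL_eq_hecke (hq : q ≠ 0) {M : ℕ} {D : SL(2, ℤ)} (hD : IsAL M q D) :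
    ∃ δ : SL(2, ℤ), (M : ℤ) ∣ δ 1 0 ∧
      mapGL ℝ D * heckeDiagMatrix q = heckeMatrix q 0 * mapGL ℝ δ := by
  obtain ⟨d, hd⟩ := hD.2
  have hdet := det_eq D
  refine ⟨⟨!![q * D 0 0, D 0 1; D 1 0, d], by
    rw [Matrix.det_fin_two_of]; rw [hd] at hdet; linarith⟩, hD.1, ?_⟩
  ext a b
  fin_cases a <;> fin_cases b <;> simp [hq, hd, Matrix.mul_apply, Fin.sum_univ_two, mul_comm]

lemma upp_slash_mapGL (hf : CG k f) (hg : CG k g) (γ : SL(2, ℤ)) :
    upp k (f ∣[k] (mapGL ℝ γ)) (g ∣[k] (mapGL ℝ γ)) = upp k f g := by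
  rw [upp_slash hf hg (cm_mapGL γ), Matrix.SpecialLinearGroup.det_mapGL]
  simp

lemma upp_AL_left (hq : q ≠ 0) {M : ℕ} {D : SL(2, ℤ)} (hD : IsAL M q D) (hf : CG k f)
    (hg : CG k g) (hgM : G0Inv M k g) :
    upp k (AL k q D f) g = upp k f (g ∣[k] heckeDiagMatrix q) := by
  obtain ⟨δ, hδ, e⟩ := AL_eq_hecke hq hD
  have h1 : AL k q D f = (f ∣[k] heckeMatrix q 0) ∣[k] (mapGL ℝ δ) := by
    rw [AL, ← SlashAction.slash_mul, e, SlashAction.slash_mul]
  rw [h1]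
  conv_lhs => rw [← hgM δ hδ]
  rw [upp_slash_mapGL (hf.slash (cm_heckeMatrix q 0)) hg, upp_heckeMatrix hq hf hg hgM.tr]

lemma upp_AL_AL (hq : q ≠ 0) (D : SL(2, ℤ)) (hf : CG k f) (hg : CG k g) :
    upp k (AL k q D f) (AL k q D g) = (q : ℂ) ^ (k - 2) * upp k f g := by
  unfold AL
  rw [upp_slash (hf.slash (cm_mapGL D)) (hg.slash (cm_mapGL D)) (cm_heckeDiagMatrix q),
    upp_slash_mapGL hf hg, det_heckeDiagMatrix hq]
  push_cast
  rfl

lemma CG.AL (hf : CG k f) (D : SL(2, ℤ)) : CG k (AL k q D f) :=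
  (hf.slash (cm_mapGL D)).slash (cm_heckeDiagMatrix q)

lemma CG.heckeU (hf : CG k f) : CG k (heckeU k q f) := by
  rw [heckeU_def]
  exact CG.sum _ fun j _ => hf.slash (cm_heckeMatrix q j)

end adjoint

/-- The trace-like operator from level `q^a M` to level `q^(a-1) M`. -/
noncomputable def Rop (k : ℤ) (q a : ℕ) (D : SL(2, ℤ)) (f : ℍ → ℂ) : ℍ → ℂ :=
  heckeU k q f + if a = 1 then AL k q D f else 0

lemma CG.Rop {k : ℤ} {q a : ℕ} {f : ℍ → ℂ} (hf : CG k f) (D : SL(2, ℤ)) :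
    CG k (Rop k q a D f) := by
  unfold Newform.Rop
  split_ifs
  · exact hf.heckeU.add (hf.AL D)
  · exact hf.heckeU.add CG.zero

section

variable {M q a : ℕ} {k : ℤ} {f g : ℍ → ℂ}

lemma upp_Rop (hq : q ≠ 0) (ha : a ≠ 0) {D : SL(2, ℤ)} (hD : IsAL M (q ^ a) D) (hf : CG k f)
    (hg : CG k g) (hgM : G0Inv (q ^ (a - 1) * M) k g) :
    upp k (Rop k q a D f) g =
      (if a = 1 then (q : ℂ) + 1 else q) * upp k f (g ∣[k] heckeDiagMatrix q) := by
  unfold Rop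
  split_ifs with h
  · subst h
    simp only [pow_one, Nat.sub_self, pow_zero, one_mul] at hD hgM
    rw [upp_add_left hf.heckeU (hf.AL D) hg, upp_heckeU hq hf hg hgM.tr,
      upp_AL_left hq hD hf hg hgM]
    ring
  · rw [add_zero, upp_heckeU hq hf hg hgM.tr]

lemma Rop_coeff_ne_zero (hq : q ≠ 0) : (if a = 1 then (q : ℂ) + 1 else q) ≠ 0 := by
  split_ifs
  · exact_mod_cast Nat.succ_ne_zero q
  · exact_mod_cast hq

/-- `f` is a cusp form of level `q^a M` which is new at `q`. -/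
structure QNew (M q a : ℕ) (k : ℤ) (f : ℍ → ℂ) : Prop where
  cf : IsCF (q ^ a * M) k f
  r1 : ∀ D, IsAL M (q ^ a) D → Rop k q a D f = 0
  r2 : ∀ D, IsAL M (q ^ a) D → Rop k q a D (AL k (q ^ a) D f) = 0

lemma heckeDiagMatrix_mul (m n : ℕ) (hm : m ≠ 0) (hn : n ≠ 0) :
    heckeDiagMatrix (m * n) = heckeDiagMatrix m * heckeDiagMatrix n := by
  have : m * n ≠ 0 := mul_ne_zero hm hn
  ext a b
  fin_cases a <;> fin_cases b <;> simp [hm, hn, Matrix.mul_apply, Fin.sum_univ_two]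

lemma IsAL.mono {M M' Q Q' : ℕ} {D : SL(2, ℤ)} (h : IsAL M' Q' D) (hM : M ∣ M') (hQ : Q ∣ Q') :
    IsAL M Q D :=
  ⟨(Int.natCast_dvd_natCast.2 hM).trans h.1, (Int.natCast_dvd_natCast.2 hQ).trans h.2⟩

lemma AL_pow (hq : q ≠ 0) (ha : a ≠ 0) (D : SL(2, ℤ)) (x : ℍ → ℂ) :
    AL k (q ^ a) D x = (AL k (q ^ (a - 1)) D x) ∣[k] heckeDiagMatrix q := by
  have h : q ^ a = q ^ (a - 1) * q := by
    rw [← pow_succ, Nat.sub_add_cancel (Nat.pos_of_ne_zero ha)]
  rw [AL, AL, h, heckeDiagMatrix_mul _ _ (pow_ne_zero _ hq) hq, SlashAction.slash_mul]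

/-- A form which is both `q`-old and `q`-new vanishes. -/
theorem QNew.eq_zero_of_old [NeZero M] (hq : q ≠ 0) (hqM : Nat.Coprime q M) (ha : a ≠ 0)
    (h : QNew M q a k f) {x y : ℍ → ℂ} (hx : IsCF (q ^ (a - 1) * M) k x)
    (hy : IsCF (q ^ (a - 1) * M) k y) (e : f = x + y ∣[k] heckeDiagMatrix q) : f = 0 := by
  have : NeZero q := ⟨hq⟩
  have h1 : NeZero (q ^ (a - 1) * M) := ⟨mul_ne_zero (pow_ne_zero _ hq) (NeZero.ne M)⟩
  have h2 : NeZero (q ^ a * M) := ⟨mul_ne_zero (pow_ne_zero _ hq) (NeZero.ne M)⟩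
  obtain ⟨D, hD⟩ := exists_isAL (M := M) (q := q ^ a) (Nat.Coprime.pow_left a hqM)
  have hfc := h.cf.cg
  have hxc := hx.cg
  have hyc := hy.cg
  have hyd := hyc.slash (cm_heckeDiagMatrix q)
  have hc := Rop_coeff_ne_zero (q := q) (a := a) hq
  -- orthogonality to `y ∣ diag`
  have o1 : upp k f (y ∣[k] heckeDiagMatrix q) = 0 := by
    have := upp_Rop hq ha hD hfc hyc hy.g0Inv
    rw [h.r1 D hD, upp_zero_left hyc] at this
    exact (mul_eq_zero.1 this.symm).resolve_left hc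
  -- orthogonality to `x`
  have hD' : IsAL M (q ^ (a - 1)) D := hD.mono dvd_rfl (pow_dvd_pow q (Nat.sub_le a 1))
  have hxA : IsCF (q ^ (a - 1) * M) k (AL k (q ^ (a - 1)) D x) :=
    hx.AL (pow_ne_zero _ hq) (Nat.Coprime.pow_left _ hqM) hD'
  have o2 : upp k f x = 0 := by
    have e1 := upp_AL_AL (q := q ^ a) (pow_ne_zero a hq) D hfc hxc
    rw [AL_pow hq ha D x] at e1
    have e2 := upp_Rop hq ha hD (hfc.AL (q := q ^ a) D) hxA.cg hxA.g0Inv
    rw [h.r2 D hD, upp_zero_left hxA.cg] at e2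
    have e3 := (mul_eq_zero.1 e2.symm).resolve_left hc
    rw [e3] at e1
    exact (mul_eq_zero.1 e1.symm).resolve_left (zpow_cast_ne_zero (pow_ne_zero a hq) _)
  apply eq_zero_of_upp_self hfc
  conv_lhs => rw [e]
  rw [← e]
  nth_rw 2 [e]
  rw [upp_add_right hfc hxc hyd, o1, o2, add_zero]

end

end Fermat.Agent.Newform
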