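import Fermat.Agent.Newform.Lower

/-!
The normalised Petersson product of all congruence forms (of all levels), and its behaviour under
the slash action of matrices with rational entries.
-/

set_option autoImplicit false

open MeasureTheory UpperHalfPlane ModularForm CongruenceSubgroup Matrix.SpecialLinearGroup
open scoped MatrixGroups ModularForm ENNReal
open Fermat.Agent.Petersson

namespace Fermat.Agent.Newform

/-- `α` has positive determinant and commensurates the principal congruence subgroups. -/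
structure Cm (α : GL (Fin 2) ℝ) : Prop where
  pos : 0 < α.det.val
  comm : ∀ M : ℕ, M ≠ 0 → ∃ M' : ℕ, M' ≠ 0 ∧ ∀ γ ∈ Gamma M', ∃ γ' ∈ Gamma M,
    α * mapGL ℝ γ = mapGL ℝ γ' * α

lemma Cm.mul {α β : GL (Fin 2) ℝ} (hα : Cm α) (hβ : Cm β) : Cm (α * β) := by
  refine ⟨?_, fun M hM => ?_⟩
  · rw [map_mul]; exact mul_pos hα.pos hβ.pos
  · obtain ⟨M₁, h₁, H₁⟩ := hα.comm M hM
    obtain ⟨M₂, h₂, H₂⟩ := hβ.comm M₁ h₁
    refine ⟨M₂, h₂, fun γ hγ => ?_⟩
    obtain ⟨γ₁, hγ₁, e₁⟩ := H₂ γ hγ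
    obtain ⟨γ₂, hγ₂, e₂⟩ := H₁ γ₁ hγ₁
    exact ⟨γ₂, hγ₂, by rw [mul_assoc, e₁, ← mul_assoc, e₂, mul_assoc]⟩

lemma cm_of_int (α : GL (Fin 2) ℝ) (A : Matrix (Fin 2) (Fin 2) ℤ) (d : ℕ) (hd : d ≠ 0)
    (hA : A.det = d) (hα : (α : Matrix (Fin 2) (Fin 2) ℝ) = A.map (Int.cast)) : Cm α := by
  have hdet : (α : Matrix (Fin 2) (Fin 2) ℝ).det = d := by
    rw [hα, Matrix.det_fin_two]
    rw [Matrix.det_fin_two] at hA
    simp only [Matrix.map_apply]
    exact_mod_cast hA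
  refine ⟨?_, fun M hM => ⟨M * d, mul_ne_zero hM hd, fun γ hγ => ?_⟩⟩
  · rw [Matrix.GeneralLinearGroup.val_det_apply, hdet]
    exact_mod_cast Nat.pos_of_ne_zero hd
  · rw [Gamma_mem] at hγ
    obtain ⟨h00, h01, h10, h11⟩ := hγ
    have g00 : ((M * d : ℕ) : ℤ) ∣ γ 0 0 - 1 := by
      rw [← ZMod.intCast_zmod_eq_zero_iff_dvd]; push_cast; rw [h00]; simp
    have g01 : ((M * d : ℕ) : ℤ) ∣ γ 0 1 := (ZMod.intCast_zmod_eq_zero_iff_dvd _ _).1 h01
    have g10 : ((M * d : ℕ) : ℤ) ∣ γ 1 0 := (ZMod.intCast_zmod_eq_zero_iff_dvd _ _).1 h10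
    have g11 : ((M * d : ℕ) : ℤ) ∣ γ 1 1 - 1 := by
      rw [← ZMod.intCast_zmod_eq_zero_iff_dvd]; push_cast; rw [h11]; simp
    obtain ⟨x00, e00⟩ := g00
    obtain ⟨x01, e01⟩ := g01
    obtain ⟨x10, e10⟩ := g10
    obtain ⟨x11, e11⟩ := g11
    set X : Matrix (Fin 2) (Fin 2) ℤ := !![x00, x01; x10, x11] with hX
    set Y : Matrix (Fin 2) (Fin 2) ℤ := A * X * A.adjugate with hY
    have hγ1 : (γ : Matrix (Fin 2) (Fin 2) ℤ) = 1 + ((M * d : ℕ) : ℤ) • X := by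
      ext a b
      fin_cases a <;> fin_cases b <;> simp [hX]
      · push_cast at e00; linear_combination e00
      · push_cast at e01; linear_combination e01
      · push_cast at e10; linear_combination e10
      · push_cast at e11; linear_combination e11
    have hmul : A * (γ : Matrix (Fin 2) (Fin 2) ℤ) = (1 + (M : ℤ) • Y) * A := by
      rw [hγ1, hY, mul_add, add_mul, mul_one, one_mul]
      congr 1
      rw [Matrix.mul_smul, Matrix.smul_mul, mul_assoc (A * X), Matrix.adjugate_mul, hA,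
        Matrix.mul_smul, mul_one, smul_smul]
      push_cast
      rfl
    have hdetY : (1 + (M : ℤ) • Y).det = 1 := by
      have := congrArg Matrix.det hmul
      rw [Matrix.det_mul, Matrix.det_mul, γ.det_coe, mul_one, hA] at this
      have hd' : (d : ℤ) ≠ 0 := by exact_mod_cast hd
      have h2 : ((1 + (M : ℤ) • Y).det - 1) * d = 0 := by linear_combination -this
      rcases mul_eq_zero.1 h2 with h | h
      · linarith
      · exact absurd h hd'
    refine ⟨⟨1 + (M : ℤ) • Y, hdetY⟩, ?_, ?_⟩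
    · rw [Gamma_mem]
      have key : ∀ a b, (((1 + (M : ℤ) • Y) a b : ℤ) : ZMod M) =
          (((1 : Matrix (Fin 2) (Fin 2) ℤ) a b : ℤ) : ZMod M) := by
        intro a b
        rw [Matrix.add_apply, Matrix.smul_apply, smul_eq_mul]
        push_cast
        simp
      refine ⟨(key 0 0).trans (by simp), (key 0 1).trans (by simp), (key 1 0).trans (by simp),
        (key 1 1).trans (by simp)⟩
    · apply Units.ext
      rw [Units.val_mul, Units.val_mul, hα]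
      have e1 : ((mapGL ℝ γ : GL (Fin 2) ℝ) : Matrix (Fin 2) (Fin 2) ℝ) =
          (γ : Matrix (Fin 2) (Fin 2) ℤ).map Int.cast := by
        rw [val_mapGL]; ext a b; fin_cases a <;> fin_cases b <;> rfl
      have e2 : ((mapGL ℝ (⟨1 + (M : ℤ) • Y, hdetY⟩ : SL(2, ℤ)) : GL (Fin 2) ℝ) :
          Matrix (Fin 2) (Fin 2) ℝ) = (1 + (M : ℤ) • Y).map Int.cast := by
        rw [val_mapGL]; ext a b; fin_cases a <;> fin_cases b <;> rfl
      rw [e1, e2]
      have h3 := congrArg (fun B : Matrix (Fin 2) (Fin 2) ℤ => B.map (Int.cast : ℤ → ℝ)) hmul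
      have h4 : ∀ B C : Matrix (Fin 2) (Fin 2) ℤ, (B * C).map (Int.cast : ℤ → ℝ) =
          B.map Int.cast * C.map Int.cast := fun B C =>
        Matrix.map_mul (f := Int.castRingHom ℝ)
      simp only [h4] at h3
      exact h3

lemma cm_mapGL (γ : SL(2, ℤ)) : Cm (mapGL ℝ γ) :=
  cm_of_int _ (γ : Matrix (Fin 2) (Fin 2) ℤ) 1 one_ne_zero (by rw [γ.det_coe]; rfl) (by
    rw [val_mapGL]; ext a b; fin_cases a <;> fin_cases b <;> rfl)

lemma cm_heckeMatrix (q j : ℕ) : Cm (heckeMatrix q j) := by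
  by_cases hq : q = 0
  · subst hq
    rw [heckeMatrix_zero]
    exact cm_of_int _ 1 1 one_ne_zero (by simp) (by simp)
  · refine cm_of_int _ !![1, j; 0, q] q hq (by simp) ?_
    rw [val_heckeMatrix hq]
    ext a b; fin_cases a <;> fin_cases b <;> simp

lemma cm_heckeDiagMatrix (q : ℕ) : Cm (heckeDiagMatrix q) := by
  by_cases hq : q = 0
  · subst hq
    rw [heckeDiagMatrix_zero]
    exact cm_of_int _ 1 1 one_ne_zero (by simp) (by simp)
  · refine cm_of_int _ !![q, 0; 0, 1] q hq (by simp) ?_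
    rw [val_heckeDiagMatrix hq]
    ext a b; fin_cases a <;> fin_cases b <;> simp

/-- `f` is invariant under some principal congruence subgroup, and the Petersson product makes
sense for it. -/
structure CG (k : ℤ) (f : ℍ → ℂ) : Prop where
  good : IsGood k f
  inv : ∃ M : ℕ, M ≠ 0 ∧ ∀ γ ∈ Gamma M, f ∣[k] (mapGL ℝ γ) = f

section

variable {k : ℤ} {f g f' g' : ℍ → ℂ}

lemma gamma_le_gamma {M N : ℕ} (h : M ∣ N) : Gamma N ≤ Gamma M := by
  intro γ hγ
  rw [Gamma_mem] at hγ ⊢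
  have key : ∀ x : ℤ, ((x : ZMod N) = 0 → (x : ZMod M) = 0) := fun x hx => by
    rw [ZMod.intCast_zmod_eq_zero_iff_dvd] at hx ⊢
    exact (Int.natCast_dvd_natCast.2 h).trans hx
  have key1 : ∀ x : ℤ, ((x : ZMod N) = 1 → (x : ZMod M) = 1) := fun x hx => by
    have := key (x - 1) (by push_cast; rw [hx, sub_self])
    push_cast at this
    exact sub_eq_zero.1 this
  exact ⟨key1 _ hγ.1, key _ hγ.2.1, key _ hγ.2.2.1, key1 _ hγ.2.2.2⟩

lemma CG.common (hf : CG k f) (hg : CG k g) : ∃ M : ℕ, M ≠ 0 ∧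
    (∀ γ ∈ Gamma M, f ∣[k] (mapGL ℝ γ) = f) ∧ (∀ γ ∈ Gamma M, g ∣[k] (mapGL ℝ γ) = g) := by
  obtain ⟨M, hM, h⟩ := hf.inv
  obtain ⟨N, hN, h'⟩ := hg.inv
  exact ⟨M * N, mul_ne_zero hM hN, fun γ hγ => h γ (gamma_le_gamma (Nat.dvd_mul_right M N) hγ),
    fun γ hγ => h' γ (gamma_le_gamma (Nat.dvd_mul_left N M) hγ)⟩

lemma CG.zero : CG k 0 := ⟨IsGood.zero, 1, one_ne_zero, fun _ _ => SlashAction.zero_slash _ _⟩

lemma CG.add (hf : CG k f) (hg : CG k g) : CG k (f + g) := by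
  obtain ⟨M, hM, h, h'⟩ := hf.common hg
  exact ⟨hf.good.add hg.good, M, hM, fun γ hγ => by rw [SlashAction.add_slash, h γ hγ, h' γ hγ]⟩

lemma isGood_smul (hf : IsGood k f) (c : ℂ) : IsGood k (c • f) := by
  refine ⟨hf.cont.const_smul c, ?_⟩
  obtain ⟨C, hC⟩ := hf.bdd
  refine ⟨‖c‖ * (‖c‖ * C), fun τ => ?_⟩
  rw [petersson_smul_right, petersson_smul_left]
  simp only [Pi.smul_apply, smul_eq_mul, norm_mul, RCLike.norm_conj]
  gcongr
  exact hC τ

lemma smul_slash_of_pos (c : ℂ) (f : ℍ → ℂ) {α : GL (Fin 2) ℝ} (hα : 0 < α.det.val) :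
    (c • f) ∣[k] α = c • (f ∣[k] α) := by
  rw [ModularForm.smul_slash, σ_of_pos hα]
  rfl

lemma smul_slash_mapGL (c : ℂ) (f : ℍ → ℂ) (γ : SL(2, ℤ)) :
    (c • f) ∣[k] (mapGL ℝ γ) = c • (f ∣[k] (mapGL ℝ γ)) := smul_slash_of_pos c f (cm_mapGL γ).pos

lemma CG.smul (hf : CG k f) (c : ℂ) : CG k (c • f) := by
  obtain ⟨M, hM, h⟩ := hf.inv
  exact ⟨isGood_smul hf.good c, M, hM, fun γ hγ => by rw [smul_slash_mapGL, h γ hγ]⟩

lemma CG.sum {ι : Type*} (s : Finset ι) {F : ι → ℍ → ℂ} (h : ∀ i ∈ s, CG k (F i)) :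
    CG k (∑ i ∈ s, F i) := by
  classical
  induction s using Finset.induction_on with
  | empty => simpa using CG.zero
  | insert i s hi ih =>
    rw [Finset.sum_insert hi]
    exact (h i (Finset.mem_insert_self _ _)).add (ih fun j hj => h j (Finset.mem_insert_of_mem hj))

lemma CG.slash (hf : CG k f) {α : GL (Fin 2) ℝ} (hα : Cm α) : CG k (f ∣[k] α) := by
  obtain ⟨M, hM, h⟩ := hf.inv
  obtain ⟨M', hM', h'⟩ := hα.comm M hM
  refine ⟨hf.good.slash α hα.pos, M', hM', fun γ hγ => ?_⟩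
  obtain ⟨γ', hγ', e⟩ := h' γ hγ
  rw [← SlashAction.slash_mul, e, SlashAction.slash_mul, h γ' hγ']

lemma IsCF.cg {N : ℕ} [NeZero N] (hf : IsCF N k f) : CG k f := by
  obtain ⟨F, rfl⟩ := hf
  refine ⟨isGood_cuspForm F, N, NeZero.ne N, fun γ hγ => g0Inv_coe F γ ?_⟩
  rw [Gamma_mem] at hγ
  exact (ZMod.intCast_zmod_eq_zero_iff_dvd _ _).1 hγ.2.2.1

open Classical in
/-- The Petersson product (normalised by the volume). -/
noncomputable def upp (k : ℤ) (f g : ℍ → ℂ) : ℂ :=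
  if h : ∃ M : ℕ, M ≠ 0 ∧ (∀ γ ∈ Gamma M, f ∣[k] (mapGL ℝ γ) = f) ∧
    (∀ γ ∈ Gamma M, g ∣[k] (mapGL ℝ γ) = g) then
    pp ((Gamma h.choose).map (mapGL ℝ)) k f g else 0

lemma pp_gamma_eq (hf : IsGood k f) (hg : IsGood k g) {M N : ℕ} (hM : M ≠ 0) (hN : N ≠ 0)
    (hfM : ∀ γ ∈ Gamma M, f ∣[k] (mapGL ℝ γ) = f) (hgM : ∀ γ ∈ Gamma M, g ∣[k] (mapGL ℝ γ) = g)
    (hfN : ∀ γ ∈ Gamma N, f ∣[k] (mapGL ℝ γ) = f) (hgN : ∀ γ ∈ Gamma N, g ∣[k] (mapGL ℝ γ) = g) :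
    pp ((Gamma M).map (mapGL ℝ)) k f g = pp ((Gamma N).map (mapGL ℝ)) k f g := by
  have : NeZero M := ⟨hM⟩
  have : NeZero N := ⟨hN⟩
  have : NeZero (M * N) := ⟨mul_ne_zero hM hN⟩
  have key : ∀ L : ℕ, NeZero L → L ∣ M * N → (∀ γ ∈ Gamma L, f ∣[k] (mapGL ℝ γ) = f) →
      (∀ γ ∈ Gamma L, g ∣[k] (mapGL ℝ γ) = g) →
      pp ((Gamma (M * N)).map (mapGL ℝ)) k f g = pp ((Gamma L).map (mapGL ℝ)) k f g := by
    intro L hL hd hfL hgL
    unfold pp
    exact gmean_eq_of_le (Subgroup.map_mono (gamma_le_gamma hd)) (hasFinWeight_map _)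
      (hasFinWeight_map _) (hf.measurable hg) (petersson_inv_of_inv hfL hgL)
  rw [← key M ‹_› (Nat.dvd_mul_right M N) hfM hgM, key N ‹_› (Nat.dvd_mul_left N M) hfN hgN]

lemma upp_eq (hf : CG k f) (hg : CG k g) {M : ℕ} (hM : M ≠ 0)
    (hfM : ∀ γ ∈ Gamma M, f ∣[k] (mapGL ℝ γ) = f) (hgM : ∀ γ ∈ Gamma M, g ∣[k] (mapGL ℝ γ) = g) :
    upp k f g = pp ((Gamma M).map (mapGL ℝ)) k f g := by
  have h : ∃ M : ℕ, M ≠ 0 ∧ (∀ γ ∈ Gamma M, f ∣[k] (mapGL ℝ γ) = f) ∧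
    (∀ γ ∈ Gamma M, g ∣[k] (mapGL ℝ γ) = g) := ⟨M, hM, hfM, hgM⟩
  unfold upp
  rw [dif_pos h]
  exact pp_gamma_eq hf.good hg.good h.choose_spec.1 hM h.choose_spec.2.1 h.choose_spec.2.2 hfM hgM

lemma exists_gamma (hf : CG k f) (hg : CG k g) : ∃ M : ℕ, ∃ _ : NeZero M,
    (∀ γ ∈ Gamma M, f ∣[k] (mapGL ℝ γ) = f) ∧ (∀ γ ∈ Gamma M, g ∣[k] (mapGL ℝ γ) = g) := by
  obtain ⟨M, hM, h, h'⟩ := hf.common hg
  exact ⟨M, ⟨hM⟩, h, h'⟩

lemma upp_add_left (hf : CG k f) (hf' : CG k f') (hg : CG k g) :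
    upp k (f + f') g = upp k f g + upp k f' g := by
  obtain ⟨M, hM, h1, h2⟩ := exists_gamma hf hf'
  obtain ⟨N, hN, h3, -⟩ := exists_gamma hg hg
  have : NeZero (M * N) := ⟨mul_ne_zero (NeZero.ne M) (NeZero.ne N)⟩
  have hMN := gamma_le_gamma (Nat.dvd_mul_right M N)
  have hMN' := gamma_le_gamma (Nat.dvd_mul_left N M)
  rw [upp_eq (hf.add hf') hg (NeZero.ne (M * N)) (fun γ hγ => by
      rw [SlashAction.add_slash, h1 γ (hMN hγ), h2 γ (hMN hγ)]) (fun γ hγ => h3 γ (hMN' hγ)),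
    upp_eq hf hg (NeZero.ne (M * N)) (fun γ hγ => h1 γ (hMN hγ)) (fun γ hγ => h3 γ (hMN' hγ)),
    upp_eq hf' hg (NeZero.ne (M * N)) (fun γ hγ => h2 γ (hMN hγ)) (fun γ hγ => h3 γ (hMN' hγ)),
    pp_add_left (hasFinWeight_map _) hf.good hf'.good hg.good]

lemma upp_symm (hf : CG k f) (hg : CG k g) : upp k g f = starRingEnd ℂ (upp k f g) := by
  obtain ⟨M, hM, h1, h2⟩ := exists_gamma hf hg
  rw [upp_eq hf hg (NeZero.ne M) h1 h2, upp_eq hg hf (NeZero.ne M) h2 h1,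
    pp_symm (hasFinWeight_map _)]

lemma upp_smul_left (hf : CG k f) (hg : CG k g) (c : ℂ) :
    upp k (c • f) g = starRingEnd ℂ c * upp k f g := by
  obtain ⟨M, hM, h1, h2⟩ := exists_gamma hf hg
  rw [upp_eq hf hg (NeZero.ne M) h1 h2, upp_eq (hf.smul c) hg (NeZero.ne M) (fun γ hγ => by
      rw [smul_slash_mapGL, h1 γ hγ]) h2,
    pp_smul_left (hasFinWeight_map _)]

lemma upp_smul_right (hf : CG k f) (hg : CG k g) (c : ℂ) :
    upp k f (c • g) = c * upp k f g := by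
  rw [upp_symm (hg.smul c) hf, upp_smul_left hg hf, map_mul, ← upp_symm hg hf, Complex.conj_conj]

lemma upp_add_right (hf : CG k f) (hg : CG k g) (hg' : CG k g') :
    upp k f (g + g') = upp k f g + upp k f g' := by
  rw [upp_symm (hg.add hg') hf, upp_add_left hg hg' hf, map_add, ← upp_symm hg hf,
    ← upp_symm hg' hf]

lemma upp_zero_left (hg : CG k g) : upp k 0 g = 0 := by
  have := upp_smul_left (f := 0) CG.zero hg 0
  simpa using this

lemma upp_zero_right (hf : CG k f) : upp k f 0 = 0 := by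
  have := upp_smul_right (g := 0) hf CG.zero 0
  simpa using this

lemma upp_sum_left {ι : Type*} (s : Finset ι) {F : ι → ℍ → ℂ} (h : ∀ i ∈ s, CG k (F i))
    (hg : CG k g) : upp k (∑ i ∈ s, F i) g = ∑ i ∈ s, upp k (F i) g := by
  classical
  induction s using Finset.induction_on with
  | empty => simpa using upp_zero_left hg
  | insert i s hi ih =>
    rw [Finset.sum_insert hi, Finset.sum_insert hi, upp_add_left (h i (Finset.mem_insert_self _ _))
      (CG.sum s fun j hj => h j (Finset.mem_insert_of_mem hj)) hg,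
      ih fun j hj => h j (Finset.mem_insert_of_mem hj)]

lemma upp_self_nonneg (hf : CG k f) : ∃ r : ℝ, 0 ≤ r ∧ upp k f f = r := by
  obtain ⟨M, hM, h1, -⟩ := exists_gamma hf hf
  rw [upp_eq hf hf (NeZero.ne M) h1 h1]
  exact pp_self_nonneg (hasFinWeight_map _) f

lemma eq_zero_of_upp_self (hf : CG k f) (h : upp k f f = 0) : f = 0 := by
  obtain ⟨M, hM, h1, -⟩ := exists_gamma hf hf
  rw [upp_eq hf hf (NeZero.ne M) h1 h1] at h
  exact eq_zero_of_pp_self (hasFinWeight_map _) hf.good (petersson_inv_of_inv h1 h1) h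

/-- The Petersson product is invariant (up to a scalar) under the slash action. -/
lemma upp_slash (hf : CG k f) (hg : CG k g) {α : GL (Fin 2) ℝ} (hα : Cm α) :
    upp k (f ∣[k] α) (g ∣[k] α) = ((α.det.val : ℝ) : ℂ) ^ (k - 2) * upp k f g := by
  obtain ⟨M, hM, h1, h2⟩ := exists_gamma hf hg
  obtain ⟨M', hM', h'⟩ := hα.comm M (NeZero.ne M)
  have : NeZero M' := ⟨hM'⟩
  have h1' : ∀ γ ∈ Gamma M', (f ∣[k] α) ∣[k] (mapGL ℝ γ) = f ∣[k] α := fun γ hγ => by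
    obtain ⟨γ', hγ', e⟩ := h' γ hγ
    rw [← SlashAction.slash_mul, e, SlashAction.slash_mul, h1 γ' hγ']
  have h2' : ∀ γ ∈ Gamma M', (g ∣[k] α) ∣[k] (mapGL ℝ γ) = g ∣[k] α := fun γ hγ => by
    obtain ⟨γ', hγ', e⟩ := h' γ hγ
    rw [← SlashAction.slash_mul, e, SlashAction.slash_mul, h2 γ' hγ']
  rw [upp_eq hf hg (NeZero.ne M) h1 h2, upp_eq (hf.slash hα) (hg.slash hα) hM' h1' h2']
  set H : Subgroup (GL (Fin 2) ℝ) := (Gamma M).map (mapGL ℝ) with hH
  set K : Subgroup (GL (Fin 2) ℝ) := H.comap (MulAut.conj α).toMonoidHom with hK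
  have hmem : ∀ g, g ∈ K ↔ α * g * α⁻¹ ∈ H := fun g => Iff.rfl
  have hinj : Function.Injective (fun x : K => (⟨α * x * α⁻¹, (hmem x).1 x.2⟩ : H)) := by
    intro x y hxy
    have := congrArg (fun z : H => (z : GL (Fin 2) ℝ)) hxy
    simpa using this
  have : Countable K := hinj.countable
  have hle : (Gamma M').map (mapGL ℝ) ≤ K := by
    rintro _ ⟨γ, hγ, rfl⟩
    obtain ⟨γ', hγ', e⟩ := h' γ hγ
    rw [hmem, e]
    exact ⟨γ', hγ', by group⟩
  have hwH : HasFinWeight (volume : Measure ℍ) H := hasFinWeight_map _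
  have hinv := petersson_inv_of_inv h1 h2
  rw [← pp_conj hwH α hα.pos hmem hf.good hg.good hinv]
  unfold pp
  refine gmean_eq_of_le hle (hwH.conj α hmem) (hasFinWeight_map _)
    ((hf.slash hα).good.measurable (hg.slash hα).good) ?_
  intro x hx τ
  obtain ⟨γ, hγ, e⟩ := (hmem x).1 hx
  have hx' : α * x = mapGL ℝ γ * α := by rw [e]; group
  have key : ∀ u : ℍ → ℂ, (∀ γ ∈ Gamma M, u ∣[k] (mapGL ℝ γ) = u) →
      (u ∣[k] α) ∣[k] x = u ∣[k] α := fun u hu => by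
    rw [← SlashAction.slash_mul, hx', SlashAction.slash_mul, hu γ hγ]
  have hdx : x.det.val = 1 := by
    have h5 : (α * x).det = (mapGL ℝ γ * α).det := by rw [hx']
    rw [map_mul, map_mul, mul_comm] at h5
    have h6 : x.det = (mapGL ℝ γ).det := mul_right_cancel h5
    rw [h6, Matrix.SpecialLinearGroup.det_mapGL]
    rfl
  have h7 := petersson_slash_pos k (f ∣[k] α) (g ∣[k] α) x (by rw [hdx]; exact one_pos) τ
  rw [key f h1, key g h2, hdx] at h7
  rw [h7]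
  simp

end

end Fermat.Agent.Newform
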